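import Mathlib
import Fermat.Agent.S14x.Asm.Defs

/-!
# S14 / package LFN (coordinator helper22): interface

Representation-free analytic package: number fields are TYPES, ideals are `Ideal (𝓞 F)`, primes
are `IsDedekindDomain.HeightOneSpectrum (𝓞 F)`, the norm is `Ideal.absNorm`.  All sums over
primes are FINITE sums over `Finset`s (no `tsum` over primes in any interface).

Deliverables of the package (shapes of `Asm/Defs.lean`): `Asm.StDgen`, `Asm.StD p` (from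
`Asm.StArtinExists`), `Asm.StU` (from `Asm.StCNT`).  They are obtained from the abstract forms

* `StDabs` — (D): in an extension `L/K` of degree `≥ 2`, outside any finite set there is a
  degree-one prime of `K` with a prime of `L` above it of residue degree `≠ 1`;
* `StUabs` — (U): a finite quotient `H` of the ideals (prime to a modulus) in which norms from
  `M` are trivial and whose classes are equidistributed with a power-saving error term has at
  most `[M : E]` elements.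

Only definitions in this file.
-/

set_option autoImplicit false

noncomputable section

open NumberField IsDedekindDomain Filter Topology

namespace Fermat.Agent.S14x.LFN

/-! ### Vocabulary -/

section Basic

variable (F : Type*) [Field F] [NumberField F]

/-- `N(I)^(-s)` as a real number (`= 0` for `I = ⊥`, `s ≠ 0`). -/
def nrm (s : ℝ) (I : Ideal (𝓞 F)) : ℝ := (Ideal.absNorm I : ℝ) ^ (-s)

/-- the real Dedekind zeta function as a sum over ideals. -/
def zetaR (s : ℝ) : ℝ := ∑' I : Ideal (𝓞 F), nrm F s I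

/-- the primes of absolute degree one (prime norm). -/
def degOne : Set (HeightOneSpectrum (𝓞 F)) := {P | (Ideal.absNorm P.asIdeal).Prime}

end Basic

/-! ### Leaves: zeta function and Euler product -/

section Leaves

variable (F : Type*) [Field F] [NumberField F]

/-- **[ZS]** the Dedekind zeta function of Mathlib is the sum of `N(I)^(-s)` over all ideals. -/
def StZS : Prop :=
  ∀ s : ℝ, 1 < s → Summable (fun I : Ideal (𝓞 F) => nrm F s I) ∧
    dedekindZeta F (s : ℂ) = ((zetaR F s : ℝ) : ℂ)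

/-- **[ZB]** `c ≤ (s - 1) ζ_F(s) ≤ C` as `s → 1+`. -/
def StZB : Prop :=
  ∃ c C : ℝ, 0 < c ∧ ∀ᶠ s in 𝓝[>] (1 : ℝ), c ≤ (s - 1) * zetaR F s ∧ (s - 1) * zetaR F s ≤ C

/-- **[FIB]** a sum over ideals is an `L`-series: grouping the ideals by their norm. -/
def StFIB : Prop :=
  ∀ (φ : Ideal (𝓞 F) → ℂ), (∀ I, ‖φ I‖ ≤ 1) → ∀ s : ℝ, 1 < s →
    Summable (fun I : Ideal (𝓞 F) => ‖φ I * ((nrm F s I : ℝ) : ℂ)‖) ∧
    LSeriesSummable (fun n => ∑ᶠ I ∈ {I : Ideal (𝓞 F) | Ideal.absNorm I = n}, φ I) (s : ℂ) ∧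
    LSeries (fun n => ∑ᶠ I ∈ {I : Ideal (𝓞 F) | Ideal.absNorm I = n}, φ I) (s : ℂ) =
      ∑' I : Ideal (𝓞 F), φ I * ((nrm F s I : ℝ) : ℂ)

/-- **[EP]** Euler product over the prime ideals of a Dedekind domain, for a completely
multiplicative weight with summable norm, with values in a complete normed field. -/
def StEP (R : Type*) [CommRing R] [IsDedekindDomain R] : Prop :=
  ∀ (𝕜 : Type) [NormedField 𝕜] [CompleteSpace 𝕜] (w : Ideal R →*₀ 𝕜),
    Summable (fun I : Ideal R => ‖w I‖) →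
    HasProd (fun P : HeightOneSpectrum R => (1 - w P.asIdeal)⁻¹) (∑' I : Ideal R, w I)

/-- **[PC]** prime counting over the rational primes: the sums of `N(P)^(-s)` over primes of
degree `≥ 2`, and of `N(P)^(-2s)` over all primes, are bounded for `s ≥ 1`. -/
def StPC : Prop :=
  ∃ C : ℝ, ∀ s : ℝ, 1 ≤ s → ∀ T : Finset (HeightOneSpectrum (𝓞 F)),
    ((∀ P ∈ T, P ∉ degOne F) → ∑ P ∈ T, nrm F s P.asIdeal ≤ C) ∧
    ∑ P ∈ T, nrm F s P.asIdeal ^ 2 ≤ C

/-- **[PZ-lower]** as `s → 1+` there is a finite set of degree-one primes with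
`∑ N(P)^(-s) ≥ log (1/(s-1)) - C`. -/
def StPZlower : Prop :=
  ∃ C : ℝ, ∀ᶠ s in 𝓝[>] (1 : ℝ), ∃ T : Finset (HeightOneSpectrum (𝓞 F)),
    (∀ P ∈ T, P ∈ degOne F) ∧ Real.log (1 / (s - 1)) - C ≤ ∑ P ∈ T, nrm F s P.asIdeal

/-- **[PZ-upper]** as `s → 1+`, `∑_{P ∈ T} N(P)^(-s) ≤ log (1/(s-1)) + C` for every finite set
`T` of primes. -/
def StPZupper : Prop :=
  ∃ C : ℝ, ∀ᶠ s in 𝓝[>] (1 : ℝ), ∀ T : Finset (HeightOneSpectrum (𝓞 F)),
    ∑ P ∈ T, nrm F s P.asIdeal ≤ Real.log (1 / (s - 1)) + C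

end Leaves

/-! ### Leaves: relative extensions -/

section Relative

variable (K L : Type*) [Field K] [NumberField K] [Field L] [NumberField L] [Algebra K L]

/-- **[NRM]** a prime `𝔓` of `L` of absolute degree one lies over a prime `P` of `K` of absolute
degree one, with the same norm and `N_{L/K} 𝔓 = P`; at most `[L : K]` primes lie over `P`. -/
def StNRM : Prop :=
  (∀ 𝔓 : HeightOneSpectrum (𝓞 L), 𝔓 ∈ degOne L →
    ∃ P : HeightOneSpectrum (𝓞 K), P ∈ degOne K ∧ 𝔓.asIdeal.under (𝓞 K) = P.asIdeal ∧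
      Ideal.absNorm P.asIdeal = Ideal.absNorm 𝔓.asIdeal ∧
      Ideal.relNorm (𝓞 K) 𝔓.asIdeal = P.asIdeal) ∧
  (∀ (P : HeightOneSpectrum (𝓞 K)) (S : Finset (HeightOneSpectrum (𝓞 L))),
    (∀ 𝔓 ∈ S, 𝔓.asIdeal.under (𝓞 K) = P.asIdeal) → S.card ≤ Module.finrank K L)

/-- **[RAM]** outside a finite set `T₀` of primes of `K`: if all primes of `L` above `P` have
the same norm as `P` (residue degree one), then there are `[L : K]` distinct primes of `L`
above `P` (Mathlib: finiteness of ramification via the discriminant + `∑ e f = n`). -/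
def StRAM : Prop :=
  ∃ T₀ : Finset (HeightOneSpectrum (𝓞 K)), ∀ P : HeightOneSpectrum (𝓞 K), P ∉ T₀ →
    (∀ 𝔓 : HeightOneSpectrum (𝓞 L), 𝔓.asIdeal.under (𝓞 K) = P.asIdeal →
      Ideal.absNorm 𝔓.asIdeal = Ideal.absNorm P.asIdeal) →
    ∃ S : Finset (HeightOneSpectrum (𝓞 L)), S.card = Module.finrank K L ∧
      ∀ 𝔓 ∈ S, 𝔓.asIdeal.under (𝓞 K) = P.asIdeal

end Relative

/-! ### Leaves: Abel summation and characters -/

section Abel

/-- **[AB]** Abel summation: power-saving partial sums give an `L`-series bounded on `(1, 2]`. -/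
def StAB : Prop :=
  ∀ (f : ℕ → ℂ) (C δ : ℝ), 0 < δ → δ ≤ 1 →
    (∀ n : ℕ, 1 ≤ n → ‖∑ k ∈ Finset.Icc 1 n, f k‖ ≤ C * (n : ℝ) ^ (1 - δ)) →
    (∀ s : ℝ, 1 < s → LSeriesSummable f (s : ℂ)) →
    ∃ B : ℝ, ∀ s : ℝ, 1 < s → s ≤ 2 → ‖LSeries f (s : ℂ)‖ ≤ B

/-- **[CH]** characters of a finite commutative group: number, orthogonality, AM-GM bound. -/
def StCH (H : Type*) [CommGroup H] [Finite H] : Prop :=
  Nat.card (H →* ℂˣ) = Nat.card H ∧
  (∀ χ : H →* ℂˣ, χ ≠ 1 → ∑ᶠ c : H, ((χ c : ℂˣ) : ℂ) = 0) ∧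
  (∀ g : H, g ≠ 1 → ∀ x : ℝ, 0 ≤ x →
    ∏ᶠ χ : H →* ℂˣ, ‖(1 : ℂ) - ((χ g : ℂˣ) : ℂ) * (x : ℂ)‖ ≤
      (1 + x ^ 2) ^ ((Nat.card H : ℝ) / 2))

end Abel

/-! ### Abstract deliverables -/

section Abstract

/-- **(D), abstract form**: outside any finite set of primes there is a degree-one prime of `K`
with a prime of `L` above it whose norm is different (residue degree `≠ 1`). -/
def StDabs : Prop :=
  ∀ (K L : Type) [Field K] [NumberField K] [Field L] [NumberField L] [Algebra K L],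
    2 ≤ Module.finrank K L →
    ∀ T : Finset (HeightOneSpectrum (𝓞 K)),
      ∃ P : HeightOneSpectrum (𝓞 K), P ∉ T ∧ P ∈ degOne K ∧
        ∃ 𝔓 : HeightOneSpectrum (𝓞 L), 𝔓.asIdeal.under (𝓞 K) = P.asIdeal ∧
          Ideal.absNorm 𝔓.asIdeal ≠ Ideal.absNorm P.asIdeal

/-- **(U), abstract form**: `cl` is the class map to a finite group `H` (value `0` on the ideals
not prime to the modulus), norms from `M` are trivial in `H`, and the ideals are equidistributed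
among the classes with a power-saving error term.  Then `|H| ≤ [M : E]`. -/
def StUabs : Prop :=
  ∀ (E M : Type) [Field E] [NumberField E] [Field M] [NumberField M] [Algebra E M]
    (H : Type) [CommGroup H] [Finite H]
    (cl : Ideal (𝓞 E) →*₀ WithZero H),
    {P : HeightOneSpectrum (𝓞 E) | cl P.asIdeal = 0}.Finite →
    (∀ 𝔄 : Ideal (𝓞 M), cl (Ideal.relNorm (𝓞 E) 𝔄) = 0 ∨ cl (Ideal.relNorm (𝓞 E) 𝔄) = 1) →
    (∃ κ C δ : ℝ, 0 < δ ∧ ∀ (c : H) (n : ℕ), 1 ≤ n →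
      |(Nat.card {I : Ideal (𝓞 E) // cl I = (c : WithZero H) ∧ Ideal.absNorm I ≤ n} : ℝ) - κ * n|
        ≤ C * (n : ℝ) ^ (1 - δ)) →
    Nat.card H ≤ Module.finrank E M

/-- **[RAY]** the classes of ideals prime to `𝔪` modulo `P_𝔪 N(I_M^(𝔪))` form a finite
commutative group, and the counting statement of CNT passes to it. -/
def StRAY : Prop :=
  Asm.StCNT →
  ∀ (E M : Type) [Field E] [NumberField E] [Field M] [NumberField M] [Algebra E M]
    (𝔪 : Ideal (𝓞 E)), 𝔪 ≠ ⊥ →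
    ∃ (H : Type) (_ : CommGroup H) (_ : Finite H) (cl : Ideal (𝓞 E) →*₀ WithZero H),
      (∀ 𝔞 : Ideal (𝓞 E), cl 𝔞 = 0 ↔ ¬ (𝔞 ≠ ⊥ ∧ 𝔞 ⊔ 𝔪 = ⊤)) ∧
      (∀ 𝔞 𝔟 : Ideal (𝓞 E), 𝔞 ≠ ⊥ → 𝔞 ⊔ 𝔪 = ⊤ → 𝔟 ≠ ⊥ → 𝔟 ⊔ 𝔪 = ⊤ →
        (cl 𝔞 = cl 𝔟 ↔ Asm.NormEquiv E M 𝔪 𝔞 𝔟)) ∧
      (∃ κ C δ : ℝ, 0 < δ ∧ ∀ (c : H) (n : ℕ), 1 ≤ n →
        |(Nat.card {I : Ideal (𝓞 E) // cl I = (c : WithZero H) ∧ Ideal.absNorm I ≤ n} : ℝ)
          - κ * n| ≤ C * (n : ℝ) ^ (1 - δ))

end Abstract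

end Fermat.Agent.S14x.LFN
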