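import Mathlib
import Fermat.Agent.S14x.LFN.Defs

/-!
# S14 / LFN, leaf [NRM] (helper6)

A prime `𝔓` of `L` of absolute degree one lies over a prime `P` of `K` of absolute degree one,
with the same norm and `N_{L/K} 𝔓 = P`; at most `[L : K]` primes of `L` lie over a prime of `K`.
-/

set_option autoImplicit false
set_option linter.style.haveILetI false
set_option linter.unusedSectionVars false

open NumberField IsDedekindDomain

namespace Fermat.Agent.S14x.LFN.H6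

variable (K L : Type*) [Field K] [NumberField K] [Field L] [NumberField L] [Algebra K L]

/-- The prime of `K` below a prime of `L`. -/
noncomputable def below (𝔓 : HeightOneSpectrum (𝓞 L)) : HeightOneSpectrum (𝓞 K) where
  asIdeal := 𝔓.asIdeal.under (𝓞 K)
  isPrime := inferInstance
  ne_bot := by
    haveI : 𝔓.asIdeal.IsMaximal := 𝔓.isMaximal
    intro h
    have h1 : 𝔓.asIdeal = ⊥ :=
      Ideal.eq_bot_of_comap_eq_bot (R := 𝓞 K) (by rwa [Ideal.under_def] at h)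
    exact 𝔓.ne_bot h1

lemma below_asIdeal (𝔓 : HeightOneSpectrum (𝓞 L)) :
    (below K L 𝔓).asIdeal = 𝔓.asIdeal.under (𝓞 K) := rfl

/-- `N_{L/K} 𝔓 = P ^ f`. -/
lemma relNorm_eq_pow (𝔓 : HeightOneSpectrum (𝓞 L)) :
    Ideal.relNorm (𝓞 K) 𝔓.asIdeal =
      (below K L 𝔓).asIdeal ^ 𝔓.asIdeal.inertiaDeg (𝓞 K) := by
  haveI : 𝔓.asIdeal.IsMaximal := 𝔓.isMaximal
  haveI : (below K L 𝔓).asIdeal.IsMaximal := (below K L 𝔓).isMaximal
  haveI : 𝔓.asIdeal.LiesOver (below K L 𝔓).asIdeal := ⟨rfl⟩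
  exact Ideal.relNorm_eq_pow_of_isMaximal 𝔓.asIdeal (below K L 𝔓).asIdeal

/-- `N 𝔓 = (N P) ^ f`. -/
lemma absNorm_eq_pow (𝔓 : HeightOneSpectrum (𝓞 L)) :
    Ideal.absNorm 𝔓.asIdeal =
      Ideal.absNorm (below K L 𝔓).asIdeal ^ 𝔓.asIdeal.inertiaDeg (𝓞 K) := by
  rw [← Ideal.absNorm_relNorm (𝓞 K) (𝓞 L) 𝔓.asIdeal, relNorm_eq_pow, map_pow]

lemma inertiaDeg_pos' (𝔓 : HeightOneSpectrum (𝓞 L)) : 0 < 𝔓.asIdeal.inertiaDeg (𝓞 K) :=
  Ideal.inertiaDeg_pos 𝔓.asIdeal (𝓞 K)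

/-- A prime of absolute degree one has relative degree one. -/
lemma inertiaDeg_eq_one_of_degOne (𝔓 : HeightOneSpectrum (𝓞 L)) (h : 𝔓 ∈ degOne L) :
    𝔓.asIdeal.inertiaDeg (𝓞 K) = 1 := by
  have h1 : (Ideal.absNorm 𝔓.asIdeal).Prime := h
  rw [absNorm_eq_pow K L 𝔓] at h1
  by_contra hne
  have h2 : 2 ≤ 𝔓.asIdeal.inertiaDeg (𝓞 K) := by
    have := inertiaDeg_pos' K L 𝔓
    omega
  exact Nat.Prime.not_prime_pow h2 h1

/-- Injectivity of `𝔓 ↦ 𝔓.asIdeal` into the primes over `P`. -/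
lemma card_le_finrank (P : HeightOneSpectrum (𝓞 K)) (S : Finset (HeightOneSpectrum (𝓞 L)))
    (hS : ∀ 𝔓 ∈ S, 𝔓.asIdeal.under (𝓞 K) = P.asIdeal) : S.card ≤ Module.finrank K L := by
  classical
  haveI : P.asIdeal.IsMaximal := P.isMaximal
  haveI : Fintype (P.asIdeal.primesOver (𝓞 L)) :=
    (IsDedekindDomain.primesOver_finite P.asIdeal (𝓞 L)).fintype
  have hsum := Ideal.sum_ramification_inertia_eq_finrank P.asIdeal (𝓞 L)
  rw [← IsFractionRing.finrank_eq (𝓞 K) K (𝓞 L) L] at hsum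
  rw [← hsum]
  -- the map `S → primesOver`
  let f : {𝔓 // 𝔓 ∈ S} → P.asIdeal.primesOver (𝓞 L) := fun 𝔓 =>
    ⟨𝔓.1.asIdeal, 𝔓.1.isPrime, ⟨(hS 𝔓.1 𝔓.2).symm⟩⟩
  have hf : Function.Injective f := by
    intro a b hab
    have h1 : a.1.asIdeal = b.1.asIdeal := congrArg Subtype.val hab
    exact Subtype.ext (HeightOneSpectrum.ext h1)
  have h1 : S.card ≤ Fintype.card (P.asIdeal.primesOver (𝓞 L)) := by
    have := Fintype.card_le_of_injective f hf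
    simpa using this
  refine h1.trans ?_
  rw [Fintype.card_eq_sum_ones]
  refine Finset.sum_le_sum fun q _ => ?_
  haveI : q.1.IsPrime := q.2.1
  have he : 0 < q.1.ramificationIdx (𝓞 K) := Ideal.ramificationIdx_pos q.1 (𝓞 K)
  have hfd : 0 < q.1.inertiaDeg (𝓞 K) := Ideal.inertiaDeg_pos q.1 (𝓞 K)
  exact Nat.succ_le_of_lt (Nat.mul_pos he hfd)

/-- **[NRM]** -/
theorem stNRM : StNRM K L := by
  refine ⟨fun 𝔓 h𝔓 => ?_, fun P S hS => card_le_finrank K L P S hS⟩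
  have hf := inertiaDeg_eq_one_of_degOne K L 𝔓 h𝔓
  have h1 := absNorm_eq_pow K L 𝔓
  rw [hf, pow_one] at h1
  have h2 := relNorm_eq_pow K L 𝔓
  rw [hf, pow_one] at h2
  refine ⟨below K L 𝔓, ?_, rfl, h1.symm, h2⟩
  show (Ideal.absNorm (below K L 𝔓).asIdeal).Prime
  rw [← h1]
  exact h𝔓

end Fermat.Agent.S14x.LFN.H6
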