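import Mathlib
import Fermat.Agent.S14x.LFN.Defs

/-!
# S14 / package LFN, adapters [AD-D] (helper11): `Asm.StDgen` and `Asm.StD p` from `StDabs`

* `stDgen : StDabs → Asm.StDgen` (Frobenius elements exist, Mathlib
  `IsArithFrobAt.exists_of_isInvariant`; if the Frobenius at `𝔓` is trivial then `x ^ q = x` on
  the residue field of `𝔓`, so `N𝔓 = q`);
* `stD p : StDabs → Asm.StArtinExists → Asm.StD p` (the value of an Artin map at the prime is
  the Frobenius).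
-/

set_option autoImplicit false

noncomputable section

open NumberField IsDedekindDomain

namespace Fermat.Agent.S14x.LFN.H11

section AdD

/-- If `x ^ q ≡ x` modulo the prime `Q` for all `x` (`q ≥ 2`), the residue ring of `Q` has at
most `q` elements. -/
theorem card_quotient_le_of_forall_pow_sub {S : Type*} [CommRing S] (Q : Ideal S) [Q.IsPrime]
    [Finite (S ⧸ Q)] (q : ℕ) (hq : 1 < q) (h : ∀ x : S, x - x ^ q ∈ Q) :
    Nat.card (S ⧸ Q) ≤ q := by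
  classical
  haveI : Fintype (S ⧸ Q) := Fintype.ofFinite _
  letI : Field (S ⧸ Q) := Fintype.fieldOfDomain (S ⧸ Q)
  have hroot : ∀ y : S ⧸ Q, y ∈ (Polynomial.X ^ q - Polynomial.X : Polynomial (S ⧸ Q)).roots := by
    intro y
    rw [Polynomial.mem_roots (FiniteField.X_pow_card_sub_X_ne_zero (S ⧸ Q) hq)]
    obtain ⟨x, rfl⟩ := Ideal.Quotient.mk_surjective y
    simp only [Polynomial.IsRoot, Polynomial.eval_sub, Polynomial.eval_pow, Polynomial.eval_X]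
    rw [← map_pow, ← map_sub, Ideal.Quotient.eq_zero_iff_mem]
    have := Q.neg_mem (h x)
    rwa [neg_sub] at this
  have h1 := Polynomial.card_le_degree_of_subset_roots
    (p := (Polynomial.X ^ q - Polynomial.X : Polynomial (S ⧸ Q)))
    (Z := (Finset.univ : Finset (S ⧸ Q))) (fun y _ => hroot y)
  rw [FiniteField.X_pow_card_sub_X_natDegree_eq (S ⧸ Q) hq, Finset.card_univ] at h1
  rwa [Nat.card_eq_fintype_card]

variable (E M : Type) [Field E] [NumberField E] [Field M] [NumberField M] [Algebra E M]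

/-- If `x ^ N𝔭 ≡ x` modulo the prime `𝔓` above `𝔭` for all integers `x` of `M`, then
`N𝔓 = N𝔭`. -/
theorem absNorm_eq_of_forall_pow_sub (P : HeightOneSpectrum (𝓞 E))
    (𝔓 : HeightOneSpectrum (𝓞 M)) (h𝔓 : 𝔓.asIdeal.under (𝓞 E) = P.asIdeal)
    (h : ∀ x : 𝓞 M, x - x ^ Ideal.absNorm P.asIdeal ∈ 𝔓.asIdeal) :
    Ideal.absNorm 𝔓.asIdeal = Ideal.absNorm P.asIdeal := by
  have hP1 : 1 < Ideal.absNorm P.asIdeal := by
    have h0 : Ideal.absNorm P.asIdeal ≠ 0 := fun h => P.ne_bot (Ideal.absNorm_eq_zero_iff.mp h)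
    have h1 : Ideal.absNorm P.asIdeal ≠ 1 := fun h =>
      P.isPrime.ne_top (Ideal.absNorm_eq_one_iff.mp h)
    omega
  haveI := 𝔓.isPrime
  apply le_antisymm
  · exact card_quotient_le_of_forall_pow_sub 𝔓.asIdeal _ hP1 h
  · have h2 : Nat.card (𝓞 E ⧸ 𝔓.asIdeal.under (𝓞 E)) ≤ Nat.card (𝓞 M ⧸ 𝔓.asIdeal) :=
      Nat.card_le_card_of_injective _ Ideal.algebraMap_quotient_injective
    rw [h𝔓] at h2
    exact h2

/-- A prime not dividing `𝔪` is prime to `𝔪`. -/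
theorem sup_eq_top_of_not_dvd (P : HeightOneSpectrum (𝓞 E)) (𝔪 : Ideal (𝓞 E))
    (h : ¬ P.asIdeal ∣ 𝔪) : P.asIdeal ⊔ 𝔪 = ⊤ := by
  by_contra h1
  apply h
  rw [Ideal.dvd_iff_le]
  have hmax : P.asIdeal.IsMaximal := P.isMaximal
  exact le_sup_right.trans (hmax.eq_of_le h1 le_sup_left).ge

/-- **[AD-Dgen]**: `Asm.StDgen` from `StDabs`. -/
theorem stDgen (hD : StDabs) : Asm.StDgen := by
  intro E M _ _ _ _ _ _ hdeg 𝔪 h𝔪
  classical
  obtain ⟨P, hPT, hP1, 𝔓, h𝔓, hne⟩ := hD E M hdeg (Ideal.finite_factors h𝔪).toFinset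
  have hcop : P.asIdeal ⊔ 𝔪 = ⊤ := by
    apply sup_eq_top_of_not_dvd
    intro hdvd
    apply hPT
    rw [Set.Finite.mem_toFinset]
    exact hdvd
  haveI := 𝔓.isPrime
  obtain ⟨σ, hσ⟩ := IsArithFrobAt.exists_of_isInvariant (𝓞 E) (M ≃ₐ[E] M) 𝔓.asIdeal
  refine ⟨P.asIdeal, Ideal.absNorm P.asIdeal, 𝔓.asIdeal, σ, P.isPrime, hP1, rfl, hcop,
    𝔓.isPrime, h𝔓, hσ, ?_⟩
  rintro rfl
  apply hne
  apply absNorm_eq_of_forall_pow_sub E M P 𝔓 h𝔓
  intro x
  have := hσ x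
  rw [h𝔓] at this
  have hcard : Nat.card (𝓞 E ⧸ P.asIdeal) = Ideal.absNorm P.asIdeal := rfl
  rw [hcard] at this
  simpa using this

/-- A group of prime order is commutative. -/
theorem mul_comm_of_card_prime {G : Type*} [Group G] {p : ℕ} (hp : p.Prime)
    (h : Nat.card G = p) (σ τ : G) : σ * τ = τ * σ := by
  haveI : Fact p.Prime := ⟨hp⟩
  haveI : IsCyclic G := isCyclic_of_prime_card h
  obtain ⟨g, hg⟩ := IsCyclic.exists_generator (α := G)
  obtain ⟨a, rfl⟩ := Subgroup.mem_zpowers_iff.mp (hg σ)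
  obtain ⟨b, rfl⟩ := Subgroup.mem_zpowers_iff.mp (hg τ)
  rw [← zpow_add, ← zpow_add, add_comm]

/-- **[AD-D]**: `Asm.StD p` from `StDabs` and the existence of Artin maps. -/
theorem stD (p : ℕ) [Fact p.Prime] (hD : StDabs) : Asm.StArtinExists → Asm.StD p := by
  intro hA hp3 K L _ _ _ _ _ _ _ _ hdeg hunr
  classical
  have hp : p.Prime := Fact.out
  haveI : Module.Finite K L := Module.finite_of_finrank_pos (by rw [hdeg]; exact hp.pos)
  have hcard : Nat.card (L ≃ₐ[K] L) = p := by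
    rw [IsGalois.card_aut_eq_finrank, hdeg]
  have hcomm : ∀ σ τ : L ≃ₐ[K] L, σ * τ = τ * σ := mul_comm_of_card_prime hp hcard
  have hun : Asm.UnramifiedOutside K L ⊤ := fun 𝔭 _ _ _ P hP hP0 _ σ hσ => hunr P hP hP0 σ hσ
  obtain ⟨Φ, hΦ⟩ := hA K L hcomm ⊤ hun
  have hp0 : Ideal.span {((p : ℕ) : 𝓞 K)} ≠ ⊥ := by
    rw [Ne, Ideal.span_singleton_eq_bot]
    exact_mod_cast hp.ne_zero
  obtain ⟨P, hPT, hP1, 𝔓, h𝔓, hne⟩ :=
    hD K L (by rw [hdeg]; exact hp.two_le) (Ideal.finite_factors hp0).toFinset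
  have hfrob := hΦ.frob P.asIdeal P.isPrime P.ne_bot (sup_top_eq _)
  refine ⟨P.asIdeal, Ideal.absNorm P.asIdeal, Φ P.asIdeal, P.isPrime, hP1, ?_, rfl, hfrob, ?_⟩
  · intro hqp
    apply hPT
    rw [Set.Finite.mem_toFinset]
    show P.asIdeal ∣ Ideal.span {((p : ℕ) : 𝓞 K)}
    rw [Ideal.dvd_span_singleton, ← hqp]
    exact Ideal.absNorm_mem _
  · intro h1
    apply hne
    apply absNorm_eq_of_forall_pow_sub K L P 𝔓 h𝔓
    intro x
    have h2 := hfrob x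
    rw [h1, one_smul] at h2
    have hle : P.asIdeal.map (algebraMap (𝓞 K) (𝓞 L)) ≤ 𝔓.asIdeal :=
      Ideal.map_le_iff_le_comap.mpr h𝔓.ge
    exact hle h2

end AdD

end Fermat.Agent.S14x.LFN.H11
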