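import Mathlib
import Fermat.Agent.S14x.LFN.Defs

/-!
# S14 / package LFN, adapter [AD-U] (helper11): `Asm.StU` from `StRAY` and `StUabs`

`stU : StRAY → StUabs → Asm.StCNT → Asm.StU`.

The class map `cl` of `StRAY` vanishes only at the finitely many primes dividing `𝔪`, norms of
ideals of `M` have class `0` or `1` (take `a = b = 1` in `NormEquiv`), so `StUabs` gives
`|H| ≤ [M : E]`; pairwise inequivalent ideals prime to `𝔪` have pairwise distinct classes.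
-/

set_option autoImplicit false

noncomputable section

open NumberField IsDedekindDomain

namespace Fermat.Agent.S14x.LFN.H11

section AdU

variable (E M : Type) [Field E] [NumberField E] [Field M] [NumberField M] [Algebra E M]

/-- Only finitely many primes are not prime to `𝔪 ≠ 0`. -/
theorem finite_primes_not_coprime (𝔪 : Ideal (𝓞 E)) (h𝔪 : 𝔪 ≠ ⊥) :
    {P : HeightOneSpectrum (𝓞 E) | ¬ (P.asIdeal ≠ ⊥ ∧ P.asIdeal ⊔ 𝔪 = ⊤)}.Finite := by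
  refine (Ideal.finite_factors h𝔪).subset ?_
  intro P hP
  have hP' : ¬ (P.asIdeal ≠ ⊥ ∧ P.asIdeal ⊔ 𝔪 = ⊤) := hP
  have h1 : P.asIdeal ⊔ 𝔪 ≠ ⊤ := fun h => hP' ⟨P.ne_bot, h⟩
  show P.asIdeal ∣ 𝔪
  rw [Ideal.dvd_iff_le]
  have hmax : P.asIdeal.IsMaximal := P.isMaximal
  exact le_sup_right.trans (hmax.eq_of_le h1 le_sup_left).ge

/-- A norm from `M` which is nonzero and prime to `𝔪` is `NormEquiv` to `⊤`. -/
theorem normEquiv_relNorm_top (𝔪 : Ideal (𝓞 E)) (𝔄 : Ideal (𝓞 M))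
    (h0 : Ideal.relNorm (𝓞 E) 𝔄 ≠ ⊥) (h1 : Ideal.relNorm (𝓞 E) 𝔄 ⊔ 𝔪 = ⊤) :
    Asm.NormEquiv E M 𝔪 (Ideal.relNorm (𝓞 E) 𝔄) ⊤ := by
  have h𝔄 : 𝔄 ≠ ⊥ := by
    rintro rfl
    exact h0 (Ideal.relNorm_bot _)
  have htop : Ideal.relNorm (𝓞 E) (⊤ : Ideal (𝓞 M)) = ⊤ := Ideal.relNorm_top _
  have hspan : Ideal.span {(1 : 𝓞 E)} = ⊤ := Ideal.span_singleton_one
  refine ⟨1, 1, ⊤, 𝔄, one_ne_zero, one_ne_zero, ?_, ?_, ?_, h𝔄, ?_, h1, ?_⟩
  · rw [sub_self]; exact 𝔪.zero_mem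
  · rw [hspan]; exact top_sup_eq _
  · exact top_ne_bot
  · rw [htop]; exact top_sup_eq _
  · rw [htop, hspan]
    simp only [Ideal.top_mul, Ideal.mul_top]

/-- **[AD-U]**: `Asm.StU` from `StRAY` and `StUabs`. -/
theorem stU (hRAY : StRAY) (hU : StUabs) : Asm.StCNT → Asm.StU := by
  intro hCNT E M _ _ _ _ _ _ 𝔪 h𝔪 n 𝔞 h𝔞 hne
  obtain ⟨H, hgrp, hfinH, cl, hzero, heq, hcount⟩ := hRAY hCNT E M 𝔪 h𝔪
  -- `|H| ≤ [M : E]`
  have hfin : {P : HeightOneSpectrum (𝓞 E) | cl P.asIdeal = 0}.Finite := by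
    refine (finite_primes_not_coprime E 𝔪 h𝔪).subset ?_
    intro P hP
    exact (hzero P.asIdeal).mp hP
  have hone : cl ⊤ = 1 := by
    rw [← Ideal.one_eq_top]; exact map_one cl
  have hnorm : ∀ 𝔄 : Ideal (𝓞 M),
      cl (Ideal.relNorm (𝓞 E) 𝔄) = 0 ∨ cl (Ideal.relNorm (𝓞 E) 𝔄) = 1 := by
    intro 𝔄
    by_cases h : Ideal.relNorm (𝓞 E) 𝔄 ≠ ⊥ ∧ Ideal.relNorm (𝓞 E) 𝔄 ⊔ 𝔪 = ⊤
    · right
      rw [← hone]
      exact (heq _ _ h.1 h.2 top_ne_bot (top_sup_eq _)).mpr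
        (normEquiv_relNorm_top E M 𝔪 𝔄 h.1 h.2)
    · left
      exact (hzero _).mpr h
  have hH : Nat.card H ≤ Module.finrank E M := hU E M H cl hfin hnorm hcount
  -- `n ≤ |H|`
  have hnz : ∀ i, cl (𝔞 i) ≠ 0 := fun i h => (hzero _).mp h (h𝔞 i)
  have hex : ∀ i, ∃ c : H, cl (𝔞 i) = (c : WithZero H) := fun i =>
    WithZero.ne_zero_iff_exists.mp (hnz i) |>.imp fun c hc => hc.symm
  choose f hf using hex
  have hinj : Function.Injective f := by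
    intro i j hij
    by_contra hne'
    apply hne i j hne'
    refine (heq _ _ (h𝔞 i).1 (h𝔞 i).2 (h𝔞 j).1 (h𝔞 j).2).mp ?_
    rw [hf i, hf j, hij]
  haveI : Fintype H := Fintype.ofFinite H
  have hn : n ≤ Nat.card H := by
    have := Fintype.card_le_of_injective f hinj
    rwa [Fintype.card_fin, ← Nat.card_eq_fintype_card] at this
  exact hn.trans hH

end AdU

end Fermat.Agent.S14x.LFN.H11
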