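import Mathlib

/-!
# S14 / LFN (helper29): generalised ray class groups as quotient monoids

`R` a Dedekind domain, `𝔪` an ideal of `R`, `𝒩` a submonoid of the monoid of ideals of `R`.

* `idl 𝔪` : the monoid of nonzero ideals of `R` prime to `𝔪`;
* `rel 𝔪 𝒩 𝔞 𝔟` : `(a) 𝔞 𝔫₁ = (b) 𝔟 𝔫₂` with `a ≡ b mod 𝔪`, `(a)` prime to `𝔪`, `𝔫₁, 𝔫₂ ∈ 𝒩`
  (classes modulo `P_𝔪 · 𝒩`); a congruence on the monoid of ideals;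
* `Cl 𝔪 𝒩` : the quotient of `idl 𝔪`, a commutative GROUP (`isUnit_mk`: every class of ideals
  prime to `𝔪` has an inverse);
* `clMap 𝔪 𝒩 : Ideal R →*₀ WithZero (Cl 𝔪 𝒩)` with `clMap_eq_zero_iff`, `clMap_eq_iff`;
* `clHom 𝔪 h : Cl 𝔪 𝒩₁ →* Cl 𝔪 𝒩₂` for `𝒩₁ ≤ 𝒩₂`, surjective.
-/

set_option autoImplicit false
set_option linter.unusedSectionVars false

namespace Fermat.Agent.S14x.LFN.H29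

open Ideal

section Con

variable {R : Type*} [CommRing R] [IsDedekindDomain R] (𝔪 : Ideal R)

/-- The monoid of nonzero ideals prime to `𝔪`. -/
def idl : Submonoid (Ideal R) where
  carrier := {𝔞 | 𝔞 ≠ ⊥ ∧ 𝔞 ⊔ 𝔪 = ⊤}
  one_mem' := ⟨by rw [Ideal.one_eq_top]; exact top_ne_bot, by rw [Ideal.one_eq_top, top_sup_eq]⟩
  mul_mem' := by
    rintro 𝔞 𝔟 ⟨ha, ha'⟩ ⟨hb, hb'⟩
    refine ⟨mul_ne_zero ha hb, ?_⟩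
    exact Ideal.isCoprime_iff_sup_eq.mp
      ((Ideal.isCoprime_iff_sup_eq.mpr ha').mul_left (Ideal.isCoprime_iff_sup_eq.mpr hb'))

variable {𝔪}

theorem mem_idl_iff {𝔞 : Ideal R} : 𝔞 ∈ idl 𝔪 ↔ 𝔞 ≠ ⊥ ∧ 𝔞 ⊔ 𝔪 = ⊤ := Iff.rfl

theorem bot_not_mem_idl : (⊥ : Ideal R) ∉ idl 𝔪 := fun h => h.1 rfl

theorem mem_idl_of_mul_left {𝔞 𝔟 : Ideal R} (h : 𝔞 * 𝔟 ∈ idl 𝔪) : 𝔞 ∈ idl 𝔪 :=
  ⟨left_ne_zero_of_mul h.1,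
    Ideal.isCoprime_iff_sup_eq.mp (Ideal.isCoprime_iff_sup_eq.mpr h.2).of_mul_left_left⟩

theorem mem_idl_of_mul_right {𝔞 𝔟 : Ideal R} (h : 𝔞 * 𝔟 ∈ idl 𝔪) : 𝔟 ∈ idl 𝔪 :=
  ⟨right_ne_zero_of_mul h.1,
    Ideal.isCoprime_iff_sup_eq.mp (Ideal.isCoprime_iff_sup_eq.mpr h.2).of_mul_left_right⟩

theorem mul_mem_idl_iff {𝔞 𝔟 : Ideal R} : 𝔞 * 𝔟 ∈ idl 𝔪 ↔ 𝔞 ∈ idl 𝔪 ∧ 𝔟 ∈ idl 𝔪 :=
  ⟨fun h => ⟨mem_idl_of_mul_left h, mem_idl_of_mul_right h⟩,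
    fun h => (idl 𝔪).mul_mem h.1 h.2⟩

/-- A principal ideal `(b)` with `b ≡ a mod 𝔪`, `(a)` prime to `𝔪`, is prime to `𝔪`. -/
theorem span_sup_eq_top_of_sub_mem {a b : R} (hab : a - b ∈ 𝔪) (ha : span {a} ⊔ 𝔪 = ⊤) :
    span {b} ⊔ 𝔪 = ⊤ := by
  rw [eq_top_iff, ← ha]
  refine sup_le ?_ le_sup_right
  rw [Ideal.span_singleton_le_iff_mem]
  have h1 : a = b + (a - b) := by ring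
  rw [h1]
  exact Ideal.add_mem _ (Ideal.mem_sup_left (Ideal.mem_span_singleton_self b))
    (Ideal.mem_sup_right hab)

theorem span_mem_idl {a : R} (ha0 : a ≠ 0) (ha : span {a} ⊔ 𝔪 = ⊤) : span {a} ∈ idl 𝔪 :=
  ⟨by rwa [Ne, Ideal.span_singleton_eq_bot], ha⟩

variable (𝔪)

/-- `𝔞 ∼ 𝔟` modulo `P_𝔪 · 𝒩`. -/
def rel (𝒩 : Submonoid (Ideal R)) (𝔞 𝔟 : Ideal R) : Prop :=
  ∃ a b : R, a ≠ 0 ∧ b ≠ 0 ∧ a - b ∈ 𝔪 ∧ span {a} ⊔ 𝔪 = ⊤ ∧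
    ∃ 𝔫₁ ∈ 𝒩, ∃ 𝔫₂ ∈ 𝒩, span {a} * 𝔞 * 𝔫₁ = span {b} * 𝔟 * 𝔫₂

variable {𝔪} {𝒩 : Submonoid (Ideal R)}

theorem rel_refl (𝔞 : Ideal R) : rel 𝔪 𝒩 𝔞 𝔞 :=
  ⟨1, 1, one_ne_zero, one_ne_zero, by rw [sub_self]; exact 𝔪.zero_mem,
    by rw [Ideal.span_singleton_one, top_sup_eq], 1, 𝒩.one_mem, 1, 𝒩.one_mem, rfl⟩

theorem rel_symm {𝔞 𝔟 : Ideal R} (h : rel 𝔪 𝒩 𝔞 𝔟) : rel 𝔪 𝒩 𝔟 𝔞 := by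
  obtain ⟨a, b, ha, hb, hab, hcop, 𝔫₁, h₁, 𝔫₂, h₂, heq⟩ := h
  refine ⟨b, a, hb, ha, ?_, span_sup_eq_top_of_sub_mem hab hcop, 𝔫₂, h₂, 𝔫₁, h₁, heq.symm⟩
  have : b - a = -(a - b) := by ring
  rw [this]
  exact 𝔪.neg_mem hab

theorem rel_mul {𝔞 𝔟 𝔞' 𝔟' : Ideal R} (h : rel 𝔪 𝒩 𝔞 𝔟) (h' : rel 𝔪 𝒩 𝔞' 𝔟') :
    rel 𝔪 𝒩 (𝔞 * 𝔞') (𝔟 * 𝔟') := by
  obtain ⟨a, b, ha, hb, hab, hcop, 𝔫₁, h₁, 𝔫₂, h₂, heq⟩ := h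
  obtain ⟨c, d, hc, hd, hcd, hcop', 𝔫₃, h₃, 𝔫₄, h₄, heq'⟩ := h'
  refine ⟨a * c, b * d, mul_ne_zero ha hc, mul_ne_zero hb hd, ?_, ?_, 𝔫₁ * 𝔫₃, 𝒩.mul_mem h₁ h₃,
    𝔫₂ * 𝔫₄, 𝒩.mul_mem h₂ h₄, ?_⟩
  · have : a * c - b * d = a * (c - d) + d * (a - b) := by ring
    rw [this]
    exact 𝔪.add_mem (𝔪.mul_mem_left _ hcd) (𝔪.mul_mem_left _ hab)
  · rw [← Ideal.span_singleton_mul_span_singleton]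
    exact Ideal.isCoprime_iff_sup_eq.mp
      ((Ideal.isCoprime_iff_sup_eq.mpr hcop).mul_left (Ideal.isCoprime_iff_sup_eq.mpr hcop'))
  · rw [← Ideal.span_singleton_mul_span_singleton, ← Ideal.span_singleton_mul_span_singleton]
    calc span {a} * span {c} * (𝔞 * 𝔞') * (𝔫₁ * 𝔫₃)
        = (span {a} * 𝔞 * 𝔫₁) * (span {c} * 𝔞' * 𝔫₃) := by ring
      _ = (span {b} * 𝔟 * 𝔫₂) * (span {d} * 𝔟' * 𝔫₄) := by rw [heq, heq']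
      _ = span {b} * span {d} * (𝔟 * 𝔟') * (𝔫₂ * 𝔫₄) := by ring

theorem rel_trans {𝔞 𝔟 𝔠 : Ideal R} (h : rel 𝔪 𝒩 𝔞 𝔟) (h' : rel 𝔪 𝒩 𝔟 𝔠) :
    rel 𝔪 𝒩 𝔞 𝔠 := by
  obtain ⟨a, b, ha, hb, hab, hcop, 𝔫₁, h₁, 𝔫₂, h₂, heq⟩ := h
  obtain ⟨c, d, hc, hd, hcd, hcop', 𝔫₃, h₃, 𝔫₄, h₄, heq'⟩ := h'
  refine ⟨a * c, b * d, mul_ne_zero ha hc, mul_ne_zero hb hd, ?_, ?_, 𝔫₁ * 𝔫₃, 𝒩.mul_mem h₁ h₃,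
    𝔫₂ * 𝔫₄, 𝒩.mul_mem h₂ h₄, ?_⟩
  · have : a * c - b * d = a * (c - d) + d * (a - b) := by ring
    rw [this]
    exact 𝔪.add_mem (𝔪.mul_mem_left _ hcd) (𝔪.mul_mem_left _ hab)
  · rw [← Ideal.span_singleton_mul_span_singleton]
    exact Ideal.isCoprime_iff_sup_eq.mp
      ((Ideal.isCoprime_iff_sup_eq.mpr hcop).mul_left (Ideal.isCoprime_iff_sup_eq.mpr hcop'))
  · rw [← Ideal.span_singleton_mul_span_singleton, ← Ideal.span_singleton_mul_span_singleton]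
    calc span {a} * span {c} * 𝔞 * (𝔫₁ * 𝔫₃)
        = (span {a} * 𝔞 * 𝔫₁) * (span {c} * 𝔫₃) := by ring
      _ = (span {b} * 𝔟 * 𝔫₂) * (span {c} * 𝔫₃) := by rw [heq]
      _ = (span {c} * 𝔟 * 𝔫₃) * (span {b} * 𝔫₂) := by ring
      _ = (span {d} * 𝔠 * 𝔫₄) * (span {b} * 𝔫₂) := by rw [heq']
      _ = span {b} * span {d} * 𝔠 * (𝔫₂ * 𝔫₄) := by ring

theorem rel_mono {𝒩' : Submonoid (Ideal R)} (h𝒩 : 𝒩 ≤ 𝒩') {𝔞 𝔟 : Ideal R}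
    (h : rel 𝔪 𝒩 𝔞 𝔟) : rel 𝔪 𝒩' 𝔞 𝔟 := by
  obtain ⟨a, b, ha, hb, hab, hcop, 𝔫₁, h₁, 𝔫₂, h₂, heq⟩ := h
  exact ⟨a, b, ha, hb, hab, hcop, 𝔫₁, h𝒩 h₁, 𝔫₂, h𝒩 h₂, heq⟩

/-- Elements of `𝒩` are trivial. -/
theorem rel_of_mem {𝔫 : Ideal R} (h : 𝔫 ∈ 𝒩) : rel 𝔪 𝒩 𝔫 1 :=
  ⟨1, 1, one_ne_zero, one_ne_zero, by rw [sub_self]; exact 𝔪.zero_mem,
    by rw [Ideal.span_singleton_one, top_sup_eq], 1, 𝒩.one_mem, 𝔫, h, by ring⟩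

/-- Principal ideals `(g)` with `g ≡ 1 mod 𝔪` are trivial. -/
theorem rel_span_one {g : R} (hg0 : g ≠ 0) (hg : g - 1 ∈ 𝔪) : rel 𝔪 𝒩 (span {g}) 1 := by
  refine ⟨1, g, one_ne_zero, hg0, ?_, by rw [Ideal.span_singleton_one, top_sup_eq], 1,
    𝒩.one_mem, 1, 𝒩.one_mem, by rw [Ideal.span_singleton_one, ← Ideal.one_eq_top]; ring⟩
  have : (1 : R) - g = -(g - 1) := by ring
  rw [this]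
  exact 𝔪.neg_mem hg

/-- If `𝔞 ∼ 𝔟` and `𝔟` is prime to `𝔪` (and `𝒩` consists of ideals prime to `𝔪`), then `𝔞` is
prime to `𝔪`. -/
theorem mem_idl_of_rel (h𝒩 : 𝒩 ≤ idl 𝔪) {𝔞 𝔟 : Ideal R} (h : rel 𝔪 𝒩 𝔞 𝔟) (h𝔟 : 𝔟 ∈ idl 𝔪) :
    𝔞 ∈ idl 𝔪 := by
  obtain ⟨a, b, ha, hb, hab, hcop, 𝔫₁, h₁, 𝔫₂, h₂, heq⟩ := h
  have h1 : span {b} * 𝔟 * 𝔫₂ ∈ idl 𝔪 :=
    (idl 𝔪).mul_mem ((idl 𝔪).mul_mem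
      (span_mem_idl hb (span_sup_eq_top_of_sub_mem hab hcop)) h𝔟) (h𝒩 h₂)
  rw [← heq] at h1
  exact mem_idl_of_mul_right (mem_idl_of_mul_left h1)

/-- **Inverses**: every nonzero ideal prime to `𝔪` has a complement `𝔟`, prime to `𝔪`, with
`𝔞 𝔟 = (g)`, `g ≡ 1 mod 𝔪`. -/
theorem exists_mul_eq_span {𝔞 : Ideal R} (h𝔞 : 𝔞 ∈ idl 𝔪) :
    ∃ (𝔟 : Ideal R) (g : R), 𝔟 ∈ idl 𝔪 ∧ g ≠ 0 ∧ g - 1 ∈ 𝔪 ∧ 𝔞 * 𝔟 = span {g} := by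
  obtain ⟨h0, hcop⟩ := h𝔞
  -- an element `g ∈ 𝔞`, `g ≡ 1 mod 𝔪`, `g ≠ 0`
  obtain ⟨g, hg𝔞, hg0, hg1⟩ : ∃ g ∈ 𝔞, g ≠ 0 ∧ g - 1 ∈ 𝔪 := by
    have h1 : (1 : R) ∈ 𝔞 ⊔ 𝔪 := by rw [hcop]; trivial
    obtain ⟨x, hx, y, hy, hxy⟩ := Submodule.mem_sup.mp h1
    by_cases hx0 : x = 0
    · -- then `1 ∈ 𝔪`
      have hy1 : y = 1 := by rw [← hxy, hx0, zero_add]
      have h𝔪 : 𝔪 = ⊤ := by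
        rw [Ideal.eq_top_iff_one, ← hy1]
        exact hy
      obtain ⟨z, hz, hz0⟩ := Submodule.exists_mem_ne_zero_of_ne_bot h0
      exact ⟨z, hz, hz0, by rw [h𝔪]; trivial⟩
    · refine ⟨x, hx, hx0, ?_⟩
      have : x - 1 = -y := by rw [← hxy]; ring
      rw [this]
      exact 𝔪.neg_mem hy
  have hle : span {g} ≤ 𝔞 := by rwa [Ideal.span_singleton_le_iff_mem]
  obtain ⟨𝔟, h𝔟⟩ := Ideal.dvd_iff_le.mpr hle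
  have hgcop : span {g} ⊔ 𝔪 = ⊤ := by
    have h2 : span {(1 : R)} ⊔ 𝔪 = ⊤ := by rw [Ideal.span_singleton_one, top_sup_eq]
    refine span_sup_eq_top_of_sub_mem (a := 1) ?_ h2
    have : (1 : R) - g = -(g - 1) := by ring
    rw [this]
    exact 𝔪.neg_mem hg1
  have hmem : 𝔞 * 𝔟 ∈ idl 𝔪 := by
    rw [← h𝔟]
    exact span_mem_idl hg0 hgcop
  exact ⟨𝔟, g, mem_idl_of_mul_right hmem, hg0, hg1, h𝔟.symm⟩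

variable (𝔪 𝒩)

/-- The congruence `rel` on the monoid of nonzero ideals prime to `𝔪`. -/
def con : Con ↥(idl 𝔪) where
  r x y := rel 𝔪 𝒩 (x : Ideal R) (y : Ideal R)
  iseqv := ⟨fun _ => rel_refl _, fun h => rel_symm h, fun h h' => rel_trans h h'⟩
  mul' := fun h h' => rel_mul h h'

/-- The group of classes of ideals prime to `𝔪` modulo `P_𝔪 · 𝒩`. -/
def Cl : Type _ := (con 𝔪 𝒩).Quotient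

noncomputable instance instCommMonoidCl : CommMonoid (Cl 𝔪 𝒩) :=
  inferInstanceAs (CommMonoid (con 𝔪 𝒩).Quotient)

/-- The class of an ideal prime to `𝔪`. -/
def mk : ↥(idl 𝔪) →* Cl 𝔪 𝒩 := (con 𝔪 𝒩).mk'

variable {𝔪 𝒩}

theorem mk_surjective : Function.Surjective (mk 𝔪 𝒩) := Con.mk'_surjective

theorem mk_eq_mk_iff {x y : ↥(idl 𝔪)} :
    mk 𝔪 𝒩 x = mk 𝔪 𝒩 y ↔ rel 𝔪 𝒩 (x : Ideal R) (y : Ideal R) :=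
  (con 𝔪 𝒩).eq

theorem isUnit_cl (c : Cl 𝔪 𝒩) : IsUnit c := by
  obtain ⟨x, rfl⟩ := mk_surjective c
  obtain ⟨𝔟, g, h𝔟, hg0, hg1, heq⟩ := exists_mul_eq_span x.2
  refine IsUnit.of_mul_eq_one (mk 𝔪 𝒩 ⟨𝔟, h𝔟⟩) ?_
  rw [← map_mul, ← map_one (mk 𝔪 𝒩), mk_eq_mk_iff]
  show rel 𝔪 𝒩 ((x : Ideal R) * 𝔟) 1
  rw [heq]
  exact rel_span_one hg0 hg1

noncomputable instance instCommGroupCl : CommGroup (Cl 𝔪 𝒩) :=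
  { instCommMonoidCl 𝔪 𝒩 with
    toInv := invOfIsUnit isUnit_cl
    inv_mul_cancel := fun a => by
      change ↑(isUnit_cl a).unit⁻¹ * a = 1
      rw [Units.inv_mul_eq_iff_eq_mul, (isUnit_cl a).unit_spec, mul_one] }

variable (𝔪 𝒩)

open Classical in
/-- The class map on all ideals, with value `0` off the ideals prime to `𝔪`. -/
noncomputable def clMap : Ideal R →*₀ WithZero (Cl 𝔪 𝒩) where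
  toFun 𝔞 := if h : 𝔞 ∈ idl 𝔪 then ((mk 𝔪 𝒩 ⟨𝔞, h⟩ : Cl 𝔪 𝒩) : WithZero (Cl 𝔪 𝒩)) else 0
  map_zero' := dif_neg bot_not_mem_idl
  map_one' := by
    rw [dif_pos (idl 𝔪).one_mem]
    have : (⟨1, (idl 𝔪).one_mem⟩ : ↥(idl 𝔪)) = 1 := rfl
    rw [this, map_one]
    rfl
  map_mul' 𝔞 𝔟 := by
    by_cases h : 𝔞 * 𝔟 ∈ idl 𝔪
    · have ha := mem_idl_of_mul_left h
      have hb := mem_idl_of_mul_right h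
      rw [dif_pos h, dif_pos ha, dif_pos hb, ← WithZero.coe_mul, ← map_mul]
      rfl
    · rw [dif_neg h]
      by_cases ha : 𝔞 ∈ idl 𝔪
      · have hb : 𝔟 ∉ idl 𝔪 := fun hb => h ((idl 𝔪).mul_mem ha hb)
        rw [dif_neg hb, mul_zero]
      · rw [dif_neg ha, zero_mul]

variable {𝔪 𝒩}

theorem clMap_of_mem {𝔞 : Ideal R} (h : 𝔞 ∈ idl 𝔪) :
    clMap 𝔪 𝒩 𝔞 = ((mk 𝔪 𝒩 ⟨𝔞, h⟩ : Cl 𝔪 𝒩) : WithZero (Cl 𝔪 𝒩)) := dif_pos h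

theorem clMap_of_not_mem {𝔞 : Ideal R} (h : 𝔞 ∉ idl 𝔪) : clMap 𝔪 𝒩 𝔞 = 0 := dif_neg h

theorem clMap_eq_zero_iff {𝔞 : Ideal R} : clMap 𝔪 𝒩 𝔞 = 0 ↔ ¬ (𝔞 ≠ ⊥ ∧ 𝔞 ⊔ 𝔪 = ⊤) := by
  constructor
  · intro h hmem
    rw [clMap_of_mem (show 𝔞 ∈ idl 𝔪 from hmem)] at h
    exact WithZero.coe_ne_zero h
  · intro h
    exact clMap_of_not_mem h

theorem mem_idl_of_clMap_eq_coe {𝔞 : Ideal R} {c : Cl 𝔪 𝒩}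
    (h : clMap 𝔪 𝒩 𝔞 = (c : WithZero (Cl 𝔪 𝒩))) : 𝔞 ∈ idl 𝔪 := by
  by_contra hmem
  rw [clMap_of_not_mem hmem] at h
  exact WithZero.coe_ne_zero h.symm

theorem clMap_eq_coe_mk_iff {𝔞 : Ideal R} (x : ↥(idl 𝔪)) (h𝒩 : 𝒩 ≤ idl 𝔪) :
    clMap 𝔪 𝒩 𝔞 = ((mk 𝔪 𝒩 x : Cl 𝔪 𝒩) : WithZero (Cl 𝔪 𝒩)) ↔ rel 𝔪 𝒩 𝔞 (x : Ideal R) := by
  constructor
  · intro h
    have hmem := mem_idl_of_clMap_eq_coe h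
    rw [clMap_of_mem hmem, WithZero.coe_inj, mk_eq_mk_iff] at h
    exact h
  · intro h
    have hmem := mem_idl_of_rel h𝒩 h x.2
    rw [clMap_of_mem hmem, WithZero.coe_inj, mk_eq_mk_iff]
    exact h

theorem clMap_eq_iff {𝔞 𝔟 : Ideal R} (h𝔞 : 𝔞 ∈ idl 𝔪) (h𝔟 : 𝔟 ∈ idl 𝔪) :
    clMap 𝔪 𝒩 𝔞 = clMap 𝔪 𝒩 𝔟 ↔ rel 𝔪 𝒩 𝔞 𝔟 := by
  rw [clMap_of_mem h𝔞, clMap_of_mem h𝔟, WithZero.coe_inj, mk_eq_mk_iff]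

/-! ### Change of the submonoid -/

variable {𝒩' : Submonoid (Ideal R)}

variable (𝔪) in
/-- The canonical map `Cl 𝔪 𝒩 → Cl 𝔪 𝒩'` for `𝒩 ≤ 𝒩'`. -/
noncomputable def clHom (h𝒩 : 𝒩 ≤ 𝒩') : Cl 𝔪 𝒩 →* Cl 𝔪 𝒩' :=
  (con 𝔪 𝒩).lift (mk 𝔪 𝒩') (fun _ _ h => mk_eq_mk_iff.mpr (rel_mono h𝒩 ((con 𝔪 𝒩).eq.mp
    ((con 𝔪 𝒩).eq.mpr h))))

theorem clHom_mk (h𝒩 : 𝒩 ≤ 𝒩') (x : ↥(idl 𝔪)) : clHom 𝔪 h𝒩 (mk 𝔪 𝒩 x) = mk 𝔪 𝒩' x := rfl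

theorem clHom_surjective (h𝒩 : 𝒩 ≤ 𝒩') : Function.Surjective (clHom 𝔪 h𝒩) := by
  intro c
  obtain ⟨x, rfl⟩ := mk_surjective c
  exact ⟨mk 𝔪 𝒩 x, rfl⟩

theorem clMap_clHom (h𝒩 : 𝒩 ≤ 𝒩') {𝔞 : Ideal R} {ρ : Cl 𝔪 𝒩}
    (h : clMap 𝔪 𝒩 𝔞 = (ρ : WithZero (Cl 𝔪 𝒩))) :
    clMap 𝔪 𝒩' 𝔞 = ((clHom 𝔪 h𝒩 ρ : Cl 𝔪 𝒩') : WithZero (Cl 𝔪 𝒩')) := by
  have hmem := mem_idl_of_clMap_eq_coe h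
  rw [clMap_of_mem hmem, WithZero.coe_inj] at h
  rw [clMap_of_mem hmem, ← h, clHom_mk]

end Con

end Fermat.Agent.S14x.LFN.H29
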