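import Fermat.Agent.S14x.LFN.Defs
import Fermat.Agent.S14x.LFN.H29_RayCon

/-!
# S14 / LFN (helper29): leaf [RAY]

`stRAY : StRAY` : from the counting statement `Asm.StCNT` (ideals in a ray class), for number
fields `E`, `M/E` and a modulus `𝔪 ≠ 0`, the classes of ideals prime to `𝔪` modulo
`P_𝔪 N(I_M^(𝔪))` (`Asm.NormEquiv`) form a finite commutative group in which the ideals are
equidistributed with a power-saving error term.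

* `normMonoid E M 𝔪` : the monoid of norms prime to `𝔪`; `rel_norm_iff`, `rel_bot_iff` : the
  congruences of `H29_RayCon` for `𝒩 = ` norms resp. `𝒩 = 1` are `Asm.NormEquiv`, `Asm.RayEquiv`;
* `finite_rayCl` : the ray class group is finite (from `StCNT` and Mathlib's count of all ideals);
* `count_cl` : the counting in a class of `Cl 𝔪 𝒩`.
-/

set_option autoImplicit false
set_option linter.unusedSectionVars false

noncomputable section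

open NumberField Ideal Filter Topology

namespace Fermat.Agent.S14x.LFN.H29

section Norms

variable (E M : Type) [Field E] [NumberField E] [Field M] [NumberField M] [Algebra E M]
  (𝔪 : Ideal (𝓞 E))

/-- The monoid of the norms from `M`, prime to `𝔪`, of nonzero ideals. -/
def normMonoid : Submonoid (Ideal (𝓞 E)) where
  carrier := {𝔫 | ∃ 𝔄 : Ideal (𝓞 M), 𝔄 ≠ ⊥ ∧ Ideal.relNorm (𝓞 E) 𝔄 ⊔ 𝔪 = ⊤ ∧
    Ideal.relNorm (𝓞 E) 𝔄 = 𝔫}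
  one_mem' := ⟨⊤, top_ne_bot, by rw [Ideal.relNorm_top, top_sup_eq],
    by rw [Ideal.relNorm_top, Ideal.one_eq_top]⟩
  mul_mem' := by
    rintro _ _ ⟨𝔄, hA, hcA, rfl⟩ ⟨𝔅, hB, hcB, rfl⟩
    refine ⟨𝔄 * 𝔅, mul_ne_zero hA hB, ?_, map_mul _ _ _⟩
    rw [map_mul]
    exact Ideal.isCoprime_iff_sup_eq.mp
      ((Ideal.isCoprime_iff_sup_eq.mpr hcA).mul_left (Ideal.isCoprime_iff_sup_eq.mpr hcB))

variable {E M 𝔪}

theorem normMonoid_le : normMonoid E M 𝔪 ≤ idl 𝔪 := by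
  rintro _ ⟨𝔄, hA, hcA, rfl⟩
  exact ⟨by rwa [Ne, Ideal.relNorm_eq_bot_iff], hcA⟩

theorem bot_le_idl : (⊥ : Submonoid (Ideal (𝓞 E))) ≤ idl 𝔪 := bot_le

theorem rel_bot_iff {𝔞 𝔟 : Ideal (𝓞 E)} :
    rel 𝔪 (⊥ : Submonoid (Ideal (𝓞 E))) 𝔞 𝔟 ↔ Asm.RayEquiv E 𝔪 𝔞 𝔟 := by
  constructor
  · rintro ⟨a, b, ha, hb, hab, hcop, 𝔫₁, h₁, 𝔫₂, h₂, heq⟩
    rw [Submonoid.mem_bot] at h₁ h₂
    rw [h₁, h₂, mul_one, mul_one] at heq
    exact ⟨a, b, ha, hb, hab, hcop, heq⟩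
  · rintro ⟨a, b, ha, hb, hab, hcop, heq⟩
    exact ⟨a, b, ha, hb, hab, hcop, 1, Submonoid.one_mem _, 1, Submonoid.one_mem _,
      by rw [mul_one, mul_one, heq]⟩

theorem rel_norm_iff {𝔞 𝔟 : Ideal (𝓞 E)} :
    rel 𝔪 (normMonoid E M 𝔪) 𝔞 𝔟 ↔ Asm.NormEquiv E M 𝔪 𝔞 𝔟 := by
  constructor
  · rintro ⟨a, b, ha, hb, hab, hcop, _, ⟨𝔄, hA, hcA, rfl⟩, _, ⟨𝔅, hB, hcB, rfl⟩, heq⟩
    exact ⟨a, b, 𝔄, 𝔅, ha, hb, hab, hcop, hA, hB, hcA, hcB, heq⟩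
  · rintro ⟨a, b, 𝔄, 𝔅, ha, hb, hab, hcop, hA, hB, hcA, hcB, heq⟩
    exact ⟨a, b, ha, hb, hab, hcop, _, ⟨𝔄, hA, hcA, rfl⟩, _, ⟨𝔅, hB, hcB, rfl⟩, heq⟩

end Norms

section Count

variable {E : Type} [Field E] [NumberField E] {𝔪 : Ideal (𝓞 E)}

/-- The finite set of ideals of norm `≤ x`. -/
def normLe (x : ℝ) : Finset (Ideal (𝓞 E)) :=
  (Ideal.finite_setOfPred_absNorm_le (S := 𝓞 E) ⌊x⌋₊).toFinset

theorem mem_normLe {x : ℝ} (hx : 0 ≤ x) {I : Ideal (𝓞 E)} :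
    I ∈ normLe x ↔ (Ideal.absNorm I : ℝ) ≤ x := by
  rw [normLe, Set.Finite.mem_toFinset, Set.mem_ofPred_eq, Nat.le_floor_iff hx]

open Classical in
/-- The finite set of ideals of norm `≤ x` in the class `c`. -/
def clLe (𝒩 : Submonoid (Ideal (𝓞 E))) (c : Cl 𝔪 𝒩) (x : ℝ) : Finset (Ideal (𝓞 E)) :=
  (normLe x).filter (fun I => clMap 𝔪 𝒩 I = (c : WithZero (Cl 𝔪 𝒩)))

theorem mem_clLe {𝒩 : Submonoid (Ideal (𝓞 E))} {c : Cl 𝔪 𝒩} {x : ℝ} (hx : 0 ≤ x)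
    {I : Ideal (𝓞 E)} :
    I ∈ clLe 𝒩 c x ↔ clMap 𝔪 𝒩 I = (c : WithZero (Cl 𝔪 𝒩)) ∧ (Ideal.absNorm I : ℝ) ≤ x := by
  classical
  rw [clLe, Finset.mem_filter, mem_normLe hx, and_comm]

theorem clLe_subset {𝒩 : Submonoid (Ideal (𝓞 E))} (c : Cl 𝔪 𝒩) (x : ℝ) :
    clLe 𝒩 c x ⊆ normLe x := by
  classical
  exact Finset.filter_subset _ _

theorem clLe_disjoint {𝒩 : Submonoid (Ideal (𝓞 E))} {c c' : Cl 𝔪 𝒩} (h : c ≠ c') (x : ℝ) :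
    Disjoint (clLe 𝒩 c x) (clLe 𝒩 c' x) := by
  classical
  rw [Finset.disjoint_left]
  intro I hI hI'
  rw [clLe, Finset.mem_filter] at hI hI'
  exact h (WithZero.coe_inj.mp (hI.2.symm.trans hI'.2))

theorem card_normLe {x : ℝ} (hx : 0 ≤ x) :
    Nat.card {I : Ideal (𝓞 E) // (Ideal.absNorm I : ℝ) ≤ x} = (normLe (E := E) x).card :=
  Nat.subtype_card _ fun _ => mem_normLe hx

/-- The counting statement of `StCNT`, for the classes of the ray class group. -/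
theorem count_ray (hCNT : Asm.StCNT) (h𝔪 : 𝔪 ≠ ⊥) :
    ∃ κ : ℝ, 0 < κ ∧ ∀ ρ : Cl 𝔪 (⊥ : Submonoid (Ideal (𝓞 E))), ∃ C : ℝ, ∀ x : ℝ, 1 ≤ x →
      |((clLe ⊥ ρ x).card : ℝ) - κ * x| ≤ C * x ^ (1 - 1 / (Module.finrank ℚ E : ℝ)) := by
  obtain ⟨κ, hκ, h⟩ := hCNT E 𝔪 h𝔪
  refine ⟨κ, hκ, fun ρ => ?_⟩
  obtain ⟨x₀, rfl⟩ := mk_surjective ρ
  obtain ⟨C, hC⟩ := h (x₀ : Ideal (𝓞 E)) x₀.2.1 x₀.2.2
  refine ⟨C, fun x hx => ?_⟩
  have h1 := hC x hx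
  have h2 : Nat.card {𝔞 : Ideal (𝓞 E) // 𝔞 ≠ ⊥ ∧ Asm.RayEquiv E 𝔪 𝔞 (x₀ : Ideal (𝓞 E)) ∧
      (Ideal.absNorm 𝔞 : ℝ) ≤ x} = (clLe ⊥ (mk 𝔪 ⊥ x₀) x).card := by
    refine Nat.subtype_card _ fun I => ?_
    rw [mem_clLe (by linarith), clMap_eq_coe_mk_iff x₀ bot_le_idl, rel_bot_iff]
    constructor
    · rintro ⟨h3, h4⟩
      have hmem : I ∈ idl 𝔪 := mem_idl_of_rel bot_le_idl (rel_bot_iff.mpr h3) x₀.2
      exact ⟨hmem.1, h3, h4⟩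
    · rintro ⟨-, h3, h4⟩
      exact ⟨h3, h4⟩
  rw [h2] at h1
  exact h1

/-- Finitely many distinct classes contain together at most all the ideals. -/
theorem sum_card_clLe_le {𝒩 : Submonoid (Ideal (𝓞 E))} (S : Finset (Cl 𝔪 𝒩)) (x : ℝ) :
    ∑ ρ ∈ S, (clLe 𝒩 ρ x).card ≤ (normLe (E := E) x).card := by
  classical
  rw [← Finset.card_biUnion (fun ρ _ ρ' _ h => clLe_disjoint h x)]
  exact Finset.card_le_card (Finset.biUnion_subset.mpr fun ρ _ => clLe_subset ρ x)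

/-- **The ray class group is finite** (from the counting statement). -/
theorem finite_rayCl (hCNT : Asm.StCNT) (h𝔪 : 𝔪 ≠ ⊥) :
    Finite (Cl 𝔪 (⊥ : Submonoid (Ideal (𝓞 E)))) := by
  classical
  by_contra hinf
  rw [not_finite_iff_infinite] at hinf
  obtain ⟨κ, hκ, hcount⟩ := count_ray hCNT h𝔪
  choose C hC using hcount
  -- the total count
  have hT := NumberField.Ideal.tendsto_norm_le_div_atTop E
  set L : ℝ := (2 ^ InfinitePlace.nrRealPlaces E * (2 * Real.pi) ^ InfinitePlace.nrComplexPlaces E *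
    Units.regulator E * classNumber E) / (Units.torsionOrder E * Real.sqrt |discr E|) with hL
  obtain ⟨N, hN⟩ := exists_nat_gt (L / κ)
  obtain ⟨S, hS⟩ := Infinite.exists_subset_card_eq (Cl 𝔪 (⊥ : Submonoid (Ideal (𝓞 E)))) N
  set d : ℝ := (Module.finrank ℚ E : ℝ) with hd
  have hd0 : 0 < 1 / d := by
    have : 0 < Module.finrank ℚ E := Module.finrank_pos
    positivity
  set B : ℝ := ∑ ρ ∈ S, C ρ with hB
  -- the inequality for `x ≥ 1`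
  have hineq : ∀ x : ℝ, 1 ≤ x → (N : ℝ) * κ - B * x ^ (-(1 / d)) ≤
      (Nat.card {I : Ideal (𝓞 E) // (Ideal.absNorm I : ℝ) ≤ x} : ℝ) / x := by
    intro x hx
    have hx0 : 0 < x := by linarith
    rw [card_normLe hx0.le, le_div_iff₀ hx0]
    have h1 : ∀ ρ ∈ S, κ * x - C ρ * x ^ (1 - 1 / d) ≤ ((clLe ⊥ ρ x).card : ℝ) := by
      intro ρ _
      have := (abs_le.mp (hC ρ x hx)).1
      linarith
    have h2 := Finset.sum_le_sum h1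
    rw [Finset.sum_sub_distrib, Finset.sum_const, nsmul_eq_mul, hS, ← Finset.sum_mul] at h2
    have h3 : (∑ ρ ∈ S, ((clLe ⊥ ρ x).card : ℝ)) ≤ ((normLe (E := E) x).card : ℝ) := by
      exact_mod_cast sum_card_clLe_le S x
    have h4 : x ^ (1 - 1 / d) = x ^ (-(1 / d)) * x := by
      rw [sub_eq_add_neg, add_comm, Real.rpow_add hx0, Real.rpow_one]
    rw [h4] at h2
    calc ((N : ℝ) * κ - B * x ^ (-(1 / d))) * x
        = (N : ℝ) * (κ * x) - B * (x ^ (-(1 / d)) * x) := by ring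
      _ ≤ ∑ ρ ∈ S, ((clLe ⊥ ρ x).card : ℝ) := h2
      _ ≤ _ := h3
  -- the limit
  have hlim : Tendsto (fun x : ℝ => (N : ℝ) * κ - B * x ^ (-(1 / d))) atTop
      (𝓝 ((N : ℝ) * κ - B * 0)) :=
    tendsto_const_nhds.sub ((tendsto_rpow_neg_atTop hd0).const_mul B)
  have hle : (N : ℝ) * κ - B * 0 ≤ L :=
    le_of_tendsto_of_tendsto hlim hT
      ((eventually_ge_atTop (1 : ℝ)).mono fun x hx => hineq x hx)
  rw [mul_zero, sub_zero] at hle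
  rw [div_lt_iff₀ hκ] at hN
  linarith

/-- The ideals of the class `c` of `Cl 𝔪 𝒩` are those of the ray classes above `c`. -/
theorem clLe_eq_biUnion {𝒩 : Submonoid (Ideal (𝓞 E))}
    [Fintype (Cl 𝔪 (⊥ : Submonoid (Ideal (𝓞 E))))] [DecidableEq (Cl 𝔪 𝒩)]
    (c : Cl 𝔪 𝒩) (x : ℝ) :
    clLe 𝒩 c x = (Finset.univ.filter fun ρ : Cl 𝔪 (⊥ : Submonoid (Ideal (𝓞 E))) =>
      clHom 𝔪 (bot_le : (⊥ : Submonoid (Ideal (𝓞 E))) ≤ 𝒩) ρ = c).biUnion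
        fun ρ => clLe ⊥ ρ x := by
  classical
  ext I
  simp only [clLe, Finset.mem_filter, Finset.mem_biUnion, Finset.mem_univ, true_and]
  constructor
  · rintro ⟨hI, hc⟩
    have hmem := mem_idl_of_clMap_eq_coe hc
    refine ⟨mk 𝔪 ⊥ ⟨I, hmem⟩, ?_, hI, clMap_of_mem hmem⟩
    rw [clMap_of_mem hmem, WithZero.coe_inj] at hc
    rw [clHom_mk, hc]
  · rintro ⟨ρ, hρ, hI, hIρ⟩
    refine ⟨hI, ?_⟩
    rw [clMap_clHom bot_le hIρ, hρ]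

/-- **Counting in the classes of `Cl 𝔪 𝒩`.** -/
theorem count_cl (hCNT : Asm.StCNT) (h𝔪 : 𝔪 ≠ ⊥) (𝒩 : Submonoid (Ideal (𝓞 E))) :
    ∃ κ C δ : ℝ, 0 < δ ∧ ∀ (c : Cl 𝔪 𝒩) (n : ℕ), 1 ≤ n →
      |(Nat.card {I : Ideal (𝓞 E) // clMap 𝔪 𝒩 I = (c : WithZero (Cl 𝔪 𝒩)) ∧
          Ideal.absNorm I ≤ n} : ℝ) - κ * n| ≤ C * (n : ℝ) ^ (1 - δ) := by
  classical
  have := finite_rayCl hCNT h𝔪
  have : Fintype (Cl 𝔪 (⊥ : Submonoid (Ideal (𝓞 E)))) := Fintype.ofFinite _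
  obtain ⟨κ, -, hcount⟩ := count_ray hCNT h𝔪
  choose C hC using hcount
  set π : Cl 𝔪 (⊥ : Submonoid (Ideal (𝓞 E))) →* Cl 𝔪 𝒩 := clHom 𝔪 bot_le with hπ
  set r : ℕ := (Finset.univ.filter fun ρ => π ρ = 1).card with hr
  have hfib : ∀ c : Cl 𝔪 𝒩, (Finset.univ.filter fun ρ => π ρ = c).card = r := fun c =>
    MonoidHom.card_fiber_eq_of_mem_range π (clHom_surjective bot_le c) ⟨1, map_one π⟩
  set d : ℝ := (Module.finrank ℚ E : ℝ) with hd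
  have hd0 : 0 < 1 / d := by
    have : 0 < Module.finrank ℚ E := Module.finrank_pos
    positivity
  refine ⟨r * κ, ∑ ρ, |C ρ|, 1 / d, hd0, fun c n hn => ?_⟩
  have hn1 : (1 : ℝ) ≤ (n : ℝ) := by exact_mod_cast hn
  have hn0 : (0 : ℝ) ≤ (n : ℝ) := by linarith
  have hpow : (0 : ℝ) ≤ (n : ℝ) ^ (1 - 1 / d) := Real.rpow_nonneg hn0 _
  -- the count as a cardinality of a finite set
  have h1 : Nat.card {I : Ideal (𝓞 E) // clMap 𝔪 𝒩 I = (c : WithZero (Cl 𝔪 𝒩)) ∧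
      Ideal.absNorm I ≤ n} = (clLe 𝒩 c (n : ℝ)).card := by
    refine Nat.subtype_card _ fun I => ?_
    rw [mem_clLe hn0, Nat.cast_le]
  rw [h1, clLe_eq_biUnion c (n : ℝ),
    Finset.card_biUnion (fun ρ _ ρ' _ h => clLe_disjoint h (n : ℝ)), Nat.cast_sum]
  have h2 : (r : ℝ) * κ * n = ∑ ρ ∈ Finset.univ.filter (fun ρ => π ρ = c), κ * (n : ℝ) := by
    rw [Finset.sum_const, nsmul_eq_mul, hfib c]
    ring
  rw [h2, ← Finset.sum_sub_distrib]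
  calc |∑ ρ ∈ Finset.univ.filter (fun ρ => π ρ = c), (((clLe ⊥ ρ (n : ℝ)).card : ℝ) - κ * n)|
      ≤ ∑ ρ ∈ Finset.univ.filter (fun ρ => π ρ = c), |((clLe ⊥ ρ (n : ℝ)).card : ℝ) - κ * n| :=
        Finset.abs_sum_le_sum_abs _ _
    _ ≤ ∑ ρ ∈ Finset.univ.filter (fun ρ => π ρ = c), |C ρ| * (n : ℝ) ^ (1 - 1 / d) := by
        refine Finset.sum_le_sum fun ρ _ => ?_
        exact (hC ρ n hn1).trans (mul_le_mul_of_nonneg_right (le_abs_self _) hpow)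
    _ ≤ ∑ ρ, |C ρ| * (n : ℝ) ^ (1 - 1 / d) :=
        Finset.sum_le_sum_of_subset_of_nonneg (Finset.filter_subset _ _)
          (fun ρ _ _ => mul_nonneg (abs_nonneg _) hpow)
    _ = (∑ ρ, |C ρ|) * (n : ℝ) ^ (1 - 1 / d) := by rw [Finset.sum_mul]

end Count

/-- **Leaf [RAY]**: the classes of ideals prime to `𝔪` modulo `P_𝔪 N(I_M^(𝔪))` form a finite
commutative group, and the counting statement of CNT passes to it. -/
theorem stRAY : StRAY := by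
  intro hCNT E M _ _ _ _ _ 𝔪 h𝔪
  have := finite_rayCl hCNT h𝔪
  have hfin : Finite (Cl 𝔪 (normMonoid E M 𝔪)) :=
    Finite.of_surjective _ (clHom_surjective (bot_le : (⊥ : Submonoid (Ideal (𝓞 E))) ≤
      normMonoid E M 𝔪))
  refine ⟨Cl 𝔪 (normMonoid E M 𝔪), instCommGroupCl, hfin, clMap 𝔪 (normMonoid E M 𝔪), ?_, ?_, ?_⟩
  · intro 𝔞
    exact clMap_eq_zero_iff
  · intro 𝔞 𝔟 ha ha' hb hb'
    rw [clMap_eq_iff ⟨ha, ha'⟩ ⟨hb, hb'⟩, rel_norm_iff]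
  · exact count_cl hCNT h𝔪 (normMonoid E M 𝔪)

end Fermat.Agent.S14x.LFN.H29
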