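import Fermat.Agent.S14x.LFN.H22_Main
import Fermat.Agent.S14x.LFN.H11_AdD
import Fermat.Agent.S14x.LFN.H11_AdU
import Fermat.Agent.S14x.LFN.H29_Ray
import Fermat.Agent.S14x.Art.H28_AsmArt

/-!
# S14 / LFN (helper22, coordinator): the deliverables of the package, in the shapes of `Asm/Defs`

* `stDgen : Asm.StDgen`            — density (D), general form, hypothesis-free;
* `stD p : Asm.StD p`              — density (D) for the unramified extension `L/K` of degree `p`
  (the Frobenius is given by ART's `stArtinExists`), hypothesis-free;
* `stU_of_cnt : Asm.StCNT → Asm.StU` — the universal norm inequality (U); the only open input is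
  the ideal counting with error term of package CNT.

Credits: leaves `[FIB] [ZS] [ZB] [AB]` helper22, `[EP] [PC]` helper4, `[NRM] [RAM]` helper6,
`[CH]` helper7 (hedge helper21), `[PZ]` helper27, `[RAY]` helper29, `[U]` helper11 (hedge
helper1), `[D]` helper22 (hedge helper2), adapters helper11.
-/

set_option autoImplicit false

namespace Fermat.Agent.S14x.LFN.Final

open Fermat.Agent.S14x

/-- **(D), general form** (`Asm.StDgen`), hypothesis-free. -/
theorem stDgen : Asm.StDgen := LFN.H11.stDgen LFN.Main.stDabs

/-- **(D)** for the top level, from the existence of the Artin map. -/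
theorem stD_of (p : ℕ) [Fact p.Prime] : Asm.StArtinExists → Asm.StD p :=
  LFN.H11.stD p LFN.Main.stDabs

/-- **(D)** for the top level (`Asm.StD p`), hypothesis-free. -/
theorem stD (p : ℕ) [Fact p.Prime] : Asm.StD p :=
  stD_of p Art.H28.stArtinExists

/-- **(U)** (`Asm.StU`) from the counting statement of CNT. -/
theorem stU_of_cnt : Asm.StCNT → Asm.StU :=
  LFN.H11.stU LFN.H29.stRAY LFN.Main.stUabs

end Fermat.Agent.S14x.LFN.Final
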