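import Mathlib
import Fermat.Agent.S14x.LFN.Defs

/-!
# S14 / package LFN, leaf [U] (helper11): the universal norm inequality, abstract form

`stUabs_of` : `LFN.StUabs` from the leaves `StZS`, `StZB`, `StFIB`, `StEP`, `StPC`, `StPZlower`,
`StNRM`, `StAB`, `StCH` of package LFN (all as explicit hypotheses).

Proof. For `s ∈ (1, 2]` put `x_P = N(P)^(-s)`.  For a character `χ` of `H` let
`L(s, χ) = ∑_I χ(cl I) N(I)^(-s)`.
* `χ ≠ 1`: the partial sums of the coefficients are `O(n^(1-δ))` (equidistribution and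
  orthogonality), so `|L(s, χ)| ≤ B_χ` (`StFIB`, `StAB`);
* `χ = 1`: `|L(s, 1)| ≤ ζ_E(s) ≤ C / (s - 1)` (`StZS`, `StZB`);
* Euler products (`StEP`) and the per-prime estimates (`StCH`) give, for every finite set `T₀`
  of primes, `∏_χ |L(s, χ)| ≥ exp (h ∑_{P ∈ T₀, cl P = 1} x_P - (h/2) C)` (`StPC`);
* `T₀` := the primes of `E` below a finite set of degree-one primes of `M` of total mass
  `≥ log (1/(s-1)) - C` (`StPZlower` for `M`, `StNRM`): they are norms, so their classes are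
  `0` (finitely many) or `1`.
Hence `(h - n) log (1/(s-1))` is bounded as `s → 1+`, so `h ≤ n`.
-/

set_option autoImplicit false
set_option linter.unusedSectionVars false
set_option linter.unusedVariables false
noncomputable section
open NumberField IsDedekindDomain Filter Topology

namespace Fermat.Agent.S14x.LFN.H11

section Nrm
variable (F : Type) [Field F] [NumberField F]

theorem nrm_nonneg (s : ℝ) (I : Ideal (𝓞 F)) : 0 ≤ nrm F s I :=
  Real.rpow_nonneg (Nat.cast_nonneg _) _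

theorem nrm_bot {s : ℝ} (hs : s ≠ 0) : nrm F s (⊥ : Ideal (𝓞 F)) = 0 := by
  unfold nrm
  rw [Ideal.absNorm_bot, Nat.cast_zero, Real.zero_rpow (neg_ne_zero.mpr hs)]

theorem nrm_top (s : ℝ) : nrm F s (⊤ : Ideal (𝓞 F)) = 1 := by
  unfold nrm
  rw [Ideal.absNorm_top, Nat.cast_one, Real.one_rpow]

theorem nrm_mul (s : ℝ) (I J : Ideal (𝓞 F)) : nrm F s (I * J) = nrm F s I * nrm F s J := by
  unfold nrm
  rw [map_mul, Nat.cast_mul, Real.mul_rpow (Nat.cast_nonneg _) (Nat.cast_nonneg _)]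

theorem nrm_le_one {s : ℝ} (hs : 0 < s) (I : Ideal (𝓞 F)) : nrm F s I ≤ 1 := by
  by_cases hI : I = ⊥
  · rw [hI, nrm_bot F hs.ne']; exact zero_le_one
  · unfold nrm
    have h1 : (1 : ℝ) ≤ (Ideal.absNorm I : ℝ) := by
      have : 0 < Ideal.absNorm I := Nat.pos_of_ne_zero (fun h => hI (Ideal.absNorm_eq_zero_iff.mp h))
      exact_mod_cast this
    exact Real.rpow_le_one_of_one_le_of_nonpos h1 (by linarith)

theorem nrm_prime_lt_one {s : ℝ} (hs : 0 < s) (P : HeightOneSpectrum (𝓞 F)) :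
    nrm F s P.asIdeal < 1 := by
  unfold nrm
  have h2 : (1 : ℝ) < (Ideal.absNorm P.asIdeal : ℝ) := by
    have h0 : Ideal.absNorm P.asIdeal ≠ 0 := fun h => P.ne_bot (Ideal.absNorm_eq_zero_iff.mp h)
    have h1 : Ideal.absNorm P.asIdeal ≠ 1 := fun h =>
      P.isPrime.ne_top (Ideal.absNorm_eq_one_iff.mp h)
    have : 1 < Ideal.absNorm P.asIdeal := by omega
    exact_mod_cast this
  exact Real.rpow_lt_one_of_one_lt_of_neg h2 (by linarith)

end Nrm

section Char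
variable {H : Type} [CommGroup H] [Finite H]

/-- Extension of a character by zero. -/
def chiZ (χ : H →* ℂˣ) : WithZero H →*₀ ℂ := WithZero.lift' ((Units.coeHom ℂ).comp χ)

omit [Finite H] in
@[simp] theorem chiZ_zero (χ : H →* ℂˣ) : chiZ χ 0 = 0 := map_zero _

omit [Finite H] in
@[simp] theorem chiZ_coe (χ : H →* ℂˣ) (g : H) : chiZ χ (g : WithZero H) = ((χ g : ℂˣ) : ℂ) := by
  simp [chiZ]

theorem norm_chi (χ : H →* ℂˣ) (g : H) : ‖((χ g : ℂˣ) : ℂ)‖ = 1 := by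
  have h1 : g ^ Nat.card H = 1 := pow_card_eq_one'
  have h2 : ((χ g : ℂˣ) : ℂ) ^ Nat.card H = 1 := by
    rw [← Units.val_pow_eq_pow_val, ← map_pow, h1, map_one, Units.val_one]
  exact Complex.norm_eq_one_of_pow_eq_one h2 Nat.card_pos.ne'

theorem norm_chiZ_le_one (χ : H →* ℂˣ) (x : WithZero H) : ‖chiZ χ x‖ ≤ 1 := by
  induction x using WithZero.recZeroCoe with
  | zero => simp
  | coe g => rw [chiZ_coe, norm_chi]

theorem chiZ_one_char (x : WithZero H) (hx : x ≠ 0) : chiZ (1 : H →* ℂˣ) x = 1 := by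
  induction x using WithZero.recZeroCoe with
  | zero => exact absurd rfl hx
  | coe g => simp

/-- `x` if `g = 1`, else `0`. -/
def ind1 (g : WithZero H) (x : ℝ) : ℝ := by
  classical exact if g = 1 then x else 0

omit [Finite H] in
theorem ind1_one (x : ℝ) : ind1 (1 : WithZero H) x = x := by
  classical
  unfold ind1; rw [if_pos rfl]

omit [Finite H] in
theorem ind1_of_ne {g : WithZero H} (hg : g ≠ 1) (x : ℝ) : ind1 g x = 0 := by
  classical
  unfold ind1; rw [if_neg hg]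

omit [Finite H] in
theorem ind1_nonneg (g : WithZero H) {x : ℝ} (hx : 0 ≤ x) : 0 ≤ ind1 g x := by
  by_cases hg : g = 1
  · rw [hg, ind1_one]; exact hx
  · rw [ind1_of_ne hg]

omit [Finite H] in
theorem ind1_le (g : WithZero H) {x : ℝ} (hx : 0 ≤ x) : ind1 g x ≤ x := by
  by_cases hg : g = 1
  · rw [hg, ind1_one]
  · rw [ind1_of_ne hg]; exact hx

/-- The per-prime lower bound. -/
theorem prime_factor_lower (hCH : StCH H) [Fintype (H →* ℂˣ)] (g : WithZero H) (x : ℝ)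
    (hx0 : 0 ≤ x) (hx1 : x < 1) :
    Real.exp ((Nat.card H : ℝ) * ind1 g x - (Nat.card H : ℝ) / 2 * x ^ 2) ≤
      ∏ χ : H →* ℂˣ, ‖(1 - chiZ χ g * (x : ℂ))⁻¹‖ := by
  have hcard : Fintype.card (H →* ℂˣ) = Nat.card H := by
    rw [← Nat.card_eq_fintype_card]; exact hCH.1
  have hh : (0 : ℝ) ≤ (Nat.card H : ℝ) := Nat.cast_nonneg _
  induction g using WithZero.recZeroCoe with
  | zero =>
    have h1 : ∀ χ : H →* ℂˣ, ‖(1 - chiZ χ (0 : WithZero H) * (x : ℂ))⁻¹‖ = 1 := by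
      intro χ; simp
    rw [Finset.prod_congr rfl (fun χ _ => h1 χ), Finset.prod_const_one]
    rw [ind1_of_ne (by exact zero_ne_one), mul_zero, zero_sub]
    rw [← Real.exp_zero]
    apply Real.exp_le_exp.mpr
    have : 0 ≤ (Nat.card H : ℝ) / 2 * x ^ 2 := by positivity
    linarith
  | coe a =>
    by_cases ha : a = 1
    · subst ha
      have h1 : ∀ χ : H →* ℂˣ, ‖(1 - chiZ χ ((1 : H) : WithZero H) * (x : ℂ))⁻¹‖ = (1 - x)⁻¹ := by
        intro χ
        rw [chiZ_coe, map_one, Units.val_one, one_mul, norm_inv]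
        congr 1
        rw [show (1 : ℂ) - (x : ℂ) = ((1 - x : ℝ) : ℂ) by push_cast; ring, Complex.norm_real,
          Real.norm_of_nonneg (by linarith)]
      rw [Finset.prod_congr rfl (fun χ _ => h1 χ), Finset.prod_const, Finset.card_univ, hcard]
      rw [show (((1 : H) : WithZero H)) = 1 from rfl, ind1_one]
      have h2 : Real.exp x ≤ (1 - x)⁻¹ := by
        have h3 := Real.add_one_le_exp (-x)
        have h4 : 0 < 1 - x := by linarith
        rw [le_inv_comm₀ (Real.exp_pos _) h4, ← Real.exp_neg]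
        linarith
      calc Real.exp ((Nat.card H : ℝ) * x - (Nat.card H : ℝ) / 2 * x ^ 2)
          ≤ Real.exp ((Nat.card H : ℝ) * x) := by
            apply Real.exp_le_exp.mpr
            have : 0 ≤ (Nat.card H : ℝ) / 2 * x ^ 2 := by positivity
            linarith
        _ = Real.exp x ^ Nat.card H := by rw [← Real.exp_nat_mul]
        _ ≤ (1 - x)⁻¹ ^ Nat.card H := by
            exact pow_le_pow_left₀ (Real.exp_pos _).le h2 _
    · have hne : (a : WithZero H) ≠ 1 := by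
        intro h
        exact ha (WithZero.coe_inj.mp h)
      rw [ind1_of_ne hne, mul_zero, zero_sub]
      have h3 := hCH.2.2 a ha x hx0
      rw [finprod_eq_prod_of_fintype] at h3
      have hpos : ∀ χ : H →* ℂˣ, 0 < ‖(1 : ℂ) - ((χ a : ℂˣ) : ℂ) * (x : ℂ)‖ := by
        intro χ
        rw [norm_pos_iff]
        intro h0
        have h5 : ((χ a : ℂˣ) : ℂ) * (x : ℂ) = 1 := by linear_combination -h0
        have h6 := congrArg norm h5
        rw [norm_mul, norm_chi, one_mul, Complex.norm_real, Real.norm_of_nonneg hx0,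
          norm_one] at h6
        linarith
      have hP : 0 < ∏ χ : H →* ℂˣ, ‖(1 : ℂ) - ((χ a : ℂˣ) : ℂ) * (x : ℂ)‖ :=
        Finset.prod_pos (fun χ _ => hpos χ)
      have h7 : ∏ χ : H →* ℂˣ, ‖(1 - chiZ χ (a : WithZero H) * (x : ℂ))⁻¹‖ =
          (∏ χ : H →* ℂˣ, ‖(1 : ℂ) - ((χ a : ℂˣ) : ℂ) * (x : ℂ)‖)⁻¹ := by
        rw [← Finset.prod_inv_distrib]
        refine Finset.prod_congr rfl (fun χ _ => ?_)
        rw [chiZ_coe, norm_inv]
      rw [h7, le_inv_comm₀ (Real.exp_pos _) hP, ← Real.exp_neg]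
      refine h3.trans ?_
      have h8 : (1 + x ^ 2 : ℝ) ≤ Real.exp (x ^ 2) := by
        have := Real.add_one_le_exp (x ^ 2); linarith
      calc (1 + x ^ 2 : ℝ) ^ ((Nat.card H : ℝ) / 2)
          ≤ Real.exp (x ^ 2) ^ ((Nat.card H : ℝ) / 2) :=
            Real.rpow_le_rpow (by positivity) h8 (by positivity)
        _ = Real.exp (-(-((Nat.card H : ℝ) / 2 * x ^ 2))) := by
            rw [← Real.exp_mul]; congr 1; ring

end Char

section Weights
variable (E : Type) [Field E] [NumberField E] {H : Type} [CommGroup H] [Finite H]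
  (cl : Ideal (𝓞 E) →*₀ WithZero H)

/-- The weight `I ↦ χ(cl I) N(I)^(-s)`. -/
def wHom (s : ℝ) (hs : 0 < s) (χ : H →* ℂˣ) : Ideal (𝓞 E) →*₀ ℂ where
  toFun I := chiZ χ (cl I) * ((nrm E s I : ℝ) : ℂ)
  map_zero' := by
    show chiZ χ (cl 0) * _ = 0
    rw [map_zero, map_zero, zero_mul]
  map_one' := by
    show chiZ χ (cl 1) * ((nrm E s 1 : ℝ) : ℂ) = 1
    rw [map_one, map_one, Ideal.one_eq_top, nrm_top]; simp
  map_mul' I J := by
    show chiZ χ (cl (I * J)) * ((nrm E s (I * J) : ℝ) : ℂ) = _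
    rw [map_mul, map_mul, nrm_mul]; push_cast; ring

omit [Finite H] in
theorem wHom_apply (s : ℝ) (hs : 0 < s) (χ : H →* ℂˣ) (I : Ideal (𝓞 E)) :
    wHom E cl s hs χ I = chiZ χ (cl I) * ((nrm E s I : ℝ) : ℂ) := rfl

theorem norm_wHom_le (s : ℝ) (hs : 0 < s) (χ : H →* ℂˣ) (I : Ideal (𝓞 E)) :
    ‖wHom E cl s hs χ I‖ ≤ nrm E s I := by
  rw [wHom_apply, norm_mul, Complex.norm_real, Real.norm_of_nonneg (nrm_nonneg E s I)]
  calc ‖chiZ χ (cl I)‖ * nrm E s I ≤ 1 * nrm E s I :=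
        mul_le_mul_of_nonneg_right (norm_chiZ_le_one χ _) (nrm_nonneg E s I)
    _ = nrm E s I := one_mul _

theorem summable_norm_wHom (hZS : StZS E) (s : ℝ) (hs : 1 < s) (χ : H →* ℂˣ) :
    Summable (fun I : Ideal (𝓞 E) => ‖wHom E cl s (by linarith) χ I‖) :=
  Summable.of_nonneg_of_le (fun _ => norm_nonneg _) (fun I => norm_wHom_le E cl s _ χ I)
    (hZS s hs).1

/-- The `L`-function of the character `χ` of the class group `H`. -/
def Lfun (s : ℝ) (hs : 0 < s) (χ : H →* ℂˣ) : ℂ := ∑' I : Ideal (𝓞 E), wHom E cl s hs χ I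

theorem norm_Lfun_le_zetaR (hZS : StZS E) (s : ℝ) (hs : 1 < s) (χ : H →* ℂˣ) :
    ‖Lfun E cl s (by linarith) χ‖ ≤ zetaR E s := by
  unfold Lfun zetaR
  refine (norm_tsum_le_tsum_norm (summable_norm_wHom E cl hZS s hs χ)).trans ?_
  exact (summable_norm_wHom E cl hZS s hs χ).tsum_le_tsum (fun I => norm_wHom_le E cl s _ χ I)
    (hZS s hs).1

/-- The lower bound for `∏_χ |L(s, χ)|` from the Euler product. -/
theorem prod_Lfun_lower (hCH : StCH H) (hEP : StEP (𝓞 E)) (hZS : StZS E) [Fintype (H →* ℂˣ)]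
    (s : ℝ) (hs : 1 < s) (C : ℝ)
    (hPC : ∀ T : Finset (HeightOneSpectrum (𝓞 E)), ∑ P ∈ T, nrm E s P.asIdeal ^ 2 ≤ C)
    (T₀ : Finset (HeightOneSpectrum (𝓞 E))) :
    Real.exp ((Nat.card H : ℝ) * ∑ P ∈ T₀, ind1 (cl P.asIdeal) (nrm E s P.asIdeal)
        - (Nat.card H : ℝ) / 2 * C) ≤
      ∏ χ : H →* ℂˣ, ‖Lfun E cl s (by linarith) χ‖ := by
  have hs0 : (0 : ℝ) < s := by linarith
  have h1 : ∀ χ : H →* ℂˣ, HasProd
      (fun P : HeightOneSpectrum (𝓞 E) => (1 - wHom E cl s hs0 χ P.asIdeal)⁻¹)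
      (Lfun E cl s hs0 χ) := fun χ =>
    hEP ℂ (wHom E cl s hs0 χ) (summable_norm_wHom E cl hZS s hs χ)
  have h2 : HasProd
      (fun P : HeightOneSpectrum (𝓞 E) => ∏ χ : H →* ℂˣ, (1 - wHom E cl s hs0 χ P.asIdeal)⁻¹)
      (∏ χ : H →* ℂˣ, Lfun E cl s hs0 χ) := hasProd_prod (fun χ _ => h1 χ)
  have h3 := h2.norm
  rw [norm_prod] at h3
  have h4 : ∀ P : HeightOneSpectrum (𝓞 E),
      Real.exp ((Nat.card H : ℝ) * ind1 (cl P.asIdeal) (nrm E s P.asIdeal)
        - (Nat.card H : ℝ) / 2 * nrm E s P.asIdeal ^ 2) ≤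
      ‖∏ χ : H →* ℂˣ, (1 - wHom E cl s hs0 χ P.asIdeal)⁻¹‖ := by
    intro P
    rw [norm_prod]
    exact prime_factor_lower hCH (cl P.asIdeal) (nrm E s P.asIdeal) (nrm_nonneg E s _)
      (nrm_prime_lt_one E hs0 P)
  have hh : (0 : ℝ) ≤ (Nat.card H : ℝ) := Nat.cast_nonneg _
  refine ge_of_tendsto h3 ?_
  filter_upwards [eventually_ge_atTop T₀] with T hT
  calc Real.exp ((Nat.card H : ℝ) * ∑ P ∈ T₀, ind1 (cl P.asIdeal) (nrm E s P.asIdeal)
        - (Nat.card H : ℝ) / 2 * C)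
      ≤ Real.exp (∑ P ∈ T, ((Nat.card H : ℝ) * ind1 (cl P.asIdeal) (nrm E s P.asIdeal)
        - (Nat.card H : ℝ) / 2 * nrm E s P.asIdeal ^ 2)) := by
        apply Real.exp_le_exp.mpr
        rw [Finset.sum_sub_distrib, ← Finset.mul_sum, ← Finset.mul_sum]
        have h5 : ∑ P ∈ T₀, ind1 (cl P.asIdeal) (nrm E s P.asIdeal) ≤
            ∑ P ∈ T, ind1 (cl P.asIdeal) (nrm E s P.asIdeal) :=
          Finset.sum_le_sum_of_subset_of_nonneg hT
            (fun P _ _ => ind1_nonneg _ (nrm_nonneg E s _))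
        have h6 := hPC T
        have h7 : (Nat.card H : ℝ) / 2 * ∑ P ∈ T, nrm E s P.asIdeal ^ 2 ≤
            (Nat.card H : ℝ) / 2 * C := mul_le_mul_of_nonneg_left h6 (by positivity)
        have h8 := mul_le_mul_of_nonneg_left h5 hh
        linarith
    _ = ∏ P ∈ T, Real.exp ((Nat.card H : ℝ) * ind1 (cl P.asIdeal) (nrm E s P.asIdeal)
        - (Nat.card H : ℝ) / 2 * nrm E s P.asIdeal ^ 2) := Real.exp_sum _ _
    _ ≤ ∏ P ∈ T, ‖∏ χ : H →* ℂˣ, (1 - wHom E cl s hs0 χ P.asIdeal)⁻¹‖ :=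
        Finset.prod_le_prod (fun P _ => (Real.exp_pos _).le) (fun P _ => h4 P)

end Weights


section Partial
variable (E : Type) [Field E] [NumberField E] {H : Type} [CommGroup H] [Finite H]
  (cl : Ideal (𝓞 E) →*₀ WithZero H)

omit [Finite H] in
/-- `χ~(g) = ∑_c [g = c] χ(c)`. -/
theorem chiZ_eq_sum [Fintype H] [DecidableEq (WithZero H)] (χ : H →* ℂˣ) (g : WithZero H) :
    chiZ χ g = ∑ c : H, if g = (c : WithZero H) then ((χ c : ℂˣ) : ℂ) else 0 := by
  induction g using WithZero.recZeroCoe with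
  | zero =>
    rw [chiZ_zero]
    symm
    apply Finset.sum_eq_zero
    intro c _
    rw [if_neg (WithZero.zero_ne_coe)]
  | coe a =>
    rw [chiZ_coe, Finset.sum_eq_single a]
    · rw [if_pos rfl]
    · intro c _ hc
      rw [if_neg]
      intro h
      exact hc (WithZero.coe_inj.mp h).symm
    · intro h; exact absurd (Finset.mem_univ a) h

/-- The partial sums of the coefficients of `L(s, χ)`, `χ ≠ 1`, are small. -/
theorem partial_sum_bound (hCH : StCH H) (χ : H →* ℂˣ) (hχ : χ ≠ 1) (κ C δ : ℝ)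
    (hcount : ∀ (c : H) (n : ℕ), 1 ≤ n →
      |(Nat.card {I : Ideal (𝓞 E) // cl I = (c : WithZero H) ∧ Ideal.absNorm I ≤ n} : ℝ)
        - κ * n| ≤ C * (n : ℝ) ^ (1 - δ))
    (n : ℕ) (hn : 1 ≤ n) :
    ‖∑ k ∈ Finset.Icc 1 n,
        ∑ᶠ I ∈ {I : Ideal (𝓞 E) | Ideal.absNorm I = k}, chiZ χ (cl I)‖ ≤
      (Nat.card H : ℝ) * C * (n : ℝ) ^ (1 - δ) := by
  classical
  haveI : Fintype H := Fintype.ofFinite H
  set A : Finset (Ideal (𝓞 E)) := (Ideal.finite_setOfPred_absNorm_le (S := 𝓞 E) n).toFinset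
    with hA
  have hAmem : ∀ I : Ideal (𝓞 E), I ∈ A ↔ Ideal.absNorm I ≤ n := by
    intro I; rw [hA, Set.Finite.mem_toFinset]; rfl
  -- step 1: each inner finsum is a finset sum
  have h1 : ∀ k ∈ Finset.Icc 1 n,
      ∑ᶠ I ∈ {I : Ideal (𝓞 E) | Ideal.absNorm I = k}, chiZ χ (cl I) =
      ∑ I ∈ A.filter (fun I => Ideal.absNorm I = k), chiZ χ (cl I) := by
    intro k hk
    apply finsum_mem_eq_sum_of_inter_support_eq
    congr 1
    ext I
    simp only [Set.mem_setOf_eq, Finset.coe_filter, hAmem]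
    constructor
    · intro h; exact ⟨h ▸ (Finset.mem_Icc.mp hk).2, h⟩
    · intro h; exact h.2
  rw [Finset.sum_congr rfl h1]
  -- step 2: fibrewise sum
  set A' : Finset (Ideal (𝓞 E)) := A.filter (fun I => 1 ≤ Ideal.absNorm I) with hA'
  have h2 : ∑ k ∈ Finset.Icc 1 n, ∑ I ∈ A.filter (fun I => Ideal.absNorm I = k), chiZ χ (cl I) =
      ∑ I ∈ A', chiZ χ (cl I) := by
    rw [← Finset.sum_fiberwise_of_maps_to (s := A') (t := Finset.Icc 1 n)
      (g := fun I => Ideal.absNorm I) (f := fun I => chiZ χ (cl I))]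
    · refine Finset.sum_congr rfl (fun k hk => ?_)
      refine Finset.sum_congr ?_ (fun _ _ => rfl)
      ext I
      simp only [hA', Finset.mem_filter, hAmem]
      constructor
      · rintro ⟨h1, h2⟩; exact ⟨⟨h1, h2 ▸ (Finset.mem_Icc.mp hk).1⟩, h2⟩
      · rintro ⟨⟨h1, _⟩, h2⟩; exact ⟨h1, h2⟩
    · intro I hI
      simp only [hA', Finset.mem_filter, hAmem] at hI
      exact Finset.mem_Icc.mpr ⟨hI.2, hI.1⟩
  rw [h2]
  -- step 3: group by class
  have h3 : ∑ I ∈ A', chiZ χ (cl I) =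
      ∑ c : H, ((χ c : ℂˣ) : ℂ) *
        (Nat.card {I : Ideal (𝓞 E) // cl I = (c : WithZero H) ∧ Ideal.absNorm I ≤ n} : ℂ) := by
    rw [Finset.sum_congr rfl (fun I _ => chiZ_eq_sum χ (cl I)), Finset.sum_comm]
    refine Finset.sum_congr rfl (fun c _ => ?_)
    rw [← Finset.sum_filter, Finset.sum_const, nsmul_eq_mul, mul_comm]
    congr 2
    symm
    apply Nat.subtype_card
    intro I
    simp only [hA', Finset.mem_filter, hAmem]
    constructor
    · rintro ⟨⟨h1, _⟩, h2⟩; exact ⟨h2, h1⟩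
    · rintro ⟨h1, h2⟩
      refine ⟨⟨h2, ?_⟩, h1⟩
      rw [Nat.one_le_iff_ne_zero]
      intro h0
      rw [Ideal.absNorm_eq_zero_iff] at h0
      rw [h0] at h1
      have : cl (⊥ : Ideal (𝓞 E)) = 0 := map_zero cl
      rw [this] at h1
      exact WithZero.zero_ne_coe h1
  rw [h3]
  -- step 4: orthogonality
  have h4 : ∑ c : H, ((χ c : ℂˣ) : ℂ) = 0 := by
    have := hCH.2.1 χ hχ
    rwa [finsum_eq_sum_of_fintype] at this
  have h5 : ∑ c : H, ((χ c : ℂˣ) : ℂ) *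
        (Nat.card {I : Ideal (𝓞 E) // cl I = (c : WithZero H) ∧ Ideal.absNorm I ≤ n} : ℂ) =
      ∑ c : H, ((χ c : ℂˣ) : ℂ) *
        (((Nat.card {I : Ideal (𝓞 E) // cl I = (c : WithZero H) ∧ Ideal.absNorm I ≤ n} : ℝ)
          - κ * n : ℝ) : ℂ) := by
    have : ∑ c : H, ((χ c : ℂˣ) : ℂ) *
        (((Nat.card {I : Ideal (𝓞 E) // cl I = (c : WithZero H) ∧ Ideal.absNorm I ≤ n} : ℝ)
          - κ * n : ℝ) : ℂ) =
        ∑ c : H, ((χ c : ℂˣ) : ℂ) *
          (Nat.card {I : Ideal (𝓞 E) // cl I = (c : WithZero H) ∧ Ideal.absNorm I ≤ n} : ℂ)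
        - (∑ c : H, ((χ c : ℂˣ) : ℂ)) * ((κ * n : ℝ) : ℂ) := by
      rw [Finset.sum_mul, ← Finset.sum_sub_distrib]
      refine Finset.sum_congr rfl (fun c _ => ?_)
      push_cast; ring
    rw [this, h4, zero_mul, sub_zero]
  rw [h5]
  calc ‖∑ c : H, ((χ c : ℂˣ) : ℂ) *
        (((Nat.card {I : Ideal (𝓞 E) // cl I = (c : WithZero H) ∧ Ideal.absNorm I ≤ n} : ℝ)
          - κ * n : ℝ) : ℂ)‖
      ≤ ∑ c : H, ‖((χ c : ℂˣ) : ℂ) *
        (((Nat.card {I : Ideal (𝓞 E) // cl I = (c : WithZero H) ∧ Ideal.absNorm I ≤ n} : ℝ)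
          - κ * n : ℝ) : ℂ)‖ := norm_sum_le _ _
    _ ≤ ∑ _c : H, C * (n : ℝ) ^ (1 - δ) := by
        refine Finset.sum_le_sum (fun c _ => ?_)
        rw [norm_mul, norm_chi, one_mul, Complex.norm_real, Real.norm_eq_abs]
        exact hcount c n hn
    _ = (Nat.card H : ℝ) * C * (n : ℝ) ^ (1 - δ) := by
        rw [Finset.sum_const, Finset.card_univ, nsmul_eq_mul, Nat.card_eq_fintype_card]
        ring

end Partial


section Upper
variable (E : Type) [Field E] [NumberField E] {H : Type} [CommGroup H] [Finite H]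
  (cl : Ideal (𝓞 E) →*₀ WithZero H)

/-- `L(s, χ)` is bounded on `(1, 2]` for `χ ≠ 1`. -/
theorem exists_bound_Lfun (hCH : StCH H) (hFIB : StFIB E) (hAB : StAB) (χ : H →* ℂˣ)
    (hχ : χ ≠ 1)
    (hcount : ∃ κ C δ : ℝ, 0 < δ ∧ ∀ (c : H) (n : ℕ), 1 ≤ n →
      |(Nat.card {I : Ideal (𝓞 E) // cl I = (c : WithZero H) ∧ Ideal.absNorm I ≤ n} : ℝ)
        - κ * n| ≤ C * (n : ℝ) ^ (1 - δ)) :
    ∃ B : ℝ, ∀ (s : ℝ) (hs : 1 < s), s ≤ 2 → ‖Lfun E cl s (by linarith) χ‖ ≤ B := by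
  obtain ⟨κ, C, δ, hδ, hc⟩ := hcount
  have hφ : ∀ I : Ideal (𝓞 E), ‖(fun I => chiZ χ (cl I)) I‖ ≤ 1 := fun I =>
    norm_chiZ_le_one χ _
  obtain ⟨B, hB⟩ := hAB
    (fun k => ∑ᶠ I ∈ {I : Ideal (𝓞 E) | Ideal.absNorm I = k}, chiZ χ (cl I))
    ((Nat.card H : ℝ) * |C|) (min δ 1) (lt_min hδ one_pos) (min_le_right _ _)
    (by
      intro n hn
      refine (partial_sum_bound E cl hCH χ hχ κ C δ hc n hn).trans ?_
      have hn1 : (1 : ℝ) ≤ (n : ℝ) := by exact_mod_cast hn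
      have h1 : (n : ℝ) ^ (1 - δ) ≤ (n : ℝ) ^ (1 - min δ 1) :=
        Real.rpow_le_rpow_of_exponent_le hn1 (by linarith [min_le_left δ 1])
      have h2 : (0 : ℝ) ≤ (n : ℝ) ^ (1 - δ) := Real.rpow_nonneg (by linarith) _
      have h3 : (0 : ℝ) ≤ (Nat.card H : ℝ) := Nat.cast_nonneg _
      calc (Nat.card H : ℝ) * C * (n : ℝ) ^ (1 - δ)
          ≤ (Nat.card H : ℝ) * |C| * (n : ℝ) ^ (1 - δ) := by
            apply mul_le_mul_of_nonneg_right _ h2
            exact mul_le_mul_of_nonneg_left (le_abs_self C) h3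
        _ ≤ (Nat.card H : ℝ) * |C| * (n : ℝ) ^ (1 - min δ 1) := by
            apply mul_le_mul_of_nonneg_left h1
            exact mul_nonneg h3 (abs_nonneg C))
    (fun s hs => (hFIB (fun I => chiZ χ (cl I)) hφ s hs).2.1)
  refine ⟨B, fun s hs hs2 => ?_⟩
  have h1 := (hFIB (fun I => chiZ χ (cl I)) hφ s hs).2.2
  have h2 := hB s hs hs2
  rw [h1] at h2
  exact h2

end Upper

section Norms
variable (E M : Type) [Field E] [NumberField E] [Field M] [NumberField M] [Algebra E M]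
  {H : Type} [CommGroup H] [Finite H] (cl : Ideal (𝓞 E) →*₀ WithZero H)

omit [Finite H] in
/-- From a finite set of degree-one primes of `M` to the set of primes of `E` below. -/
theorem exists_T0 (hNRM : StNRM E M) (s : ℝ) (T : Finset (HeightOneSpectrum (𝓞 M)))
    (hT : ∀ 𝔓 ∈ T, 𝔓 ∈ degOne M) :
    ∃ T₀ : Finset (HeightOneSpectrum (𝓞 E)),
      (∀ P ∈ T₀, ∃ 𝔄 : Ideal (𝓞 M), Ideal.relNorm (𝓞 E) 𝔄 = P.asIdeal) ∧
      ∑ 𝔓 ∈ T, nrm M s 𝔓.asIdeal ≤
        (Module.finrank E M : ℝ) * ∑ P ∈ T₀, nrm E s P.asIdeal := by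
  classical
  have hex : ∀ 𝔓 : {𝔓 // 𝔓 ∈ T}, ∃ P : HeightOneSpectrum (𝓞 E), P ∈ degOne E ∧
      𝔓.1.asIdeal.under (𝓞 E) = P.asIdeal ∧
      Ideal.absNorm P.asIdeal = Ideal.absNorm 𝔓.1.asIdeal ∧
      Ideal.relNorm (𝓞 E) 𝔓.1.asIdeal = P.asIdeal := fun 𝔓 => hNRM.1 𝔓.1 (hT 𝔓.1 𝔓.2)
  choose π hπ using hex
  refine ⟨T.attach.image π, ?_, ?_⟩
  · intro P hP
    obtain ⟨𝔓, _, rfl⟩ := Finset.mem_image.mp hP
    exact ⟨𝔓.1.asIdeal, (hπ 𝔓).2.2.2⟩
  · have h1 : ∑ 𝔓 ∈ T, nrm M s 𝔓.asIdeal = ∑ 𝔓 ∈ T.attach, nrm E s (π 𝔓).asIdeal := by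
      rw [← Finset.sum_attach]
      refine Finset.sum_congr rfl (fun 𝔓 _ => ?_)
      unfold nrm
      rw [(hπ 𝔓).2.2.1]
    rw [h1, ← Finset.sum_fiberwise_of_maps_to (s := T.attach) (t := T.attach.image π)
      (g := π) (fun 𝔓 h => Finset.mem_image_of_mem π h), Finset.mul_sum]
    refine Finset.sum_le_sum (fun P _ => ?_)
    have h2 : ∑ 𝔓 ∈ T.attach.filter (fun 𝔓 => π 𝔓 = P), nrm E s (π 𝔓).asIdeal =
        ((T.attach.filter (fun 𝔓 => π 𝔓 = P)).card : ℝ) * nrm E s P.asIdeal := by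
      rw [Finset.sum_congr rfl (fun 𝔓 h𝔓 => by rw [(Finset.mem_filter.mp h𝔓).2]),
        Finset.sum_const, nsmul_eq_mul]
    rw [h2]
    apply mul_le_mul_of_nonneg_right _ (nrm_nonneg E s _)
    have h3 := hNRM.2 P ((T.attach.filter (fun 𝔓 => π 𝔓 = P)).map
      (Function.Embedding.subtype _)) (by
        intro 𝔓 h𝔓
        obtain ⟨𝔓', h𝔓', rfl⟩ := Finset.mem_map.mp h𝔓
        have := (Finset.mem_filter.mp h𝔓').2
        rw [← this]
        exact (hπ 𝔓').2.1)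
    rw [Finset.card_map] at h3
    exact_mod_cast h3

/-- Primes which are norms have class `0` or `1`; those of class `0` are finitely many. -/
theorem sum_T0_le (hfin : {P : HeightOneSpectrum (𝓞 E) | cl P.asIdeal = 0}.Finite)
    (hnorm : ∀ 𝔄 : Ideal (𝓞 M),
      cl (Ideal.relNorm (𝓞 E) 𝔄) = 0 ∨ cl (Ideal.relNorm (𝓞 E) 𝔄) = 1)
    (s : ℝ) (hs : 0 < s) (T₀ : Finset (HeightOneSpectrum (𝓞 E)))
    (hT₀ : ∀ P ∈ T₀, ∃ 𝔄 : Ideal (𝓞 M), Ideal.relNorm (𝓞 E) 𝔄 = P.asIdeal) :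
    ∑ P ∈ T₀, nrm E s P.asIdeal ≤
      ∑ P ∈ T₀, ind1 (cl P.asIdeal) (nrm E s P.asIdeal) + (hfin.toFinset.card : ℝ) := by
  classical
  have h1 : ∀ P ∈ T₀, nrm E s P.asIdeal ≤
      ind1 (cl P.asIdeal) (nrm E s P.asIdeal) + (if P ∈ hfin.toFinset then 1 else 0) := by
    intro P hP
    obtain ⟨𝔄, h𝔄⟩ := hT₀ P hP
    rcases hnorm 𝔄 with h | h
    · rw [h𝔄] at h
      have hmem : P ∈ hfin.toFinset := by rw [Set.Finite.mem_toFinset]; exact h
      rw [if_pos hmem, h, ind1_of_ne (by exact zero_ne_one), zero_add]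
      exact nrm_le_one E hs _
    · rw [h𝔄] at h
      rw [h, ind1_one]
      have : (0 : ℝ) ≤ (if P ∈ hfin.toFinset then 1 else 0) := by split_ifs <;> norm_num
      linarith
  calc ∑ P ∈ T₀, nrm E s P.asIdeal
      ≤ ∑ P ∈ T₀, (ind1 (cl P.asIdeal) (nrm E s P.asIdeal)
          + (if P ∈ hfin.toFinset then (1 : ℝ) else 0)) := Finset.sum_le_sum h1
    _ = ∑ P ∈ T₀, ind1 (cl P.asIdeal) (nrm E s P.asIdeal)
          + ∑ P ∈ T₀, (if P ∈ hfin.toFinset then (1 : ℝ) else 0) := Finset.sum_add_distrib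
    _ ≤ ∑ P ∈ T₀, ind1 (cl P.asIdeal) (nrm E s P.asIdeal) + (hfin.toFinset.card : ℝ) := by
        have : ∑ P ∈ T₀, (if P ∈ hfin.toFinset then (1 : ℝ) else 0) ≤
            (hfin.toFinset.card : ℝ) := by
          rw [← Finset.sum_filter, Finset.sum_const, nsmul_eq_mul, mul_one]
          have : (T₀.filter (fun P => P ∈ hfin.toFinset)).card ≤ hfin.toFinset.card :=
            Finset.card_le_card (fun P hP => (Finset.mem_filter.mp hP).2)
          exact_mod_cast this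
        linarith

end Norms


section Final

theorem tendsto_log_one_div_sub_one :
    Tendsto (fun s : ℝ => Real.log (1 / (s - 1))) (𝓝[>] (1 : ℝ)) atTop := by
  have h1 : Tendsto (fun s : ℝ => s - 1) (𝓝[>] (1 : ℝ)) (𝓝[>] (0 : ℝ)) := by
    apply tendsto_nhdsWithin_of_tendsto_nhds_of_eventually_within
    · have : Tendsto (fun s : ℝ => s - 1) (𝓝 (1 : ℝ)) (𝓝 (1 - 1)) :=
        (continuous_id.sub continuous_const).tendsto 1
      rw [sub_self] at this
      exact this.mono_left nhdsWithin_le_nhds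
    · filter_upwards [self_mem_nhdsWithin] with s hs
      exact sub_pos.mpr (Set.mem_Ioi.mp hs)
  have h2 := tendsto_inv_nhdsGT_zero.comp h1
  have h3 := Real.tendsto_log_atTop.comp h2
  refine h3.congr (fun s => ?_)
  simp only [Function.comp_apply, one_div]

variable (E M : Type) [Field E] [NumberField E] [Field M] [NumberField M] [Algebra E M]
  (H : Type) [CommGroup H] [Finite H] (cl : Ideal (𝓞 E) →*₀ WithZero H)

/-- **(U), abstract form, for fixed `E`, `M`, `H`, `cl`**, from the leaves of package LFN. -/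
theorem card_le_finrank (hZS : StZS E) (hZB : StZB E) (hFIB : StFIB E) (hEP : StEP (𝓞 E))
    (hPC : StPC E) (hPZ : StPZlower M) (hNRM : StNRM E M) (hAB : StAB) (hCH : StCH H)
    (hfin : {P : HeightOneSpectrum (𝓞 E) | cl P.asIdeal = 0}.Finite)
    (hnorm : ∀ 𝔄 : Ideal (𝓞 M),
      cl (Ideal.relNorm (𝓞 E) 𝔄) = 0 ∨ cl (Ideal.relNorm (𝓞 E) 𝔄) = 1)
    (hcount : ∃ κ C δ : ℝ, 0 < δ ∧ ∀ (c : H) (n : ℕ), 1 ≤ n →
      |(Nat.card {I : Ideal (𝓞 E) // cl I = (c : WithZero H) ∧ Ideal.absNorm I ≤ n} : ℝ)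
        - κ * n| ≤ C * (n : ℝ) ^ (1 - δ)) :
    Nat.card H ≤ Module.finrank E M := by
  classical
  have hcardpos : 0 < Nat.card H := Nat.card_pos
  haveI : Finite (H →* ℂˣ) := Nat.finite_of_card_ne_zero (by rw [hCH.1]; exact hcardpos.ne')
  haveI : Fintype (H →* ℂˣ) := Fintype.ofFinite _
  -- bounds for the nontrivial characters
  have hB : ∀ χ : H →* ℂˣ, ∃ B : ℝ, χ ≠ 1 →
      ∀ (s : ℝ) (hs : 1 < s), s ≤ 2 → ‖Lfun E cl s (by linarith) χ‖ ≤ B := by
    intro χ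
    by_cases hχ : χ = 1
    · exact ⟨0, fun h => absurd hχ h⟩
    · obtain ⟨B, hB⟩ := exists_bound_Lfun E cl hCH hFIB hAB χ hχ hcount
      exact ⟨B, fun _ => hB⟩
  choose B hB using hB
  set Btot : ℝ := ∏ χ ∈ (Finset.univ : Finset (H →* ℂˣ)).erase 1, max (B χ) 1 with hBtot
  have hBtot_pos : 0 < Btot :=
    Finset.prod_pos (fun χ _ => lt_of_lt_of_le one_pos (le_max_right _ _))
  obtain ⟨c, C₁, hc, hZB'⟩ := hZB
  obtain ⟨CPC, hPC'⟩ := hPC
  obtain ⟨C₂, hPZ'⟩ := hPZ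
  set C₁' : ℝ := max C₁ 1 with hC₁'
  have hC₁'pos : 0 < C₁' := lt_of_lt_of_le one_pos (le_max_right _ _)
  set h : ℝ := (Nat.card H : ℝ) with hh
  set n : ℝ := (Module.finrank E M : ℝ) with hn
  set c₀ : ℝ := (hfin.toFinset.card : ℝ) with hc₀
  have hh0 : 0 ≤ h := Nat.cast_nonneg _
  have hn0 : 0 ≤ n := Nat.cast_nonneg _
  set D : ℝ := h * C₂ + n * (Real.log (C₁' * Btot) + h / 2 * CPC) + h * n * c₀ with hD
  -- the key inequality, for `s` close to `1`
  have key : ∀ᶠ s in 𝓝[>] (1 : ℝ), (h - n) * Real.log (1 / (s - 1)) ≤ D := by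
    have hs2 : ∀ᶠ s in 𝓝[>] (1 : ℝ), s ≤ 2 := by
      have : Set.Ioc (1 : ℝ) 2 ∈ 𝓝[>] (1 : ℝ) := Ioc_mem_nhdsGT (by norm_num)
      filter_upwards [this] with s hs using hs.2
    filter_upwards [hs2, self_mem_nhdsWithin, hZB', hPZ'] with s hs2 hs1 hzb hpz
    have hs1' : (1 : ℝ) < s := hs1
    have hs0 : (0 : ℝ) < s := by linarith
    obtain ⟨T, hT, hTsum⟩ := hpz
    obtain ⟨T₀, hT₀, hT₀sum⟩ := exists_T0 E M hNRM s T hT
    have h1 := sum_T0_le E M cl hfin hnorm s hs0 T₀ hT₀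
    set A : ℝ := ∑ P ∈ T₀, ind1 (cl P.asIdeal) (nrm E s P.asIdeal) with hA
    -- (II)
    have hII : Real.log (1 / (s - 1)) - C₂ ≤ n * (A + c₀) :=
      hTsum.trans (hT₀sum.trans (mul_le_mul_of_nonneg_left h1 hn0))
    -- lower bound
    have hlow := prod_Lfun_lower E cl hCH hEP hZS s hs1' CPC (fun T => (hPC' s hs1'.le T).2) T₀
    -- upper bound
    have hup : ∏ χ : H →* ℂˣ, ‖Lfun E cl s hs0 χ‖ ≤ C₁' * Btot / (s - 1) := by
      rw [← Finset.mul_prod_erase Finset.univ _ (Finset.mem_univ (1 : H →* ℂˣ))]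
      have hz : ‖Lfun E cl s hs0 1‖ ≤ C₁' / (s - 1) := by
        refine (norm_Lfun_le_zetaR E cl hZS s hs1' 1).trans ?_
        rw [le_div_iff₀ (sub_pos.mpr hs1'), mul_comm]
        exact hzb.2.trans (le_max_left _ _)
      have hrest : ∏ χ ∈ (Finset.univ : Finset (H →* ℂˣ)).erase 1, ‖Lfun E cl s hs0 χ‖ ≤
          Btot := by
        apply Finset.prod_le_prod (fun χ _ => norm_nonneg _)
        intro χ hχ
        exact (hB χ (Finset.ne_of_mem_erase hχ) s hs1' hs2).trans (le_max_left _ _)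
      calc ‖Lfun E cl s hs0 1‖ *
            ∏ χ ∈ (Finset.univ : Finset (H →* ℂˣ)).erase 1, ‖Lfun E cl s hs0 χ‖
          ≤ C₁' / (s - 1) * Btot :=
            mul_le_mul hz hrest (Finset.prod_nonneg (fun χ _ => norm_nonneg _))
              (div_nonneg hC₁'pos.le (sub_pos.mpr hs1').le)
        _ = C₁' * Btot / (s - 1) := by ring
    -- (I)
    have hI : h * A - h / 2 * CPC ≤ Real.log (C₁' * Btot) + Real.log (1 / (s - 1)) := by
      have h2 := hlow.trans hup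
      have hpos : 0 < C₁' * Btot / (s - 1) :=
        div_pos (mul_pos hC₁'pos hBtot_pos) (sub_pos.mpr hs1')
      have h3 := (Real.le_log_iff_exp_le hpos).mpr h2
      have h3' : Real.log (C₁' * Btot / (s - 1)) =
          Real.log (C₁' * Btot) + Real.log (1 / (s - 1)) := by
        rw [div_eq_mul_one_div, Real.log_mul (mul_pos hC₁'pos hBtot_pos).ne'
          (one_div_pos.mpr (sub_pos.mpr hs1')).ne']
      rw [h3'] at h3
      exact h3
    -- combine
    have h4 : h * (Real.log (1 / (s - 1)) - C₂) ≤ h * (n * (A + c₀)) :=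
      mul_le_mul_of_nonneg_left hII hh0
    have h5 : n * (h * A - h / 2 * CPC) ≤
        n * (Real.log (C₁' * Btot) + Real.log (1 / (s - 1))) :=
      mul_le_mul_of_nonneg_left hI hn0
    rw [hD]
    nlinarith [h4, h5]
  -- conclusion
  by_contra hlt
  rw [not_le] at hlt
  have hlt' : n + 1 ≤ h := by
    rw [hh, hn]
    exact_mod_cast hlt
  have hev : ∀ᶠ s in 𝓝[>] (1 : ℝ), |D| + 1 ≤ Real.log (1 / (s - 1)) :=
    tendsto_log_one_div_sub_one.eventually_ge_atTop (|D| + 1)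
  obtain ⟨s, hs1, hs2⟩ := (key.and hev).exists
  have h6 : 0 ≤ Real.log (1 / (s - 1)) := by linarith [abs_nonneg D]
  have h7 : Real.log (1 / (s - 1)) ≤ (h - n) * Real.log (1 / (s - 1)) := by
    have : (1 : ℝ) ≤ h - n := by linarith
    nlinarith
  linarith [le_abs_self D]

/-- **[U] = `StUabs`** from the leaves of package LFN. -/
theorem stUabs_of
    (hZS : ∀ (F : Type) [Field F] [NumberField F], StZS F)
    (hZB : ∀ (F : Type) [Field F] [NumberField F], StZB F)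
    (hFIB : ∀ (F : Type) [Field F] [NumberField F], StFIB F)
    (hEP : ∀ (F : Type) [Field F] [NumberField F], StEP (𝓞 F))
    (hPC : ∀ (F : Type) [Field F] [NumberField F], StPC F)
    (hPZ : ∀ (F : Type) [Field F] [NumberField F], StPZlower F)
    (hNRM : ∀ (K L : Type) [Field K] [NumberField K] [Field L] [NumberField L] [Algebra K L],
      StNRM K L)
    (hAB : StAB)
    (hCH : ∀ (H : Type) [CommGroup H] [Finite H], StCH H) : StUabs := by
  intro E M _ _ _ _ _ H _ _ cl hfin hnorm hcount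
  exact card_le_finrank E M H cl (hZS E) (hZB E) (hFIB E) (hEP E) (hPC E) (hPZ M) (hNRM E M)
    hAB (hCH H) hfin hnorm hcount

end Final

end Fermat.Agent.S14x.LFN.H11
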