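import Fermat.Agent.S14x.LFN.Defs

/-!
# S14 / LFN (helper22): leaf `[AB]` — Abel summation

An `L`-series whose coefficient sums are `O(n^(1-δ))`, `δ > 0`, is bounded on `(1, 2]`.
-/

set_option autoImplicit false

noncomputable section

open Filter Topology MeasureTheory

namespace Fermat.Agent.S14x.LFN.H22

open Fermat.Agent.S14x.LFN

/-- **[AB]** -/
theorem stAB : StAB := by
  intro f C δ hδ hδ1 hB hsum
  have hC : 0 ≤ C := by
    have h1 := hB 1 le_rfl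
    have h2 : (0 : ℝ) ≤ C * ((1 : ℕ) : ℝ) ^ (1 - δ) := (norm_nonneg _).trans h1
    simpa using h2
  refine ⟨2 * (C / δ), fun s hs hs2 => ?_⟩
  set r : ℝ := 1 - δ with hr
  have hr0 : 0 ≤ r := by rw [hr]; linarith
  have hrs : r < (s : ℂ).re := by rw [Complex.ofReal_re, hr]; linarith
  have hO : (fun n : ℕ => ∑ k ∈ Finset.Icc 1 n, f k) =O[atTop] fun n : ℕ => (n : ℝ) ^ r := by
    refine Asymptotics.IsBigO.of_bound C ?_
    filter_upwards [eventually_ge_atTop 1] with n hn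
    rw [Real.norm_of_nonneg (Real.rpow_nonneg (Nat.cast_nonneg _) _)]
    exact hB n hn
  rw [LSeries_eq_mul_integral f hr0 hrs (hsum s hs) hO, norm_mul]
  have hsn : ‖(s : ℂ)‖ ≤ 2 := by
    rw [Complex.norm_real, Real.norm_of_nonneg (by linarith)]
    exact hs2
  have hexp : -(δ + s) < -1 := by linarith
  have hint : IntegrableOn (fun t : ℝ => C * t ^ (-(δ + s))) (Set.Ioi 1) volume :=
    (integrableOn_Ioi_rpow_of_lt hexp zero_lt_one).const_mul C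
  have hbound : ∀ t ∈ Set.Ioi (1 : ℝ),
      ‖(∑ k ∈ Finset.Icc 1 ⌊t⌋₊, f k) * (t : ℂ) ^ (-((s : ℂ) + 1))‖ ≤ C * t ^ (-(δ + s)) := by
    intro t ht
    have ht1 : (1 : ℝ) < t := ht
    have ht0 : (0 : ℝ) < t := by linarith
    have hfl : 1 ≤ ⌊t⌋₊ := Nat.floor_pos.mpr ht1.le
    have h1 := hB ⌊t⌋₊ hfl
    have h2 : ((⌊t⌋₊ : ℕ) : ℝ) ^ (1 - δ) ≤ t ^ (1 - δ) :=
      Real.rpow_le_rpow (Nat.cast_nonneg _) (Nat.floor_le ht0.le) hr0
    have h3 : ‖(t : ℂ) ^ (-((s : ℂ) + 1))‖ = t ^ (-(s + 1)) := by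
      rw [Complex.norm_cpow_eq_rpow_re_of_pos ht0]
      simp
    rw [norm_mul, h3]
    have h4 : t ^ (-(δ + s)) = t ^ (1 - δ) * t ^ (-(s + 1)) := by
      rw [← Real.rpow_add ht0]
      congr 1
      ring
    rw [h4, ← mul_assoc]
    refine mul_le_mul_of_nonneg_right (h1.trans ?_) (Real.rpow_nonneg ht0.le _)
    exact mul_le_mul_of_nonneg_left h2 hC
  have hnorm : ‖∫ t in Set.Ioi (1 : ℝ),
      (∑ k ∈ Finset.Icc 1 ⌊t⌋₊, f k) * (t : ℂ) ^ (-((s : ℂ) + 1))‖ ≤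
      ∫ t in Set.Ioi (1 : ℝ), C * t ^ (-(δ + s)) :=
    norm_integral_le_of_norm_le hint (ae_restrict_of_forall_mem measurableSet_Ioi hbound)
  have hval : ∫ t in Set.Ioi (1 : ℝ), C * t ^ (-(δ + s)) = C / (δ + s - 1) := by
    rw [integral_const_mul, integral_Ioi_rpow_of_lt hexp zero_lt_one, Real.one_rpow]
    have hne : -(δ + s) + 1 ≠ 0 := by linarith
    have hne' : δ + s - 1 ≠ 0 := by linarith
    field_simp
    ring
  have hle : C / (δ + s - 1) ≤ C / δ := by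
    apply div_le_div_of_nonneg_left hC hδ
    linarith
  calc ‖(s : ℂ)‖ * ‖∫ t in Set.Ioi (1 : ℝ),
        (∑ k ∈ Finset.Icc 1 ⌊t⌋₊, f k) * (t : ℂ) ^ (-((s : ℂ) + 1))‖
      ≤ 2 * (C / (δ + s - 1)) := by
        refine mul_le_mul hsn (hnorm.trans hval.le) (norm_nonneg _) (by norm_num)
    _ ≤ 2 * (C / δ) := by linarith

end Fermat.Agent.S14x.LFN.H22
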