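import Fermat.Agent.S14x.LFN.Defs

/-!
# S14 / LFN, leaves [PZ-upper] and [PZ-lower] (helper27)

The sum of `N(P)^(-s)` over (degree-one) primes is `log (1/(s-1)) + O(1)` as `s → 1+`, in the
`Finset` form of `LFN/Defs.lean`, from the Euler product `StEP`, the bounds `StZB`, the sum
formula `StZS` and the prime counting `StPC`.
-/

set_option autoImplicit false

noncomputable section

open NumberField IsDedekindDomain Filter Topology

namespace Fermat.Agent.S14x.LFN.H27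

open Fermat.Agent.S14x.LFN

section Basic

variable (F : Type*) [Field F] [NumberField F]

theorem nrm_nonneg (s : ℝ) (I : Ideal (𝓞 F)) : 0 ≤ nrm F s I :=
  Real.rpow_nonneg (Nat.cast_nonneg _) _

/-- The weight `N(I)^(-s)`, `s ≠ 0`, as a `MonoidWithZeroHom`. -/
def nrmHom (s : ℝ) (hs : s ≠ 0) : Ideal (𝓞 F) →*₀ ℝ where
  toFun := nrm F s
  map_zero' := by
    show ((Ideal.absNorm (0 : Ideal (𝓞 F)) : ℕ) : ℝ) ^ (-s) = 0
    rw [map_zero, Nat.cast_zero, Real.zero_rpow (neg_ne_zero.mpr hs)]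
  map_one' := by
    show ((Ideal.absNorm (1 : Ideal (𝓞 F)) : ℕ) : ℝ) ^ (-s) = 1
    rw [map_one, Nat.cast_one, Real.one_rpow]
  map_mul' I J := by
    show ((Ideal.absNorm (I * J) : ℕ) : ℝ) ^ (-s) =
      ((Ideal.absNorm I : ℕ) : ℝ) ^ (-s) * ((Ideal.absNorm J : ℕ) : ℝ) ^ (-s)
    rw [map_mul, Nat.cast_mul, Real.mul_rpow (Nat.cast_nonneg _) (Nat.cast_nonneg _)]

@[simp] theorem nrmHom_apply (s : ℝ) (hs : s ≠ 0) (I : Ideal (𝓞 F)) :
    nrmHom F s hs I = nrm F s I := rfl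

/-- The norm of a prime is at least `2`. -/
theorem two_le_absNorm (P : HeightOneSpectrum (𝓞 F)) : 2 ≤ Ideal.absNorm P.asIdeal := by
  have h0 : Ideal.absNorm P.asIdeal ≠ 0 := fun h => P.ne_bot (Ideal.absNorm_eq_zero_iff.mp h)
  have h1 : Ideal.absNorm P.asIdeal ≠ 1 :=
    fun h => P.isPrime.ne_top (Ideal.absNorm_eq_one_iff.mp h)
  omega

theorem nrm_prime_pos (s : ℝ) (P : HeightOneSpectrum (𝓞 F)) : 0 < nrm F s P.asIdeal := by
  have h2 := two_le_absNorm F P
  exact Real.rpow_pos_of_pos (by exact_mod_cast (by omega : 0 < Ideal.absNorm P.asIdeal)) _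

/-- `N(P)^(-s) ≤ 1/2` for `s ≥ 1`. -/
theorem nrm_prime_le_half (s : ℝ) (hs : 1 ≤ s) (P : HeightOneSpectrum (𝓞 F)) :
    nrm F s P.asIdeal ≤ 1 / 2 := by
  have h2 : (2 : ℝ) ≤ (Ideal.absNorm P.asIdeal : ℝ) := by exact_mod_cast two_le_absNorm F P
  have hpos : (0 : ℝ) < (Ideal.absNorm P.asIdeal : ℝ) := by linarith
  calc nrm F s P.asIdeal = ((Ideal.absNorm P.asIdeal : ℝ) ^ s)⁻¹ := Real.rpow_neg hpos.le s
    _ ≤ ((Ideal.absNorm P.asIdeal : ℝ) ^ (1 : ℝ))⁻¹ := by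
        apply inv_anti₀ (Real.rpow_pos_of_pos hpos _)
        exact Real.rpow_le_rpow_of_exponent_le (by linarith) hs
    _ = ((Ideal.absNorm P.asIdeal : ℝ))⁻¹ := by rw [Real.rpow_one]
    _ ≤ (2 : ℝ)⁻¹ := inv_anti₀ (by norm_num) h2
    _ = 1 / 2 := by norm_num

end Basic

section Elementary

/-- `exp x ≤ (1 - x)⁻¹` for `x < 1`. -/
theorem exp_le_inv_one_sub {x : ℝ} (hx : x < 1) : Real.exp x ≤ (1 - x)⁻¹ := by
  have h1 : 0 < 1 - x := by linarith
  have h2 : 1 - x ≤ Real.exp (-x) := by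
    have := Real.add_one_le_exp (-x)
    linarith
  rw [← inv_inv (Real.exp x), ← Real.exp_neg]
  exact inv_anti₀ h1 h2

/-- `(1 - x)⁻¹ ≤ exp (x + x²)` for `0 ≤ x ≤ 1/2`. -/
theorem inv_one_sub_le_exp {x : ℝ} (h0 : 0 ≤ x) (h1 : x ≤ 1 / 2) :
    (1 - x)⁻¹ ≤ Real.exp (x + x ^ 2) := by
  have hpos : 0 < 1 - x := by linarith
  -- `1 ≤ (1 - x) * exp (x + x^2)` since `exp y ≥ 1 + y` and `(1 - x)(1 + x + x^2) = 1 - x^3`...
  -- use `exp (x + x^2) ≥ 1 + (x + x^2) + (x + x^2)^2 / 2`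
  have hy : 0 ≤ x + x ^ 2 := by positivity
  have hexp : 1 + (x + x ^ 2) + (x + x ^ 2) ^ 2 / 2 ≤ Real.exp (x + x ^ 2) := by
    have := Real.quadratic_le_exp_of_nonneg hy
    linarith
  rw [inv_le_iff_one_le_mul₀' hpos]
  have key : 1 ≤ (1 - x) * (1 + (x + x ^ 2) + (x + x ^ 2) ^ 2 / 2) := by
    have hx3 : x ^ 3 ≤ x ^ 2 / 2 := by
      have : x ^ 3 = x ^ 2 * x := by ring
      rw [this]
      have hx2 : 0 ≤ x ^ 2 := by positivity
      nlinarith
    nlinarith [sq_nonneg x, pow_nonneg h0 3, pow_nonneg h0 4, pow_nonneg h0 5]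
  calc 1 ≤ (1 - x) * (1 + (x + x ^ 2) + (x + x ^ 2) ^ 2 / 2) := key
    _ ≤ (1 - x) * Real.exp (x + x ^ 2) := by
        exact mul_le_mul_of_nonneg_left hexp hpos.le

end Elementary

section Euler

variable (F : Type*) [Field F] [NumberField F]

/-- The Euler factor at a prime is `≥ 1` (for `s ≥ 1`). -/
theorem one_le_factor {s : ℝ} (hs : 1 ≤ s) (P : HeightOneSpectrum (𝓞 F)) :
    1 ≤ (1 - nrm F s P.asIdeal)⁻¹ := by
  have h1 := nrm_prime_le_half F s hs P
  have h0 := nrm_prime_pos F s P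
  exact (one_le_inv₀ (by linarith)).mpr (by linarith)

theorem factor_pos {s : ℝ} (hs : 1 ≤ s) (P : HeightOneSpectrum (𝓞 F)) :
    0 < (1 - nrm F s P.asIdeal)⁻¹ :=
  lt_of_lt_of_le one_pos (one_le_factor F hs P)

/-- **Euler product of the real Dedekind zeta function**, from `StEP` and `StZS`. -/
theorem hasProd_zetaR (hZS : StZS F) (hEP : StEP (𝓞 F)) {s : ℝ} (hs : 1 < s) :
    HasProd (fun P : HeightOneSpectrum (𝓞 F) => (1 - nrm F s P.asIdeal)⁻¹) (zetaR F s) := by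
  have hsum : Summable (fun I : Ideal (𝓞 F) => ‖nrmHom F s (by linarith) I‖) := by
    refine (summable_congr fun I => ?_).mpr (hZS s hs).1
    rw [nrmHom_apply, Real.norm_of_nonneg (nrm_nonneg F s I)]
  exact hEP ℝ (nrmHom F s (by linarith)) hsum

/-- Finite partial Euler products are bounded by the zeta function. -/
theorem prod_le_zetaR (hZS : StZS F) (hEP : StEP (𝓞 F)) {s : ℝ} (hs : 1 < s)
    (T : Finset (HeightOneSpectrum (𝓞 F))) :
    ∏ P ∈ T, (1 - nrm F s P.asIdeal)⁻¹ ≤ zetaR F s := by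
  have h := hasProd_zetaR F hZS hEP hs
  rw [HasProd, SummationFilter.unconditional_filter] at h
  refine ge_of_tendsto h ?_
  filter_upwards [eventually_ge_atTop T] with T' hT'
  exact Finset.prod_le_prod_of_subset_of_one_le hT' (fun P _ => (factor_pos F hs.le P).le)
    (fun P _ _ => one_le_factor F hs.le P)

/-- `exp (∑_{P ∈ T} N(P)^(-s)) ≤ ζ_F(s)`. -/
theorem exp_sum_le_zetaR (hZS : StZS F) (hEP : StEP (𝓞 F)) {s : ℝ} (hs : 1 < s)
    (T : Finset (HeightOneSpectrum (𝓞 F))) :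
    Real.exp (∑ P ∈ T, nrm F s P.asIdeal) ≤ zetaR F s := by
  refine le_trans ?_ (prod_le_zetaR F hZS hEP hs T)
  rw [Real.exp_sum]
  refine Finset.prod_le_prod (fun P _ => (Real.exp_pos _).le) fun P _ => ?_
  exact exp_le_inv_one_sub (by linarith [nrm_prime_le_half F s hs.le P])

/-- **[PZ-upper]** from the Euler product, the sum formula and the upper bound at `s → 1+`. -/
theorem stPZupper_of (hZS : StZS F) (hZB : StZB F) (hEP : StEP (𝓞 F)) : StPZupper F := by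
  obtain ⟨c, C₀, hc, hev⟩ := hZB
  refine ⟨Real.log C₀, ?_⟩
  filter_upwards [hev, self_mem_nhdsWithin] with s hs hs1 T
  have hs1' : (1 : ℝ) < s := hs1
  have hpos : 0 < s - 1 := by linarith
  have hz : zetaR F s ≤ C₀ / (s - 1) := by
    rw [le_div_iff₀ hpos]
    linarith [hs.2]
  have hC₀ : 0 < C₀ := by
    have := hs.1.trans hs.2
    linarith
  have h1 := (exp_sum_le_zetaR F hZS hEP hs1' T).trans hz
  have h2 : ∑ P ∈ T, nrm F s P.asIdeal ≤ Real.log (C₀ / (s - 1)) :=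
    (Real.le_log_iff_exp_le (div_pos hC₀ hpos)).mpr h1
  have h3 : Real.log (C₀ / (s - 1)) = Real.log (1 / (s - 1)) + Real.log C₀ := by
    rw [Real.log_div hC₀.ne' hpos.ne', Real.log_div one_ne_zero hpos.ne', Real.log_one]
    ring
  linarith

/-- **[PZ-lower]** from the Euler product, the sum formula, the lower bound at `s → 1+` and the
prime counting. -/
theorem stPZlower_of (hZS : StZS F) (hZB : StZB F) (hEP : StEP (𝓞 F)) (hPC : StPC F) :
    StPZlower F := by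
  classical
  obtain ⟨c, C₀, hc, hev⟩ := hZB
  obtain ⟨C₁, hC₁⟩ := hPC
  refine ⟨2 * C₁ - Real.log (c / 2), ?_⟩
  filter_upwards [hev, self_mem_nhdsWithin] with s hs hs1
  have hs1' : (1 : ℝ) < s := hs1
  have hpos : 0 < s - 1 := by linarith
  have hz : c / (s - 1) ≤ zetaR F s := by
    rw [div_le_iff₀ hpos]
    linarith [hs.1]
  have hlt : c / 2 / (s - 1) < zetaR F s := by
    refine lt_of_lt_of_le ?_ hz
    exact div_lt_div_of_pos_right (by linarith) hpos
  have h := hasProd_zetaR F hZS hEP hs1'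
  rw [HasProd, SummationFilter.unconditional_filter] at h
  obtain ⟨T₁, hT₁⟩ := (h.eventually (lt_mem_nhds hlt)).exists
  refine ⟨T₁.filter (fun P => P ∈ degOne F), fun P hP => (Finset.mem_filter.mp hP).2, ?_⟩
  -- the partial product is at most `exp (∑ (x + x^2))`
  have hprod : ∏ P ∈ T₁, (1 - nrm F s P.asIdeal)⁻¹ ≤
      Real.exp (∑ P ∈ T₁, (nrm F s P.asIdeal + nrm F s P.asIdeal ^ 2)) := by
    rw [Real.exp_sum]
    refine Finset.prod_le_prod (fun P _ => (factor_pos F hs1'.le P).le) fun P _ => ?_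
    exact inv_one_sub_le_exp (nrm_prime_pos F s P).le (nrm_prime_le_half F s hs1'.le P)
  have hsplit : ∑ P ∈ T₁, (nrm F s P.asIdeal + nrm F s P.asIdeal ^ 2) ≤
      ∑ P ∈ T₁.filter (fun P => P ∈ degOne F), nrm F s P.asIdeal + 2 * C₁ := by
    rw [Finset.sum_add_distrib,
      ← Finset.sum_filter_add_sum_filter_not T₁ (fun P => P ∈ degOne F)
        (fun P => nrm F s P.asIdeal)]
    have hn := (hC₁ s hs1'.le (T₁.filter (fun P => ¬ P ∈ degOne F))).1
      (fun P hP => (Finset.mem_filter.mp hP).2)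
    have hsq := (hC₁ s hs1'.le T₁).2
    linarith
  have hc2 : 0 < c / 2 / (s - 1) := div_pos (by linarith) hpos
  have h1 : c / 2 / (s - 1) ≤
      Real.exp (∑ P ∈ T₁.filter (fun P => P ∈ degOne F), nrm F s P.asIdeal + 2 * C₁) :=
    hT₁.le.trans (hprod.trans (Real.exp_le_exp.mpr hsplit))
  have h2 : Real.log (c / 2 / (s - 1)) ≤
      ∑ P ∈ T₁.filter (fun P => P ∈ degOne F), nrm F s P.asIdeal + 2 * C₁ :=
    (Real.log_le_iff_le_exp hc2).mpr h1
  have h3 : Real.log (c / 2 / (s - 1)) = Real.log (1 / (s - 1)) + Real.log (c / 2) := by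
    rw [Real.log_div (by linarith : c / 2 ≠ 0) hpos.ne', Real.log_div one_ne_zero hpos.ne',
      Real.log_one]
    ring
  linarith

end Euler

end Fermat.Agent.S14x.LFN.H27
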