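import Fermat.Agent.S14x.LFN.H4_Euler
import Fermat.Agent.S14x.LFN.Defs

/-!
# S14, package LFN, leaf [EP] (helper4): Euler product over the primes of a Dedekind domain

The monoid of nonzero ideals of a Dedekind domain `R` is free on `HeightOneSpectrum R`:
`h4_idealOf : (HeightOneSpectrum R →₀ ℕ) → Ideal R`, `k ↦ ∏ P ^ k P`, is injective with range
the nonzero ideals.  Together with the abstract Euler product (`H4_Euler`) this gives
`stEP : StEP R`.
-/

set_option autoImplicit false
set_option linter.style.haveILetI false
set_option linter.unusedSectionVars false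

open IsDedekindDomain IsDedekindDomain.HeightOneSpectrum nonZeroDivisors

namespace Fermat.Agent.S14x.LFN.H4

section Ideals

variable {R : Type*} [CommRing R] [IsDedekindDomain R]

/-- The ideal `∏ P ^ k P`. -/
noncomputable def h4_idealOf (k : HeightOneSpectrum R →₀ ℕ) : Ideal R :=
  k.prod (fun P e => P.asIdeal ^ e)

theorem h4_idealOf_zero : h4_idealOf (0 : HeightOneSpectrum R →₀ ℕ) = 1 := Finsupp.prod_zero_index

theorem h4_idealOf_add (k l : HeightOneSpectrum R →₀ ℕ) :
    h4_idealOf (k + l) = h4_idealOf k * h4_idealOf l :=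
  Finsupp.prod_add_index' (fun _ => pow_zero _) (fun _ _ _ => pow_add _ _ _)

theorem h4_idealOf_single (P : HeightOneSpectrum R) (n : ℕ) :
    h4_idealOf (Finsupp.single P n) = P.asIdeal ^ n :=
  Finsupp.prod_single_index (pow_zero _)

theorem h4_idealOf_ne_bot (k : HeightOneSpectrum R →₀ ℕ) : h4_idealOf k ≠ ⊥ := by
  unfold h4_idealOf Finsupp.prod
  rw [← Ideal.zero_eq_bot, Finset.prod_ne_zero_iff]
  intro P _
  exact pow_ne_zero _ P.ne_bot

/-- The exponent of `P` in `h4_idealOf k` is `k P`. -/
theorem h4_count_idealOf (k : HeightOneSpectrum R →₀ ℕ) (v : HeightOneSpectrum R) :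
    FractionalIdeal.count (FractionRing R) v
      ((h4_idealOf k : Ideal R) : FractionalIdeal R⁰ (FractionRing R)) = (k v : ℤ) := by
  have h1 : ((h4_idealOf k : Ideal R) : FractionalIdeal R⁰ (FractionRing R)) =
      (k.mapRange (Nat.cast : ℕ → ℤ) Nat.cast_zero).prod
        (fun P e => (P.asIdeal : FractionalIdeal R⁰ (FractionRing R)) ^ e) := by
    rw [Finsupp.prod_mapRange_index (fun _ => zpow_zero _)]
    unfold h4_idealOf Finsupp.prod
    rw [← FractionalIdeal.coeIdealHom_apply, map_prod]
    refine Finset.prod_congr rfl fun P _ => ?_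
    rw [map_pow]
    show _ = (P.asIdeal : FractionalIdeal R⁰ (FractionRing R)) ^ ((k P : ℕ) : ℤ)
    rw [zpow_natCast]
    rfl
  rw [h1, FractionalIdeal.count_finsuppProd]
  rfl

theorem h4_idealOf_injective : Function.Injective (h4_idealOf (R := R)) := by
  intro k l h
  ext v
  have h1 := h4_count_idealOf k v
  rw [h, h4_count_idealOf l v] at h1
  exact_mod_cast h1.symm

theorem h4_exists_idealOf_eq {I : Ideal R} (hI : I ≠ ⊥) : ∃ k, h4_idealOf k = I := by
  classical
  have hI0 : I ≠ 0 := hI
  set n : HeightOneSpectrum R → ℕ :=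
    fun v => (Associates.mk v.asIdeal).count (Associates.mk I).factors with hn
  have hfin : (Function.support n).Finite := by
    have := Filter.eventually_cofinite.mp (Associates.finite_factors hI0)
    refine this.subset fun v hv => ?_
    intro h0
    exact hv (by exact_mod_cast h0)
  refine ⟨Finsupp.ofSupportFinite n hfin, ?_⟩
  have h2 : ∀ v : HeightOneSpectrum R, v.maxPowDividing I = v.asIdeal ^ n v := fun v => rfl
  rw [← Ideal.finprod_heightOneSpectrum_factorization hI0]
  unfold h4_idealOf Finsupp.prod
  rw [finprod_eq_prod_of_mulSupport_subset (s := (Finsupp.ofSupportFinite n hfin).support)]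
  · refine Finset.prod_congr rfl fun v _ => ?_
    rw [h2]
    rfl
  · intro v hv
    rw [Function.mem_mulSupport, h2] at hv
    rw [Finset.mem_coe, Finsupp.mem_support_iff]
    intro h0
    apply hv
    have : n v = 0 := h0
    rw [this, pow_zero]

theorem h4_range_idealOf : Set.range (h4_idealOf (R := R)) = {I | I ≠ ⊥} := by
  ext I
  constructor
  · rintro ⟨k, rfl⟩
    exact h4_idealOf_ne_bot k
  · intro hI
    exact h4_exists_idealOf_eq hI

variable {M : Type*} [CommMonoidWithZero M]

/-- A completely multiplicative function on ideals is a monomial in its values at the primes. -/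
theorem h4_map_idealOf_prod (w : Ideal R →*₀ M) (k : HeightOneSpectrum R →₀ ℕ) :
    w (h4_idealOf k) = k.prod (fun P e => w P.asIdeal ^ e) := by
  unfold h4_idealOf Finsupp.prod
  rw [map_prod]
  exact Finset.prod_congr rfl fun P _ => map_pow _ _ _

end Ideals

section EP

variable (R : Type*) [CommRing R] [IsDedekindDomain R]

/-- **[EP]** the Euler product over the prime ideals of a Dedekind domain. -/
theorem stEP : StEP R := by
  intro 𝕜 _ _ w hsum
  set x : HeightOneSpectrum R → 𝕜 := fun P => w P.asIdeal with hx
  have hmon : ∀ k, w (h4_idealOf k) = h4_mon x k := fun k => h4_map_idealOf_prod w k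
  have hs1 : Summable (fun k : HeightOneSpectrum R →₀ ℕ => ‖h4_mon x k‖) := by
    have := hsum.comp_injective (h4_idealOf_injective (R := R))
    refine this.congr fun k => ?_
    simp only [Function.comp_apply, hmon]
  have hlt : ∀ P, ‖x P‖ < 1 := by
    intro P
    have h1 : Summable (fun n : ℕ => ‖h4_mon x (Finsupp.single P n)‖) :=
      hs1.comp_injective (fun a b h => by simpa using Finsupp.single_injective P h)
    have h2 : Summable (fun n : ℕ => ‖x P‖ ^ n) := by
      refine h1.congr fun n => ?_
      rw [h4_mon_single, norm_pow]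
    have := summable_geometric_iff_norm_lt_one.mp h2
    simpa using this
  have hP := h4_eulerProduct_hasProd x hlt hs1
  have htsum : ∑' k, h4_mon x k = ∑' I : Ideal R, w I := by
    have h3 : (fun k => h4_mon x k) = fun k => w (h4_idealOf k) := funext fun k => (hmon k).symm
    rw [h3]
    refine (h4_idealOf_injective (R := R)).tsum_eq ?_
    intro I hI
    rw [h4_range_idealOf]
    intro h0
    apply hI
    show w I = 0
    rw [h0, ← Ideal.zero_eq_bot, map_zero]
  rw [← htsum]
  exact hP

end EP

end Fermat.Agent.S14x.LFN.H4
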