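import Fermat.Agent.S14x.LFN.Defs

/-!
# S14, package LFN, leaf [PC] (helper4): prime counting over the rational primes

For a number field `F` of degree `n`: every prime `P` of `𝓞 F` contains a rational prime
`ℓ = h4_ell F P`, `N(P) = ℓ ^ f` with `1 ≤ f`, and at most `n` primes contain a given `ℓ`.
Hence `∑_{P ∈ T} N(P)^(-2s)` and `∑_{P ∈ T, N(P) not prime} N(P)^(-s)` are bounded by
`n * ∑_m m^(-2)` for `s ≥ 1`.
-/

set_option autoImplicit false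
set_option linter.style.haveILetI false
set_option linter.unusedSectionVars false

open NumberField IsDedekindDomain

namespace Fermat.Agent.S14x.LFN.H4

variable (F : Type*) [Field F] [NumberField F]

/-- The residue characteristic of a prime of `𝓞 F`. -/
noncomputable def h4_ell (P : HeightOneSpectrum (𝓞 F)) : ℕ := ringChar (𝓞 F ⧸ P.asIdeal)

theorem h4_ell_prime (P : HeightOneSpectrum (𝓞 F)) : (h4_ell F P).Prime := by
  haveI : P.asIdeal.IsMaximal := P.isMaximal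
  letI : Field (𝓞 F ⧸ P.asIdeal) := Ideal.Quotient.field P.asIdeal
  haveI : Finite (𝓞 F ⧸ P.asIdeal) := Ideal.finiteQuotientOfFreeOfNeBot P.asIdeal P.ne_bot
  exact CharP.char_is_prime (𝓞 F ⧸ P.asIdeal) (ringChar (𝓞 F ⧸ P.asIdeal))

theorem h4_ell_mem (P : HeightOneSpectrum (𝓞 F)) : ((h4_ell F P : ℕ) : 𝓞 F) ∈ P.asIdeal := by
  rw [← Ideal.Quotient.eq_zero_iff_mem, map_natCast]
  exact CharP.cast_eq_zero _ _

theorem h4_absNorm_dvd (P : HeightOneSpectrum (𝓞 F)) {ℓ : ℕ} (h : (ℓ : 𝓞 F) ∈ P.asIdeal) :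
    Ideal.absNorm P.asIdeal ∣ ℓ ^ Module.finrank ℚ F := by
  rw [← RingOfIntegers.rank, ← Ideal.absNorm_span_natCast (S := 𝓞 F)]
  exact Ideal.absNorm_dvd_absNorm_of_le ((Ideal.span_singleton_le_iff_mem _).mpr h)

theorem h4_absNorm_ne_one (P : HeightOneSpectrum (𝓞 F)) : Ideal.absNorm P.asIdeal ≠ 1 := by
  rw [Ne, Ideal.absNorm_eq_one_iff]
  exact P.isPrime.ne_top

theorem h4_absNorm_pos (P : HeightOneSpectrum (𝓞 F)) : 0 < Ideal.absNorm P.asIdeal := by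
  rw [Nat.pos_iff_ne_zero, Ne, Ideal.absNorm_eq_zero_iff]
  exact P.ne_bot

/-- `N(P) = ℓ ^ f` with `1 ≤ f`. -/
theorem h4_absNorm_eq_pow (P : HeightOneSpectrum (𝓞 F)) {ℓ : ℕ} (hℓ : ℓ.Prime)
    (h : (ℓ : 𝓞 F) ∈ P.asIdeal) :
    ∃ f : ℕ, 1 ≤ f ∧ Ideal.absNorm P.asIdeal = ℓ ^ f := by
  obtain ⟨f, -, hf⟩ := (Nat.dvd_prime_pow hℓ).mp (h4_absNorm_dvd F P h)
  refine ⟨f, ?_, hf⟩
  rcases Nat.eq_zero_or_pos f with h0 | h0
  · exact absurd (by rw [hf, h0, pow_zero]) (h4_absNorm_ne_one F P)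
  · exact h0

theorem h4_ell_le (P : HeightOneSpectrum (𝓞 F)) {ℓ : ℕ} (hℓ : ℓ.Prime)
    (h : (ℓ : 𝓞 F) ∈ P.asIdeal) : ℓ ≤ Ideal.absNorm P.asIdeal := by
  obtain ⟨f, hf1, hf⟩ := h4_absNorm_eq_pow F P hℓ h
  rw [hf]
  calc ℓ = ℓ ^ 1 := (pow_one ℓ).symm
    _ ≤ ℓ ^ f := Nat.pow_le_pow_right hℓ.pos hf1

/-- Off `degOne`, `ℓ ^ 2 ≤ N(P)`. -/
theorem h4_ell_sq_le (P : HeightOneSpectrum (𝓞 F)) {ℓ : ℕ} (hℓ : ℓ.Prime)
    (h : (ℓ : 𝓞 F) ∈ P.asIdeal) (hP : P ∉ degOne F) : ℓ ^ 2 ≤ Ideal.absNorm P.asIdeal := by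
  obtain ⟨f, hf1, hf⟩ := h4_absNorm_eq_pow F P hℓ h
  have hf2 : 2 ≤ f := by
    by_contra hlt
    have : f = 1 := by omega
    apply hP
    show (Ideal.absNorm P.asIdeal).Prime
    rw [hf, this, pow_one]
    exact hℓ
  rw [hf]
  exact Nat.pow_le_pow_right hℓ.pos hf2

/-- At most `[F : ℚ]` primes of `𝓞 F` contain a given rational prime. -/
theorem h4_card_le (ℓ : ℕ) (hℓ : ℓ.Prime) (S : Finset (HeightOneSpectrum (𝓞 F)))
    (hS : ∀ P ∈ S, (ℓ : 𝓞 F) ∈ P.asIdeal) : S.card ≤ Module.finrank ℚ F := by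
  classical
  have hinj : Set.InjOn (fun P : HeightOneSpectrum (𝓞 F) => P.asIdeal) (S : Set _) :=
    fun P _ Q _ h => HeightOneSpectrum.ext h
  have hdvd : ∏ P ∈ S, P.asIdeal ∣ Ideal.span {(ℓ : 𝓞 F)} := by
    have h1 := Finset.prod_primes_dvd (s := S.image (fun P => P.asIdeal))
      (Ideal.span {(ℓ : 𝓞 F)})
      (fun I hI => by
        obtain ⟨P, -, rfl⟩ := Finset.mem_image.mp hI
        exact P.prime)
      (fun I hI => by
        obtain ⟨P, hP, rfl⟩ := Finset.mem_image.mp hI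
        exact Ideal.dvd_iff_le.mpr ((Ideal.span_singleton_le_iff_mem _).mpr (hS P hP)))
    rwa [Finset.prod_image hinj] at h1
  have hN : ∏ P ∈ S, Ideal.absNorm P.asIdeal ∣ ℓ ^ Module.finrank ℚ F := by
    rw [← RingOfIntegers.rank, ← Ideal.absNorm_span_natCast (S := 𝓞 F), ← map_prod]
    exact map_dvd Ideal.absNorm hdvd
  have hle : ℓ ^ S.card ≤ ∏ P ∈ S, Ideal.absNorm P.asIdeal := by
    rw [← Finset.prod_const]
    exact Finset.prod_le_prod' fun P hP => h4_ell_le F P hℓ (hS P hP)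
  have hle2 : ℓ ^ S.card ≤ ℓ ^ Module.finrank ℚ F :=
    hle.trans (Nat.le_of_dvd (pow_pos hℓ.pos _) hN)
  exact (Nat.pow_le_pow_iff_right hℓ.one_lt).mp hle2

/-- The constant of [PC]. -/
noncomputable def h4_pcConst : ℝ := (Module.finrank ℚ F : ℝ) * ∑' m : ℕ, 1 / (m : ℝ) ^ 2

theorem h4_sum_ell_le (T : Finset (HeightOneSpectrum (𝓞 F))) :
    ∑ P ∈ T, 1 / ((h4_ell F P : ℕ) : ℝ) ^ 2 ≤ h4_pcConst F := by
  classical
  have hsum : Summable (fun m : ℕ => 1 / (m : ℝ) ^ 2) :=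
    Real.summable_one_div_nat_pow.mpr (by norm_num)
  rw [← Finset.sum_fiberwise_of_maps_to (g := h4_ell F) (t := T.image (h4_ell F))
    (fun P hP => Finset.mem_image_of_mem _ hP)]
  have h1 : ∀ ℓ ∈ T.image (h4_ell F),
      ∑ P ∈ T with h4_ell F P = ℓ, 1 / ((h4_ell F P : ℕ) : ℝ) ^ 2 ≤
        (Module.finrank ℚ F : ℝ) * (1 / (ℓ : ℝ) ^ 2) := by
    intro ℓ hℓ
    obtain ⟨P₀, -, hP₀⟩ := Finset.mem_image.mp hℓ
    have hprime : ℓ.Prime := hP₀ ▸ h4_ell_prime F P₀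
    have hcard : (T.filter (fun P => h4_ell F P = ℓ)).card ≤ Module.finrank ℚ F :=
      h4_card_le F ℓ hprime _ fun P hP => by
        have := (Finset.mem_filter.mp hP).2
        rw [← this]
        exact h4_ell_mem F P
    calc ∑ P ∈ T with h4_ell F P = ℓ, 1 / ((h4_ell F P : ℕ) : ℝ) ^ 2
        = ∑ P ∈ T with h4_ell F P = ℓ, 1 / (ℓ : ℝ) ^ 2 :=
          Finset.sum_congr rfl fun P hP => by rw [(Finset.mem_filter.mp hP).2]
      _ = ((T.filter (fun P => h4_ell F P = ℓ)).card : ℝ) * (1 / (ℓ : ℝ) ^ 2) := by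
          rw [Finset.sum_const, nsmul_eq_mul]
      _ ≤ (Module.finrank ℚ F : ℝ) * (1 / (ℓ : ℝ) ^ 2) :=
          mul_le_mul_of_nonneg_right (by exact_mod_cast hcard) (by positivity)
  calc ∑ ℓ ∈ T.image (h4_ell F), ∑ P ∈ T with h4_ell F P = ℓ, 1 / ((h4_ell F P : ℕ) : ℝ) ^ 2
      ≤ ∑ ℓ ∈ T.image (h4_ell F), (Module.finrank ℚ F : ℝ) * (1 / (ℓ : ℝ) ^ 2) :=
        Finset.sum_le_sum h1
    _ = (Module.finrank ℚ F : ℝ) * ∑ ℓ ∈ T.image (h4_ell F), 1 / (ℓ : ℝ) ^ 2 := by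
        rw [Finset.mul_sum]
    _ ≤ h4_pcConst F :=
        mul_le_mul_of_nonneg_left (hsum.sum_le_tsum _ fun m _ => by positivity)
          (Nat.cast_nonneg _)

/-- `N(P)^(-s) ≤ ℓ^(-2)` if `ℓ^2 ≤ N(P)` and `s ≥ 1`. -/
theorem h4_rpow_neg_le {N ℓ : ℕ} (hℓ : 0 < ℓ) (h : ℓ ^ 2 ≤ N) {s : ℝ} (hs : 1 ≤ s) :
    (N : ℝ) ^ (-s) ≤ 1 / (ℓ : ℝ) ^ 2 := by
  have hℓ' : (0 : ℝ) < (ℓ : ℝ) ^ 2 := by positivity
  have hN : (ℓ : ℝ) ^ 2 ≤ (N : ℝ) := by exact_mod_cast h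
  have hN1 : (1 : ℝ) ≤ (N : ℝ) := by
    have : 1 ≤ ℓ ^ 2 := Nat.one_le_pow _ _ hℓ
    exact_mod_cast this.trans h
  calc (N : ℝ) ^ (-s) ≤ (N : ℝ) ^ (-1 : ℝ) :=
        Real.rpow_le_rpow_of_exponent_le hN1 (by linarith)
    _ = 1 / (N : ℝ) := by rw [Real.rpow_neg_one, one_div]
    _ ≤ 1 / (ℓ : ℝ) ^ 2 := one_div_le_one_div_of_le hℓ' hN

/-- **[PC]** -/
theorem stPC : StPC F := by
  refine ⟨h4_pcConst F, fun s hs T => ⟨fun hT => ?_, ?_⟩⟩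
  · refine le_trans (Finset.sum_le_sum fun P hP => ?_) (h4_sum_ell_le F T)
    exact h4_rpow_neg_le (h4_ell_prime F P).pos
      (h4_ell_sq_le F P (h4_ell_prime F P) (h4_ell_mem F P) (hT P hP)) hs
  · refine le_trans (Finset.sum_le_sum fun P hP => ?_) (h4_sum_ell_le F T)
    have hℓ := h4_ell_prime F P
    have hN := h4_ell_le F P hℓ (h4_ell_mem F P)
    have hNpos : (0 : ℝ) < (Ideal.absNorm P.asIdeal : ℝ) := by
      exact_mod_cast h4_absNorm_pos F P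
    have h1 : nrm F s P.asIdeal ^ 2 = ((Ideal.absNorm P.asIdeal ^ 2 : ℕ) : ℝ) ^ (-s) := by
      unfold nrm
      push_cast
      rw [← Real.rpow_natCast, ← Real.rpow_mul hNpos.le, ← Real.rpow_natCast,
        ← Real.rpow_mul hNpos.le]
      congr 1
      push_cast
      ring
    rw [h1]
    exact h4_rpow_neg_le hℓ.pos (Nat.pow_le_pow_left hN 2) hs

end Fermat.Agent.S14x.LFN.H4
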