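import Mathlib
import Fermat.Agent.S14x.LFN.Defs
import Fermat.Agent.S14x.LFN.H6_Nrm

/-!
# S14 / LFN, leaf [RAM] (helper6)

Outside the finite set `T₀` of primes of `K` below a prime dividing the different of `L/K`:
if all primes of `L` above `P` have the same norm as `P`, there are `[L : K]` primes above `P`.
-/

set_option autoImplicit false
set_option linter.style.haveILetI false
set_option linter.unusedSectionVars false

open NumberField IsDedekindDomain

namespace Fermat.Agent.S14x.LFN.H6

variable (K L : Type*) [Field K] [NumberField K] [Field L] [NumberField L] [Algebra K L]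

/-- The primes of `L` dividing the different of `L/K` form a finite set. -/
lemma finite_dvd_different :
    {𝔓 : HeightOneSpectrum (𝓞 L) | 𝔓.asIdeal ∣ differentIdeal (𝓞 K) (𝓞 L)}.Finite :=
  Ideal.finite_factors differentIdeal_ne_bot

/-- The exceptional set: primes of `K` below a prime dividing the different. -/
noncomputable def ramSet : Finset (HeightOneSpectrum (𝓞 K)) := by
  classical
  exact (finite_dvd_different K L).toFinset.image (below K L)

lemma mem_ramSet_of_dvd (𝔓 : HeightOneSpectrum (𝓞 L))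
    (h : 𝔓.asIdeal ∣ differentIdeal (𝓞 K) (𝓞 L)) : below K L 𝔓 ∈ ramSet K L := by
  classical
  unfold ramSet
  rw [Finset.mem_image]
  exact ⟨𝔓, (Set.Finite.mem_toFinset _).mpr h, rfl⟩

/-- Outside `ramSet`, primes above `P` have ramification index one. -/
lemma ramificationIdx_eq_one_of_notMem (P : HeightOneSpectrum (𝓞 K)) (hP : P ∉ ramSet K L)
    (q : Ideal (𝓞 L)) [hq : q.IsPrime] (hqP : q.under (𝓞 K) = P.asIdeal) :
    q.ramificationIdx (𝓞 K) = 1 := by
  have hq0 : q ≠ ⊥ := by
    intro h0
    apply P.ne_bot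
    rw [← hqP, h0]
    exact Ideal.under_bot (𝓞 K) (𝓞 L)
  have h1 : ¬ q ∣ differentIdeal (𝓞 K) (𝓞 L) := by
    intro hd
    apply hP
    have := mem_ramSet_of_dvd K L ⟨q, hq, hq0⟩ hd
    have h2 : below K L ⟨q, hq, hq0⟩ = P := HeightOneSpectrum.ext hqP
    rwa [h2] at this
  haveI : Algebra.IsUnramifiedAt (𝓞 K) q := not_dvd_differentIdeal_iff.mp h1
  exact Ideal.ramificationIdx_eq_one q (𝓞 K)

lemma one_lt_absNorm (P : HeightOneSpectrum (𝓞 K)) : 1 < Ideal.absNorm P.asIdeal := by
  have h0 : Ideal.absNorm P.asIdeal ≠ 0 := by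
    rw [Ne, Ideal.absNorm_eq_zero_iff]
    exact P.ne_bot
  have h1 : Ideal.absNorm P.asIdeal ≠ 1 := by
    rw [Ne, Ideal.absNorm_eq_one_iff]
    exact P.isPrime.ne_top
  omega

/-- **[RAM]** -/
theorem stRAM : StRAM K L := by
  classical
  refine ⟨ramSet K L, fun P hP hnorm => ?_⟩
  haveI : P.asIdeal.IsMaximal := P.isMaximal
  haveI : Fintype (P.asIdeal.primesOver (𝓞 L)) :=
    (IsDedekindDomain.primesOver_finite P.asIdeal (𝓞 L)).fintype
  have hsum := Ideal.sum_ramification_inertia_eq_finrank P.asIdeal (𝓞 L)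
  rw [← IsFractionRing.finrank_eq (𝓞 K) K (𝓞 L) L] at hsum
  -- every prime above `P` is a height-one prime
  have hne : ∀ q : P.asIdeal.primesOver (𝓞 L), q.1 ≠ ⊥ := by
    intro q h0
    have hq : q.1.LiesOver P.asIdeal := q.2.2
    apply P.ne_bot
    rw [hq.over, h0]
    exact Ideal.under_bot (𝓞 K) (𝓞 L)
  let g : P.asIdeal.primesOver (𝓞 L) → HeightOneSpectrum (𝓞 L) := fun q =>
    ⟨q.1, q.2.1, hne q⟩
  have hg : Function.Injective g := by
    intro a b hab
    exact Subtype.ext (congrArg HeightOneSpectrum.asIdeal hab)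
  have hunder : ∀ q : P.asIdeal.primesOver (𝓞 L), (g q).asIdeal.under (𝓞 K) = P.asIdeal := by
    intro q
    have hq : q.1.LiesOver P.asIdeal := q.2.2
    exact hq.over.symm
  have hterm : ∀ q : P.asIdeal.primesOver (𝓞 L),
      q.1.ramificationIdx (𝓞 K) * q.1.inertiaDeg (𝓞 K) = 1 := by
    intro q
    haveI : q.1.IsPrime := q.2.1
    have he := ramificationIdx_eq_one_of_notMem K L P hP q.1 (hunder q)
    have hn := hnorm (g q) (hunder q)
    have hpow := absNorm_eq_pow K L (g q)
    have hb : below K L (g q) = P := HeightOneSpectrum.ext (hunder q)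
    rw [hb, hn] at hpow
    have hf : (g q).asIdeal.inertiaDeg (𝓞 K) = 1 := by
      have h2 : Ideal.absNorm P.asIdeal ^ 1 =
          Ideal.absNorm P.asIdeal ^ (g q).asIdeal.inertiaDeg (𝓞 K) := by
        rw [pow_one]
        exact hpow
      exact (Nat.pow_right_injective (one_lt_absNorm K P) h2).symm
    have hf' : q.1.inertiaDeg (𝓞 K) = 1 := hf
    rw [he, hf']
  have hcard : Fintype.card (P.asIdeal.primesOver (𝓞 L)) = Module.finrank K L := by
    rw [← hsum, Fintype.card_eq_sum_ones]
    exact Finset.sum_congr rfl fun q _ => (hterm q).symm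
  refine ⟨Finset.univ.image g, ?_, ?_⟩
  · rw [Finset.card_image_of_injective _ hg, Finset.card_univ, hcard]
  · intro 𝔓 h𝔓
    rw [Finset.mem_image] at h𝔓
    obtain ⟨q, -, rfl⟩ := h𝔓
    exact hunder q

end Fermat.Agent.S14x.LFN.H6
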