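import Mathlib
import Fermat.Agent.S14x.LFN.Defs

/-!
# S14 / LFN leaf [CH] (helper7): characters of a finite commutative group

`stCH H : StCH H` (verbatim `LFN/Defs.lean`): the number of characters `H →* ℂˣ` is `|H|`,
the values of a nontrivial character sum to `0`, and for `g ≠ 1`, `x ≥ 0`
`∏_χ ‖1 - χ(g) x‖ ≤ (1 + x²)^(|H|/2)` (AM-GM).
-/

set_option autoImplicit false
set_option linter.unusedSectionVars false

noncomputable section

namespace Fermat.Agent.S14x.LFN.H7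

open Finset

section

variable (H : Type*) [CommGroup H] [Finite H]

theorem h7_hasEnough : HasEnoughRootsOfUnity ℂ (Monoid.exponent H) := by
  have : NeZero (Monoid.exponent H) := ⟨Monoid.exponent_ne_zero_of_finite⟩
  have : NeZero ((Monoid.exponent H : ℕ) : ℂ) := ⟨by
    exact_mod_cast (NeZero.ne (Monoid.exponent H))⟩
  infer_instance

theorem h7_card_dual : Nat.card (H →* ℂˣ) = Nat.card H :=
  haveI := h7_hasEnough H
  CommGroup.card_monoidHom_of_hasEnoughRootsOfUnity H ℂ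

theorem h7_finite_dual : Finite (H →* ℂˣ) := by
  have h : Nat.card (H →* ℂˣ) ≠ 0 := by
    rw [h7_card_dual]; exact Nat.card_pos.ne'
  exact (Nat.card_ne_zero.mp h).2

variable {H}

/-- the values of a nontrivial character sum to zero. -/
theorem h7_sum_char_eq_zero [Fintype H] (χ : H →* ℂˣ) (hχ : χ ≠ 1) :
    ∑ c : H, ((χ c : ℂˣ) : ℂ) = 0 := by
  obtain ⟨h, hh⟩ : ∃ h : H, χ h ≠ 1 := by
    by_contra hcon
    have hcon' : ∀ h : H, χ h = 1 := fun h => not_not.mp fun hh => hcon ⟨h, hh⟩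
    exact hχ (MonoidHom.ext fun c => by simpa using hcon' c)
  have hsum : ∑ c : H, ((χ c : ℂˣ) : ℂ) = ((χ h : ℂˣ) : ℂ) * ∑ c : H, ((χ c : ℂˣ) : ℂ) := by
    rw [Finset.mul_sum]
    rw [← Equiv.sum_comp (Equiv.mulLeft h) (fun c => ((χ c : ℂˣ) : ℂ))]
    refine Finset.sum_congr rfl fun c _ => ?_
    simp [map_mul]
  have hne : ((χ h : ℂˣ) : ℂ) - 1 ≠ 0 := by
    intro h0
    apply hh
    apply Units.ext
    simpa [sub_eq_zero] using h0
  have : (((χ h : ℂˣ) : ℂ) - 1) * ∑ c : H, ((χ c : ℂˣ) : ℂ) = 0 := by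
    rw [sub_mul, one_mul, ← hsum, sub_self]
  exact (mul_eq_zero.mp this).resolve_left hne

/-- dual orthogonality: the values at `g ≠ 1` of all characters sum to zero. -/
theorem h7_sum_dual_eq_zero [Fintype (H →* ℂˣ)] (g : H) (hg : g ≠ 1) :
    ∑ χ : H →* ℂˣ, ((χ g : ℂˣ) : ℂ) = 0 := by
  haveI := h7_hasEnough H
  obtain ⟨ψ, hψ⟩ := CommGroup.exists_apply_ne_one_of_hasEnoughRootsOfUnity H ℂ hg
  have hsum : ∑ χ : H →* ℂˣ, ((χ g : ℂˣ) : ℂ)
      = ((ψ g : ℂˣ) : ℂ) * ∑ χ : H →* ℂˣ, ((χ g : ℂˣ) : ℂ) := by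
    rw [Finset.mul_sum]
    rw [← Equiv.sum_comp (Equiv.mulLeft ψ) (fun χ : H →* ℂˣ => ((χ g : ℂˣ) : ℂ))]
    refine Finset.sum_congr rfl fun χ _ => ?_
    simp [MonoidHom.mul_apply]
  have hne : ((ψ g : ℂˣ) : ℂ) - 1 ≠ 0 := by
    intro h0
    apply hψ
    apply Units.ext
    simpa [sub_eq_zero] using h0
  have : (((ψ g : ℂˣ) : ℂ) - 1) * ∑ χ : H →* ℂˣ, ((χ g : ℂˣ) : ℂ) = 0 := by
    rw [sub_mul, one_mul, ← hsum, sub_self]
  exact (mul_eq_zero.mp this).resolve_left hne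

/-- character values have norm one. -/
theorem h7_norm_char (χ : H →* ℂˣ) (g : H) : ‖((χ g : ℂˣ) : ℂ)‖ = 1 := by
  have hfin : IsOfFinOrder g := isOfFinOrder_of_finite g
  have h1 : ((χ g : ℂˣ) : ℂ) ^ orderOf g = 1 := by
    have : (χ g) ^ orderOf g = 1 := by
      rw [← map_pow, pow_orderOf_eq_one, map_one]
    have := congrArg (fun u : ℂˣ => (u : ℂ)) this
    simpa using this
  exact Complex.norm_eq_one_of_pow_eq_one h1 (orderOf_pos g).ne'

/-- `‖1 - u x‖² = 1 + x² - 2 x Re u` for `‖u‖ = 1`. -/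
theorem h7_normSq (u : ℂ) (hu : ‖u‖ = 1) (x : ℝ) :
    ‖(1 : ℂ) - u * (x : ℂ)‖ ^ 2 = 1 + x ^ 2 - 2 * x * u.re := by
  have h2 : u.re ^ 2 + u.im ^ 2 = 1 := by
    have := Complex.sq_norm u
    rw [hu, Complex.normSq_apply] at this
    nlinarith [this]
  rw [Complex.sq_norm, Complex.normSq_apply]
  simp only [Complex.sub_re, Complex.one_re, Complex.mul_re, Complex.ofReal_re, Complex.ofReal_im,
    mul_zero, sub_zero, Complex.sub_im, Complex.one_im, Complex.mul_im, zero_sub]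
  nlinarith [h2]

theorem h7_prod_le [Fintype (H →* ℂˣ)] (g : H) (hg : g ≠ 1) (x : ℝ) (_hx : 0 ≤ x) :
    ∏ χ : H →* ℂˣ, ‖(1 : ℂ) - ((χ g : ℂˣ) : ℂ) * (x : ℂ)‖ ≤
      (1 + x ^ 2) ^ ((Nat.card H : ℝ) / 2) := by
  classical
  set n : ℕ := Nat.card H with hn
  have hcard : Fintype.card (H →* ℂˣ) = n := by
    rw [← Nat.card_eq_fintype_card, h7_card_dual]
  have hnpos : 0 < n := Nat.card_pos
  have hnR : (0 : ℝ) < n := by exact_mod_cast hnpos
  set z : (H →* ℂˣ) → ℝ := fun χ => ‖(1 : ℂ) - ((χ g : ℂˣ) : ℂ) * (x : ℂ)‖ ^ 2 with hz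
  have hz0 : ∀ χ, 0 ≤ z χ := fun χ => by positivity
  -- the sum of the `z χ`
  have hsumz : ∑ χ : H →* ℂˣ, z χ = n * (1 + x ^ 2) := by
    have h1 : ∀ χ : H →* ℂˣ, z χ = 1 + x ^ 2 - 2 * x * (((χ g : ℂˣ) : ℂ)).re := fun χ =>
      h7_normSq _ (h7_norm_char χ g) x
    simp only [h1]
    rw [Finset.sum_sub_distrib, ← Finset.mul_sum]
    have h2 : ∑ χ : H →* ℂˣ, (((χ g : ℂˣ) : ℂ)).re = 0 := by
      have := congrArg Complex.re (h7_sum_dual_eq_zero g hg)
      simpa [Complex.re_sum] using this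
    rw [h2, mul_zero, sub_zero, Finset.sum_const, Finset.card_univ, hcard, nsmul_eq_mul]
  -- AM-GM with equal weights
  have hamgm := Real.geom_mean_le_arith_mean_weighted (Finset.univ : Finset (H →* ℂˣ))
    (fun _ => (1 : ℝ) / n) z (fun _ _ => by positivity)
    (by
      rw [Finset.sum_const, Finset.card_univ, hcard, nsmul_eq_mul]
      field_simp)
    (fun χ _ => hz0 χ)
  have harith : ∑ χ : H →* ℂˣ, (1 : ℝ) / n * z χ = 1 + x ^ 2 := by
    rw [← Finset.mul_sum, hsumz]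
    field_simp
  rw [harith] at hamgm
  -- the product of the norms is the `n/2`-th power of the geometric mean
  have hprod : ∏ χ : H →* ℂˣ, ‖(1 : ℂ) - ((χ g : ℂˣ) : ℂ) * (x : ℂ)‖
      = (∏ χ : H →* ℂˣ, z χ ^ ((1 : ℝ) / n)) ^ ((n : ℝ) / 2) := by
    rw [← Real.finsetProd_rpow _ _ (fun χ _ => Real.rpow_nonneg (hz0 χ) _)]
    refine Finset.prod_congr rfl fun χ _ => ?_
    rw [← Real.rpow_mul (hz0 χ)]
    have : (1 : ℝ) / n * ((n : ℝ) / 2) = 1 / 2 := by field_simp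
    rw [this, hz, ← Real.sqrt_eq_rpow, Real.sqrt_sq (norm_nonneg _)]
  rw [hprod]
  exact Real.rpow_le_rpow (Finset.prod_nonneg fun χ _ => Real.rpow_nonneg (hz0 χ) _) hamgm
    (by positivity)

end

/-- **[CH]** verbatim `LFN.StCH`. -/
theorem stCH (H : Type*) [CommGroup H] [Finite H] : StCH H := by
  classical
  haveI : Finite (H →* ℂˣ) := h7_finite_dual H
  letI : Fintype H := Fintype.ofFinite H
  letI : Fintype (H →* ℂˣ) := Fintype.ofFinite _
  refine ⟨h7_card_dual H, ?_, ?_⟩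
  · intro χ hχ
    rw [finsum_eq_sum_of_fintype]
    exact h7_sum_char_eq_zero χ hχ
  · intro g hg x hx
    rw [finprod_eq_prod_of_fintype]
    exact h7_prod_le g hg x hx

end Fermat.Agent.S14x.LFN.H7

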