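import Fermat.Agent.S14x.LFN.H22_Zeta
import Fermat.Agent.S14x.LFN.H22_Abel
import Fermat.Agent.S14x.LFN.H4_EP
import Fermat.Agent.S14x.LFN.H4_PC
import Fermat.Agent.S14x.LFN.H6_Nrm
import Fermat.Agent.S14x.LFN.H6_Ram
import Fermat.Agent.S14x.LFN.H7_CH
import Fermat.Agent.S14x.LFN.H27_PZ
import Fermat.Agent.S14x.LFN.H11_U

/-!
# S14 / LFN (helper22): composition of the leaves — `StUabs` and `StDabs`, hypothesis-free

* `stPZupper`, `stPZlower` : the prime zeta asymptotics (helper27 from helper4's `[EP]`, `[PC]`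
  and `[ZS]`, `[ZB]`);
* `stUabs : StUabs` (helper11's assembly with all leaves plugged in);
* `stDabs : StDabs` : the density statement (D), assembled here from `[PZ-lower]` for `K`,
  `[PZ-upper]` for `L`, `[NRM]` and `[RAM]`.
-/

set_option autoImplicit false

noncomputable section

open NumberField IsDedekindDomain Filter Topology

namespace Fermat.Agent.S14x.LFN.Main

open Fermat.Agent.S14x.LFN

theorem stPZupper (F : Type*) [Field F] [NumberField F] : StPZupper F :=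
  H27.stPZupper_of F (H22.stZS F) (H22.stZB F) (H4.stEP _)

theorem stPZlower (F : Type*) [Field F] [NumberField F] : StPZlower F :=
  H27.stPZlower_of F (H22.stZS F) (H22.stZB F) (H4.stEP _) (H4.stPC F)

/-- **(U), abstract form, hypothesis-free.** -/
theorem stUabs : StUabs :=
  H11.stUabs_of (fun F _ _ => H22.stZS F) (fun F _ _ => H22.stZB F) (fun F _ _ => H22.stFIB F)
    (fun _ _ _ => H4.stEP _) (fun F _ _ => H4.stPC F) (fun F _ _ => stPZlower F)
    (fun K L _ _ _ _ _ => H6.stNRM K L) H22.stAB (fun H _ _ => H7.stCH H)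

/-! ### The density statement (D) -/

theorem tendsto_log_inv_sub_one :
    Tendsto (fun s : ℝ => Real.log (1 / (s - 1))) (𝓝[>] (1 : ℝ)) atTop := by
  have h1 : Tendsto (fun s : ℝ => s - 1) (𝓝[>] (1 : ℝ)) (𝓝[>] (0 : ℝ)) := by
    refine tendsto_nhdsWithin_of_tendsto_nhds_of_eventually_within _ ?_ ?_
    · have : Tendsto (fun s : ℝ => s - 1) (𝓝 (1 : ℝ)) (𝓝 ((1 : ℝ) - 1)) :=
        (continuous_id.sub continuous_const).tendsto 1
      rw [sub_self] at this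
      exact this.mono_left nhdsWithin_le_nhds
    · filter_upwards [self_mem_nhdsWithin] with s hs
      exact sub_pos.mpr (Set.mem_Ioi.mp hs)
  have h2 : Tendsto (fun s : ℝ => (s - 1)⁻¹) (𝓝[>] (1 : ℝ)) atTop :=
    tendsto_inv_nhdsGT_zero.comp h1
  refine (Real.tendsto_log_atTop.comp h2).congr fun s => ?_
  simp [one_div]

section D

variable (K L : Type) [Field K] [NumberField K] [Field L] [NumberField L] [Algebra K L]

omit [NumberField K] [NumberField L] in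
theorem under_injective_aux {𝔓 : HeightOneSpectrum (𝓞 L)} {P Q : HeightOneSpectrum (𝓞 K)}
    (hP : 𝔓.asIdeal.under (𝓞 K) = P.asIdeal) (hQ : 𝔓.asIdeal.under (𝓞 K) = Q.asIdeal) :
    P = Q :=
  HeightOneSpectrum.ext (hP.symm.trans hQ)

/-- the key inequality: if every degree-one prime outside `T` has only primes of the same norm
above it, then `n * (∑_{P ∈ T'} N(P)^(-s)) ≤ log (1/(s-1)) + C` for finite sets `T'` of
degree-one primes outside `T ∪ T₀`. -/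
theorem sum_le_of_forall (s : ℝ)
    (T₀ : Finset (HeightOneSpectrum (𝓞 K)))
    (hRAM : ∀ P : HeightOneSpectrum (𝓞 K), P ∉ T₀ →
      (∀ 𝔓 : HeightOneSpectrum (𝓞 L), 𝔓.asIdeal.under (𝓞 K) = P.asIdeal →
        Ideal.absNorm 𝔓.asIdeal = Ideal.absNorm P.asIdeal) →
      ∃ S : Finset (HeightOneSpectrum (𝓞 L)), S.card = Module.finrank K L ∧
        ∀ 𝔓 ∈ S, 𝔓.asIdeal.under (𝓞 K) = P.asIdeal)
    (B : ℝ) (hB : ∀ S : Finset (HeightOneSpectrum (𝓞 L)), ∑ 𝔓 ∈ S, nrm L s 𝔓.asIdeal ≤ B)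
    (T' : Finset (HeightOneSpectrum (𝓞 K)))
    (hT' : ∀ P ∈ T', P ∉ T₀ ∧
      ∀ 𝔓 : HeightOneSpectrum (𝓞 L), 𝔓.asIdeal.under (𝓞 K) = P.asIdeal →
        Ideal.absNorm 𝔓.asIdeal = Ideal.absNorm P.asIdeal) :
    (Module.finrank K L : ℝ) * ∑ P ∈ T', nrm K s P.asIdeal ≤ B := by
  classical
  have hex : ∀ P : HeightOneSpectrum (𝓞 K), ∃ S : Finset (HeightOneSpectrum (𝓞 L)),
      P ∈ T' → (S.card = Module.finrank K L ∧
        ∀ 𝔓 ∈ S, 𝔓.asIdeal.under (𝓞 K) = P.asIdeal) := by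
    intro P
    by_cases hP : P ∈ T'
    · obtain ⟨S, hS⟩ := hRAM P (hT' P hP).1 (hT' P hP).2
      exact ⟨S, fun _ => hS⟩
    · exact ⟨∅, fun h => absurd h hP⟩
  choose S hS using hex
  have hdisj : ∀ P ∈ T', ∀ Q ∈ T', P ≠ Q → Disjoint (S P) (S Q) := by
    intro P hP Q hQ hPQ
    rw [Finset.disjoint_left]
    intro 𝔓 h1 h2
    exact hPQ (under_injective_aux K L ((hS P hP).2 𝔓 h1) ((hS Q hQ).2 𝔓 h2))
  have hsum : ∑ 𝔓 ∈ T'.biUnion S, nrm L s 𝔓.asIdeal =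
      ∑ P ∈ T', (Module.finrank K L : ℝ) * nrm K s P.asIdeal := by
    rw [Finset.sum_biUnion hdisj]
    refine Finset.sum_congr rfl fun P hP => ?_
    have h1 : ∀ 𝔓 ∈ S P, nrm L s 𝔓.asIdeal = nrm K s P.asIdeal := by
      intro 𝔓 h𝔓
      rw [nrm, nrm, (hT' P hP).2 𝔓 ((hS P hP).2 𝔓 h𝔓)]
    rw [Finset.sum_congr rfl h1, Finset.sum_const, (hS P hP).1, nsmul_eq_mul]
  rw [Finset.mul_sum, ← hsum]
  exact hB _

/-- **(D), abstract form, hypothesis-free.** -/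
theorem stDabs : StDabs := by
  classical
  intro K L _ _ _ _ _ hn T
  by_contra hcon
  push Not at hcon
  -- `hcon : ∀ P ∉ T, P ∈ degOne K → ∀ 𝔓 over P, absNorm 𝔓 = absNorm P`
  obtain ⟨T₀, hRAM⟩ := H6.stRAM K L
  obtain ⟨CK, hK⟩ := stPZlower K
  obtain ⟨CL, hL⟩ := stPZupper L
  set n : ℝ := (Module.finrank K L : ℝ) with hndef
  have hn2 : (2 : ℝ) ≤ n := by rw [hndef]; exact_mod_cast hn
  set c : ℝ := ((T ∪ T₀).card : ℝ) with hc
  -- choose `s` close to `1` with `log (1/(s-1))` large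
  have hbig : ∀ᶠ s in 𝓝[>] (1 : ℝ), CL + n * (CK + c) < Real.log (1 / (s - 1)) :=
    tendsto_log_inv_sub_one.eventually (eventually_gt_atTop _)
  have hbig0 : ∀ᶠ s in 𝓝[>] (1 : ℝ), 0 < Real.log (1 / (s - 1)) :=
    tendsto_log_inv_sub_one.eventually (eventually_gt_atTop _)
  have hpos : ∀ᶠ s in 𝓝[>] (1 : ℝ), (1 : ℝ) < s := self_mem_nhdsWithin
  obtain ⟨s, ⟨⟨⟨⟨TK, hTK, hlow⟩, hup⟩, hlog⟩, hlog0⟩, hs⟩ :=
    ((((hK.and hL).and hbig).and hbig0).and hpos).exists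
  have hs0 : (0 : ℝ) ≤ s := by linarith
  -- remove the exceptional primes
  set T' := TK \ (T ∪ T₀) with hT'
  have hsplit : ∑ P ∈ TK, nrm K s P.asIdeal =
      ∑ P ∈ T', nrm K s P.asIdeal + ∑ P ∈ TK ∩ (T ∪ T₀), nrm K s P.asIdeal := by
    rw [hT', add_comm]
    exact (Finset.sum_inter_add_sum_sdiff TK (T ∪ T₀) _).symm
  have hexc : ∑ P ∈ TK ∩ (T ∪ T₀), nrm K s P.asIdeal ≤ c := by
    calc ∑ P ∈ TK ∩ (T ∪ T₀), nrm K s P.asIdeal
        ≤ ∑ _P ∈ TK ∩ (T ∪ T₀), (1 : ℝ) :=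
          Finset.sum_le_sum fun P _ => H22.nrm_le_one K hs0 P.asIdeal
      _ = ((TK ∩ (T ∪ T₀)).card : ℝ) := by simp
      _ ≤ c := by
          rw [hc]
          exact_mod_cast Finset.card_le_card Finset.inter_subset_right
  have hlow' : Real.log (1 / (s - 1)) - CK - c ≤ ∑ P ∈ T', nrm K s P.asIdeal := by
    linarith
  have hkey := sum_le_of_forall K L s T₀ hRAM (Real.log (1 / (s - 1)) + CL) hup T' (by
    intro P hP
    rw [hT', Finset.mem_sdiff, Finset.mem_union, not_or] at hP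
    exact ⟨hP.2.2, fun 𝔓 h𝔓 => hcon P hP.2.1 (hTK P hP.1) 𝔓 h𝔓⟩)
  -- conclusion
  have h1 : n * (Real.log (1 / (s - 1)) - CK - c) ≤ Real.log (1 / (s - 1)) + CL :=
    (mul_le_mul_of_nonneg_left hlow' (by linarith)).trans hkey
  have h2 : 0 ≤ (n - 2) * Real.log (1 / (s - 1)) :=
    mul_nonneg (by linarith) hlog0.le
  nlinarith

end D

end Fermat.Agent.S14x.LFN.Main
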