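import Fermat.Agent.S14x.LFN.Defs

/-!
# S14 / LFN (helper22): the Dedekind zeta function as a sum over ideals

Leaves `[FIB]`, `[ZS]`, `[ZB]` of `LFN/Defs.lean`.
-/

set_option autoImplicit false

noncomputable section

open NumberField IsDedekindDomain Filter Topology

namespace Fermat.Agent.S14x.LFN.H22

open Fermat.Agent.S14x.LFN

variable (F : Type*) [Field F] [NumberField F]

/-- number of ideals of norm `n`. -/
def cnt (n : ℕ) : ℕ := Nat.card {I : Ideal (𝓞 F) // Ideal.absNorm I = n}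

/-- the fibres of the norm are finite (local instance only). -/
@[reducible] def fiberFintype (n : ℕ) : Fintype {I : Ideal (𝓞 F) // Ideal.absNorm I = n} :=
  (Ideal.finite_setOfPred_absNorm_eq n).fintype

attribute [local instance] fiberFintype

theorem nrm_nonneg (s : ℝ) (I : Ideal (𝓞 F)) : 0 ≤ nrm F s I :=
  Real.rpow_nonneg (Nat.cast_nonneg _) _

theorem nrm_bot {s : ℝ} (hs : s ≠ 0) : nrm F s ⊥ = 0 := by
  rw [nrm, Ideal.absNorm_bot, Nat.cast_zero, Real.zero_rpow (neg_ne_zero.mpr hs)]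

theorem nrm_top (s : ℝ) : nrm F s ⊤ = 1 := by
  rw [nrm, Ideal.absNorm_top, Nat.cast_one, Real.one_rpow]

theorem nrm_mul (s : ℝ) (I J : Ideal (𝓞 F)) : nrm F s (I * J) = nrm F s I * nrm F s J := by
  rw [nrm, nrm, nrm, map_mul, Nat.cast_mul, Real.mul_rpow (Nat.cast_nonneg _) (Nat.cast_nonneg _)]

theorem nrm_le_one {s : ℝ} (hs : 0 ≤ s) (I : Ideal (𝓞 F)) : nrm F s I ≤ 1 := by
  rw [nrm]
  by_cases h0 : Ideal.absNorm I = 0
  · rw [h0, Nat.cast_zero]
    rcases eq_or_ne s 0 with rfl | hs0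
    · simp
    · rw [Real.zero_rpow (neg_ne_zero.mpr hs0)]; exact zero_le_one
  · have h1 : (1 : ℝ) ≤ (Ideal.absNorm I : ℝ) := by
      exact_mod_cast Nat.one_le_iff_ne_zero.mpr h0
    exact Real.rpow_le_one_of_one_le_of_nonpos h1 (by linarith)

/-- the partial sums of the counting function are `O(n)`. -/
theorem tendsto_sum_cnt :
    ∃ l : ℝ, Tendsto (fun n : ℕ => (∑ k ∈ Finset.Icc 1 n, (cnt F k : ℝ)) / n) atTop (𝓝 l) := by
  refine ⟨_, ((Ideal.tendsto_norm_le_div_atTop₀ F).comp tendsto_natCast_atTop_atTop).congr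
    fun n => ?_⟩
  simp only [Function.comp_apply, Nat.cast_le, ← Nat.cast_sum, cnt]
  congr
  rw [← add_left_inj 1, ← Ideal.card_norm_le_eq_card_norm_le_add_one,
    show Finset.Icc 1 n = Finset.Ioc 0 n from Finset.Icc_succ_left_eq_Ioc _ _,
    show 1 = Nat.card {I : Ideal (𝓞 F) // Ideal.absNorm I = 0} by
      simp [Ideal.absNorm_eq_zero_iff],
    Finset.sum_Ioc_add_eq_sum_Icc (n.zero_le),
    ← Finset.card_preimage_eq_sum_card_image_eq
      (fun k _ ↦ Ideal.finite_setOfPred_absNorm_eq k)]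
  simp [Set.coe_eq_subtype]

theorem lseriesSummable_cnt {s : ℝ} (hs : 1 < s) :
    LSeriesSummable (fun n => ((cnt F n : ℝ) : ℂ)) (s : ℂ) := by
  obtain ⟨l, hl⟩ := tendsto_sum_cnt F
  refine LSeriesSummable_of_sum_norm_bigO_and_nonneg (r := 1) ?_ (fun n => Nat.cast_nonneg _)
    zero_le_one (by simpa using hs)
  have h1 : (fun n : ℕ => ∑ k ∈ Finset.Icc 1 n, (cnt F k : ℝ)) =O[atTop]
      fun n : ℕ => (n : ℝ) := by
    refine Asymptotics.isBigO_of_div_tendsto_nhds ?_ l hl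
    filter_upwards [eventually_gt_atTop 0] with n hn h0
    exact absurd h0 (by positivity)
  simpa using h1

/-- summability of `cnt n * n^(-s)`. -/
theorem summable_cnt_mul {s : ℝ} (hs : 1 < s) :
    Summable (fun n : ℕ => (cnt F n : ℝ) * (n : ℝ) ^ (-s)) := by
  have h := (lseriesSummable_cnt F hs).norm
  refine h.congr fun n => ?_
  rw [LSeries.norm_term_eq]
  by_cases hn : n = 0
  · subst hn
    simp [Real.zero_rpow (neg_ne_zero.mpr (by linarith : s ≠ 0))]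
  · rw [if_neg hn, Complex.ofReal_re, Real.rpow_neg (Nat.cast_nonneg _), Complex.norm_real,
      Real.norm_of_nonneg (Nat.cast_nonneg _), div_eq_mul_inv]

/-- the fibration of the ideals by their norm. -/
def fibEquiv : (Σ n : ℕ, {I : Ideal (𝓞 F) // Ideal.absNorm I = n}) ≃ Ideal (𝓞 F) :=
  Equiv.sigmaFiberEquiv (fun I : Ideal (𝓞 F) => Ideal.absNorm I)

theorem nrm_fibEquiv (s : ℝ) (p : Σ n : ℕ, {I : Ideal (𝓞 F) // Ideal.absNorm I = n}) :
    nrm F s (fibEquiv F p) = (p.1 : ℝ) ^ (-s) := by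
  obtain ⟨n, I, hI⟩ := p
  change ((Ideal.absNorm I : ℕ) : ℝ) ^ (-s) = (n : ℝ) ^ (-s)
  rw [hI]

/-- **summability of `N(I)^(-s)` over the ideals, `s > 1`.** -/
theorem summable_nrm {s : ℝ} (hs : 1 < s) : Summable (fun I : Ideal (𝓞 F) => nrm F s I) := by
  rw [← (fibEquiv F).summable_iff]
  change Summable (fun p : Σ n : ℕ, {I : Ideal (𝓞 F) // Ideal.absNorm I = n} =>
    nrm F s (fibEquiv F p))
  rw [summable_sigma_of_nonneg (fun p => nrm_nonneg F s _)]
  refine ⟨fun n => Summable.of_finite, ?_⟩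
  refine (summable_cnt_mul F hs).congr fun n => ?_
  rw [tsum_fintype]
  rw [Finset.sum_congr rfl (fun I _ => nrm_fibEquiv F s ⟨n, I⟩)]
  simp only [Finset.sum_const, Finset.card_univ, nsmul_eq_mul, cnt, Nat.card_eq_fintype_card]

theorem norm_mul_nrm_le {φ : Ideal (𝓞 F) → ℂ} (hφ : ∀ I, ‖φ I‖ ≤ 1) (s : ℝ) (I : Ideal (𝓞 F)) :
    ‖φ I * ((nrm F s I : ℝ) : ℂ)‖ ≤ nrm F s I := by
  rw [norm_mul, Complex.norm_real, Real.norm_of_nonneg (nrm_nonneg F s I)]
  exact mul_le_of_le_one_left (nrm_nonneg F s I) (hφ I)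

theorem summable_norm_mul_nrm {φ : Ideal (𝓞 F) → ℂ} (hφ : ∀ I, ‖φ I‖ ≤ 1) {s : ℝ}
    (hs : 1 < s) : Summable (fun I : Ideal (𝓞 F) => ‖φ I * ((nrm F s I : ℝ) : ℂ)‖) :=
  Summable.of_nonneg_of_le (fun _ => norm_nonneg _) (norm_mul_nrm_le F hφ s) (summable_nrm F hs)

/-- the coefficient function of the `L`-series attached to `φ`. -/
def coeffFun (φ : Ideal (𝓞 F) → ℂ) (n : ℕ) : ℂ :=
  ∑ᶠ I ∈ {I : Ideal (𝓞 F) | Ideal.absNorm I = n}, φ I

theorem coeffFun_eq_sum (φ : Ideal (𝓞 F) → ℂ) (n : ℕ) :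
    coeffFun F φ n = ∑ I : {I : Ideal (𝓞 F) // Ideal.absNorm I = n}, φ I.1 := by
  rw [coeffFun, finsum_mem_eq_finite_toFinset_sum _ (Ideal.finite_setOfPred_absNorm_eq n)]
  exact Finset.sum_subtype (p := fun I : Ideal (𝓞 F) => Ideal.absNorm I = n) _
    (fun I => by simp) φ

theorem term_coeffFun (φ : Ideal (𝓞 F) → ℂ) {s : ℝ} (hs : 0 < s) (n : ℕ) :
    LSeries.term (coeffFun F φ) (s : ℂ) n =
      ∑' I : {I : Ideal (𝓞 F) // Ideal.absNorm I = n}, φ I.1 * ((nrm F s I.1 : ℝ) : ℂ) := by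
  rw [tsum_fintype, LSeries.term_def]
  by_cases hn : n = 0
  · subst hn
    rw [if_pos rfl]
    symm
    refine Finset.sum_eq_zero fun I _ => ?_
    have hI : I.1 = ⊥ := Ideal.absNorm_eq_zero_iff.mp I.2
    rw [hI, nrm_bot F hs.ne', Complex.ofReal_zero, mul_zero]
  · rw [if_neg hn, coeffFun_eq_sum, div_eq_mul_inv, Finset.sum_mul]
    refine Finset.sum_congr rfl fun I _ => ?_
    congr 1
    rw [nrm, I.2, Real.rpow_neg (Nat.cast_nonneg _), Complex.ofReal_inv,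
      Complex.ofReal_cpow (Nat.cast_nonneg _), Complex.ofReal_natCast]

/-- **[FIB]** -/
theorem stFIB : StFIB F := by
  intro φ hφ s hs
  have hs0 : (0 : ℝ) < s := by linarith
  have hsum := summable_norm_mul_nrm F hφ hs
  have hsum' : Summable (fun I : Ideal (𝓞 F) => φ I * ((nrm F s I : ℝ) : ℂ)) := hsum.of_norm
  have hsig : Summable (fun p : Σ n : ℕ, {I : Ideal (𝓞 F) // Ideal.absNorm I = n} =>
      φ (fibEquiv F p) * ((nrm F s (fibEquiv F p) : ℝ) : ℂ)) :=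
    (fibEquiv F).summable_iff.mpr hsum'
  have hterm : ∀ n, LSeries.term (coeffFun F φ) (s : ℂ) n =
      ∑' I : {I : Ideal (𝓞 F) // Ideal.absNorm I = n},
        φ (fibEquiv F ⟨n, I⟩) * ((nrm F s (fibEquiv F ⟨n, I⟩) : ℝ) : ℂ) :=
    fun n => term_coeffFun F φ hs0 n
  refine ⟨hsum, ?_, ?_⟩
  · change Summable (LSeries.term (coeffFun F φ) (s : ℂ))
    exact hsig.sigma.congr fun n => (hterm n).symm
  · change ∑' n, LSeries.term (coeffFun F φ) (s : ℂ) n = _
    rw [← (fibEquiv F).tsum_eq, hsig.tsum_sigma]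
    exact tsum_congr hterm

theorem coeffFun_one (n : ℕ) : coeffFun F (fun _ => (1 : ℂ)) n = ((cnt F n : ℕ) : ℂ) := by
  rw [coeffFun_eq_sum, Finset.sum_const, Finset.card_univ, nsmul_eq_mul, mul_one, cnt,
    Nat.card_eq_fintype_card]

/-- **[ZS]** -/
theorem stZS : StZS F := by
  intro s hs
  refine ⟨summable_nrm F hs, ?_⟩
  obtain ⟨-, -, h⟩ := stFIB F (fun _ => (1 : ℂ)) (fun _ => by simp) s hs
  have e : (fun n => ∑ᶠ I ∈ {I : Ideal (𝓞 F) | Ideal.absNorm I = n}, (1 : ℂ)) =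
      fun n => ((Nat.card {I : Ideal (𝓞 F) // Ideal.absNorm I = n} : ℕ) : ℂ) :=
    funext fun n => coeffFun_one F n
  rw [e] at h
  rw [dedekindZeta, h, zetaR, Complex.ofReal_tsum]
  exact tsum_congr fun I => by rw [one_mul]

/-- **[ZB]** -/
theorem stZB : StZB F := by
  have hres := NumberField.tendsto_sub_one_mul_dedekindZeta_nhdsGT F
  have hpos := NumberField.dedekindZeta_residue_pos F
  set ρ := NumberField.dedekindZeta_residue F with hρ
  have hre : Tendsto (fun s : ℝ => (s - 1) * zetaR F s) (𝓝[>] (1 : ℝ)) (𝓝 ρ) := by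
    have h1 : Tendsto (fun s : ℝ => (((s : ℂ) - 1) * dedekindZeta F (s : ℂ)).re) (𝓝[>] (1 : ℝ))
        (𝓝 ((ρ : ℂ)).re) :=
      (Complex.continuous_re.tendsto _).comp hres
    rw [Complex.ofReal_re] at h1
    refine h1.congr' ?_
    filter_upwards [self_mem_nhdsWithin] with s hs
    rw [(stZS F s hs).2, ← Complex.ofReal_one, ← Complex.ofReal_sub, ← Complex.ofReal_mul,
      Complex.ofReal_re]
  refine ⟨ρ / 2, ρ + 1, by positivity, ?_⟩
  have hlow : ∀ᶠ s in 𝓝[>] (1 : ℝ), ρ / 2 < (s - 1) * zetaR F s :=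
    hre.eventually (lt_mem_nhds (by linarith))
  have hup : ∀ᶠ s in 𝓝[>] (1 : ℝ), (s - 1) * zetaR F s < ρ + 1 :=
    hre.eventually (gt_mem_nhds (by linarith))
  filter_upwards [hlow, hup] with s h1 h2
  exact ⟨h1.le, h2.le⟩

end Fermat.Agent.S14x.LFN.H22
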