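import Fermat.Agent.S14x.LFN.H27_PZ
import Fermat.Agent.S14x.LFN.H22_Zeta
import Fermat.Agent.S14x.LFN.H4_EP
import Fermat.Agent.S14x.LFN.H4_PC

/-!
# S14 / LFN, leaves [PZ-upper] and [PZ-lower], hypothesis-free (helper27)

`H27_PZ` proves the two prime-zeta bounds from the leaves `StZS`, `StZB`, `StEP`, `StPC`; here the
leaves are plugged in (`H22_Zeta`, `H4_EP`, `H4_PC`).
-/

set_option autoImplicit false

open NumberField IsDedekindDomain

namespace Fermat.Agent.S14x.LFN.H27

open Fermat.Agent.S14x.LFN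

variable (F : Type*) [Field F] [NumberField F]

/-- **[PZ-upper]** `∑_{P ∈ T} N(P)^(-s) ≤ log (1/(s-1)) + C`. -/
theorem stPZupper : StPZupper F :=
  stPZupper_of F (H22.stZS F) (H22.stZB F) (H4.stEP (𝓞 F))

/-- **[PZ-lower]** `log (1/(s-1)) - C ≤ ∑` over a finite set of degree-one primes. -/
theorem stPZlower : StPZlower F :=
  stPZlower_of F (H22.stZS F) (H22.stZB F) (H4.stEP (𝓞 F)) (H4.stPC F)

end Fermat.Agent.S14x.LFN.H27
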