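import Fermat.Agent.S14x.LFN.H2_Density
import Fermat.Agent.S14x.LFN.H4_PC
import Fermat.Agent.S14x.LFN.H6_Ram

/-!
# S14 / LFN (helper2): the density statement (D) = `StDabs`

`stDabs : StDabs` (verbatim `LFN/Defs.lean`, hypothesis-free): in an extension `L/K` of number
fields of degree `≥ 2`, outside any finite set of primes there is a prime of `K` of absolute
degree one with a prime of `L` above it of different norm.  Also the counting form
`exists_degOne_not_split` and the versions with the leaves `StPC`, `StRAM` as hypotheses.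
-/

set_option autoImplicit false

open Filter Topology NumberField Ideal Finset IsDedekindDomain

noncomputable section

namespace Fermat.Agent.S14x.LFN.H2

section

universe u v

variable (K : Type u) (L : Type v) [Field K] [NumberField K] [Field L] [NumberField L]
  [Algebra K L]

/-- The analytic core of (D) with the leaf `StPC K` as hypothesis. -/
theorem density_of_pc (hPC : StPC K) (hn : 2 ≤ Module.finrank K L)
    (T : Finset (HeightOneSpectrum (𝓞 K)))
    (H : ∀ P : HeightOneSpectrum (𝓞 K), P ∉ T → (absNorm P.asIdeal).Prime →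
      ∃ S : Finset (HeightOneSpectrum (𝓞 L)), S.card = Module.finrank K L ∧
        ∀ Q ∈ S, Q.asIdeal.under (𝓞 K) = P.asIdeal ∧
          absNorm Q.asIdeal = absNorm P.asIdeal) : False := by
  obtain ⟨C, hC⟩ := hPC
  exact density_core K L C (fun s hs F hF => (hC s hs F).1 hF) (fun s hs F => (hC s hs F).2)
    hn T H

/-- **(D), counting form**: outside any finite set there is a prime `P` of `K` of absolute
degree one which does NOT have `[L : K]` primes of `L` above it with the same norm. -/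
theorem exists_degOne_not_split_of (hPC : StPC K) (hn : 2 ≤ Module.finrank K L)
    (T : Finset (HeightOneSpectrum (𝓞 K))) :
    ∃ P : HeightOneSpectrum (𝓞 K), P ∉ T ∧ (absNorm P.asIdeal).Prime ∧
      ¬ (Module.finrank K L ≤ Nat.card {Q : HeightOneSpectrum (𝓞 L) //
        Q.asIdeal.LiesOver P.asIdeal ∧ absNorm Q.asIdeal = absNorm P.asIdeal}) := by
  classical
  by_contra hcon
  push Not at hcon
  refine density_of_pc K L hPC hn T fun P hPT hPp => ?_
  have hcard : Module.finrank K L ≤ Nat.card ↥{Q : HeightOneSpectrum (𝓞 L) |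
      Q.asIdeal.LiesOver P.asIdeal ∧ absNorm Q.asIdeal = absNorm P.asIdeal} := hcon P hPT hPp
  have hfin : {Q : HeightOneSpectrum (𝓞 L) |
      Q.asIdeal.LiesOver P.asIdeal ∧ absNorm Q.asIdeal = absNorm P.asIdeal}.Finite :=
    Set.finite_coe_iff.mp (Nat.finite_of_card_ne_zero (by omega))
  have hc2 : Module.finrank K L ≤ hfin.toFinset.card := by
    rw [← Set.ncard_eq_toFinset_card _ hfin, ← Nat.card_coe_set_eq]
    exact hcard
  obtain ⟨S, hS, hScard⟩ := Finset.exists_subset_card_eq hc2
  refine ⟨S, hScard, fun Q hQ => ?_⟩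
  have hQ' := hS hQ
  rw [Set.Finite.mem_toFinset] at hQ'
  exact ⟨hQ'.1.over.symm, hQ'.2⟩

/-- **(D), abstract form for a given extension**, with the leaves as hypotheses. -/
theorem exists_degOne_ne_of (hPC : StPC K) (hRAM : StRAM K L) (hn : 2 ≤ Module.finrank K L)
    (T : Finset (HeightOneSpectrum (𝓞 K))) :
    ∃ P : HeightOneSpectrum (𝓞 K), P ∉ T ∧ P ∈ degOne K ∧
      ∃ 𝔓 : HeightOneSpectrum (𝓞 L), 𝔓.asIdeal.under (𝓞 K) = P.asIdeal ∧
        Ideal.absNorm 𝔓.asIdeal ≠ Ideal.absNorm P.asIdeal := by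
  classical
  obtain ⟨T₀, hT₀⟩ := hRAM
  by_contra hcon
  push Not at hcon
  refine density_of_pc K L hPC hn (T ∪ T₀) fun P hPT hPp => ?_
  rw [Finset.mem_union, not_or] at hPT
  have hall : ∀ 𝔓 : HeightOneSpectrum (𝓞 L), 𝔓.asIdeal.under (𝓞 K) = P.asIdeal →
      Ideal.absNorm 𝔓.asIdeal = Ideal.absNorm P.asIdeal := hcon P hPT.1 hPp
  obtain ⟨S, hScard, hS⟩ := hT₀ P hPT.2 hall
  exact ⟨S, hScard, fun Q hQ => ⟨hS Q hQ, hall Q (hS Q hQ)⟩⟩

end

/-- **(D)** from the leaves `StPC`, `StRAM`. -/
theorem stDabs_of (hPC : ∀ (K : Type) [Field K] [NumberField K], StPC K)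
    (hRAM : ∀ (K L : Type) [Field K] [NumberField K] [Field L] [NumberField L] [Algebra K L],
      StRAM K L) : StDabs :=
  fun K L _ _ _ _ _ hn T => exists_degOne_ne_of K L (hPC K) (hRAM K L) hn T

/-- **(D)**, hypothesis-free, verbatim `LFN/Defs.lean`. -/
theorem stDabs : StDabs :=
  stDabs_of (fun K _ _ => H4.stPC K) (fun K L _ _ _ _ _ => H6.stRAM K L)

/-- **(D), counting form**, hypothesis-free. -/
theorem exists_degOne_not_split (K : Type*) (L : Type*) [Field K] [NumberField K] [Field L]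
    [NumberField L] [Algebra K L] (hn : 2 ≤ Module.finrank K L)
    (T : Finset (HeightOneSpectrum (𝓞 K))) :
    ∃ P : HeightOneSpectrum (𝓞 K), P ∉ T ∧ (absNorm P.asIdeal).Prime ∧
      ¬ (Module.finrank K L ≤ Nat.card {Q : HeightOneSpectrum (𝓞 L) //
        Q.asIdeal.LiesOver P.asIdeal ∧ absNorm Q.asIdeal = absNorm P.asIdeal}) :=
  exists_degOne_not_split_of K L (H4.stPC K) hn T

/-- **(D), abstract form**, hypothesis-free, universe polymorphic. -/
theorem exists_degOne_ne (K : Type*) (L : Type*) [Field K] [NumberField K] [Field L]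
    [NumberField L] [Algebra K L] (hn : 2 ≤ Module.finrank K L)
    (T : Finset (HeightOneSpectrum (𝓞 K))) :
    ∃ P : HeightOneSpectrum (𝓞 K), P ∉ T ∧ P ∈ degOne K ∧
      ∃ 𝔓 : HeightOneSpectrum (𝓞 L), 𝔓.asIdeal.under (𝓞 K) = P.asIdeal ∧
        Ideal.absNorm 𝔓.asIdeal ≠ Ideal.absNorm P.asIdeal :=
  exists_degOne_ne_of K L (H4.stPC K) (H6.stRAM K L) hn T

end Fermat.Agent.S14x.LFN.H2
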