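import Fermat.Agent.S14x.LFN.H11_U
import Fermat.Agent.S14x.LFN.H11_AdU
import Fermat.Agent.S14x.LFN.H11_AdD
import Fermat.Agent.S14x.LFN.H22_Zeta
import Fermat.Agent.S14x.LFN.H22_Abel
import Fermat.Agent.S14x.LFN.H7_CH
import Fermat.Agent.S14x.LFN.H4_EP
import Fermat.Agent.S14x.LFN.H4_PC
import Fermat.Agent.S14x.LFN.H27_PZFinal
import Fermat.Agent.S14x.LFN.H6_Nrm
import Fermat.Agent.S14x.LFN.H2_D
import Fermat.Agent.S14x.LFN.H29_Ray

/-!
# S14 / package LFN: final export (helper11)

All leaves of package LFN are plugged in; the deliverables of the package, in the shapes of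
`Asm/Defs.lean`:

* `stUabs : StUabs`, `stDabs' : StDabs` (abstract forms);
* `h11_stU : Asm.StCNT → Asm.StU`       ((U), consumes the deliverable of CNT);
* `h11_stDgen : Asm.StDgen`             ((D), general form);
* `h11_stD p : Asm.StArtinExists → Asm.StD p`   ((D) for the top level).
-/

set_option autoImplicit false

noncomputable section

open NumberField IsDedekindDomain

namespace Fermat.Agent.S14x.LFN.H11

/-- **(U), abstract form**, unconditionally. -/
theorem stUabs : StUabs :=
  stUabs_of (fun F _ _ => H22.stZS F) (fun F _ _ => H22.stZB F) (fun F _ _ => H22.stFIB F)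
    (fun F _ _ => H4.stEP (𝓞 F)) (fun F _ _ => H4.stPC F) (fun F _ _ => H27.stPZlower F)
    (fun K L _ _ _ _ _ => H6.stNRM K L) H22.stAB (fun H _ _ => H7.stCH H)

/-- **(D), abstract form**, unconditionally (helper2). -/
theorem stDabs' : StDabs := H2.stDabs

/-- **(U)** in the shape of `Asm/Defs.lean`, from the deliverable of CNT. -/
theorem h11_stU : Asm.StCNT → Asm.StU := stU H29.stRAY stUabs

/-- **(D), general form**, in the shape of `Asm/Defs.lean`. -/
theorem h11_stDgen : Asm.StDgen := stDgen H2.stDabs

/-- **(D)** for the top level, in the shape of `Asm/Defs.lean`. -/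
theorem h11_stD (p : ℕ) [Fact p.Prime] : Asm.StArtinExists → Asm.StD p := stD p H2.stDabs

end Fermat.Agent.S14x.LFN.H11
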