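import Fermat.Agent.S14x.LFN.H11_Final
import Fermat.Agent.S14x.Cnt.H5_StCNT

/-!
# S14 / package LFN: final export, with the deliverable of CNT plugged in (helper11)

* `h11_stU_final : Asm.StU`  — the universal norm inequality (U), unconditionally
  (LFN: helper22, helper4, helper6, helper7, helper27, helper29, helper2, helper11;
  CNT: helper23, helper14, helper13, helper5).
-/

set_option autoImplicit false

noncomputable section

namespace Fermat.Agent.S14x.LFN.H11

/-- **(U)**, the universal norm inequality, unconditionally, in the shape of `Asm/Defs.lean`. -/
theorem h11_stU_final : Asm.StU := h11_stU Fermat.Agent.S14x.Cnt.H5.stCNT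

end Fermat.Agent.S14x.LFN.H11
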