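import Mathlib
import Fermat.Agent.S14x.LFN.Defs

/-!
# S14 / LFN (helper1): the assembly of (U), the universal norm inequality, abstract form

`stUabs_of : (leaves) → StUabs`.

For a character `χ` of the finite group `H` put `L(s, χ) = ∑_I χ(cl I) N(I)^(-s)`.
* `χ ≠ 1`: bounded on `(1, 2]` (orthogonality + equidistribution + Abel summation);
* `χ = 1`: `≤ ζ_E(s) ≤ C / (s - 1)`;
* Euler products + AM-GM: `∏_χ ‖L(s, χ)‖ ≥ exp (h ∑_{cl P = 1} N(P)^(-s) - C)`;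
* degree-one primes of `M` have norms of class `1` (or `0`): `∑_{cl P = 1} ≥ (1/n) log (1/(s-1)) - C`.
Hence `(h / n - 1) log (1 / (s - 1))` is bounded as `s → 1+`, so `h ≤ n`.
-/

set_option autoImplicit false
set_option linter.unusedSectionVars false
set_option linter.style.haveILetI false

noncomputable section

open NumberField IsDedekindDomain Filter Topology

namespace Fermat.Agent.S14x.LFN.H1

/-! ### The weights -/

section Weights

variable (E : Type) [Field E] [NumberField E]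

theorem nrm_nonneg (s : ℝ) (I : Ideal (𝓞 E)) : 0 ≤ nrm E s I :=
  Real.rpow_nonneg (Nat.cast_nonneg _) _

/-- `I ↦ N(I)^(-s)` as a monoid-with-zero homomorphism (`s ≠ 0`). -/
def nrmHom (s : ℝ) (hs : s ≠ 0) : Ideal (𝓞 E) →*₀ ℝ where
  toFun I := nrm E s I
  map_zero' := by
    show ((Ideal.absNorm (0 : Ideal (𝓞 E)) : ℕ) : ℝ) ^ (-s) = 0
    rw [map_zero, Nat.cast_zero, Real.zero_rpow (neg_ne_zero.mpr hs)]
  map_one' := by
    show ((Ideal.absNorm (1 : Ideal (𝓞 E)) : ℕ) : ℝ) ^ (-s) = 1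
    rw [map_one, Nat.cast_one, Real.one_rpow]
  map_mul' I J := by
    show ((Ideal.absNorm (I * J) : ℕ) : ℝ) ^ (-s) = _
    rw [map_mul, Nat.cast_mul, Real.mul_rpow (Nat.cast_nonneg _) (Nat.cast_nonneg _)]
    rfl

@[simp] theorem nrmHom_apply (s : ℝ) (hs : s ≠ 0) (I : Ideal (𝓞 E)) :
    nrmHom E s hs I = nrm E s I := rfl

/-- For a prime `P` and `s > 0`: `N(P)^(-s) < 1`. -/
theorem nrm_prime_lt_one (s : ℝ) (hs : 0 < s) (P : HeightOneSpectrum (𝓞 E)) :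
    nrm E s P.asIdeal < 1 := by
  have h2 : 2 ≤ Ideal.absNorm P.asIdeal := by
    have h0 : Ideal.absNorm P.asIdeal ≠ 0 := by
      rw [Ne, Ideal.absNorm_eq_zero_iff]
      exact P.ne_bot
    have h1 : Ideal.absNorm P.asIdeal ≠ 1 := by
      rw [Ne, Ideal.absNorm_eq_one_iff]
      exact P.isPrime.ne_top
    omega
  have h2' : (1 : ℝ) < (Ideal.absNorm P.asIdeal : ℝ) := by exact_mod_cast h2
  unfold nrm
  exact Real.rpow_lt_one_of_one_lt_of_neg h2' (neg_lt_zero.mpr hs)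

end Weights

/-! ### Characters -/

section Characters

variable {E : Type} [Field E] [NumberField E] {H : Type} [CommGroup H] [Finite H]

/-- A character of `H`, extended by zero to `WithZero H`. -/
def chi0 (χ : H →* ℂˣ) : WithZero H →*₀ ℂ := WithZero.lift' ((Units.coeHom ℂ).comp χ)

@[simp] theorem chi0_coe (χ : H →* ℂˣ) (c : H) : chi0 χ (c : WithZero H) = ((χ c : ℂˣ) : ℂ) := by
  simp [chi0]

theorem norm_chi (χ : H →* ℂˣ) (c : H) : ‖((χ c : ℂˣ) : ℂ)‖ = 1 := by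
  have hpos : 0 < Nat.card H := Nat.card_pos
  have h1 : ((χ c : ℂˣ) : ℂ) ^ Nat.card H = 1 := by
    rw [← Units.val_pow_eq_pow_val, ← map_pow, pow_card_eq_one', map_one, Units.val_one]
  have h2 : ‖((χ c : ℂˣ) : ℂ)‖ ^ Nat.card H = 1 := by rw [← norm_pow, h1, norm_one]
  exact (pow_eq_one_iff_of_nonneg (norm_nonneg _) hpos.ne').mp h2

theorem norm_chi0_le (χ : H →* ℂˣ) (x : WithZero H) : ‖chi0 χ x‖ ≤ 1 := by
  induction x with
  | zero => simp
  | coe c => rw [chi0_coe, norm_chi]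

variable (cl : Ideal (𝓞 E) →*₀ WithZero H)

/-- `I ↦ χ (cl I)`. -/
def phi (χ : H →* ℂˣ) : Ideal (𝓞 E) →*₀ ℂ := (chi0 χ).comp cl

theorem phi_apply (χ : H →* ℂˣ) (I : Ideal (𝓞 E)) : phi cl χ I = chi0 χ (cl I) := rfl

theorem norm_phi_le (χ : H →* ℂˣ) (I : Ideal (𝓞 E)) : ‖phi cl χ I‖ ≤ 1 := norm_chi0_le χ _

/-- The weight `I ↦ χ (cl I) N(I)^(-s)`. -/
def wHom (χ : H →* ℂˣ) (s : ℝ) (hs : s ≠ 0) : Ideal (𝓞 E) →*₀ ℂ :=
  phi cl χ * (Complex.ofRealHom : ℝ →+* ℂ).toMonoidWithZeroHom.comp (nrmHom E s hs)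

theorem wHom_apply (χ : H →* ℂˣ) (s : ℝ) (hs : s ≠ 0) (I : Ideal (𝓞 E)) :
    wHom cl χ s hs I = phi cl χ I * ((nrm E s I : ℝ) : ℂ) := rfl

/-- The `L`-function of `χ`. -/
def Lfun (χ : H →* ℂˣ) (s : ℝ) : ℂ := ∑' I : Ideal (𝓞 E), phi cl χ I * ((nrm E s I : ℝ) : ℂ)

end Characters

/-! ### Partial sums of the coefficients -/

section PartialSums

variable {E : Type} [Field E] [NumberField E] {H : Type} [CommGroup H] [Fintype H]
variable (cl : Ideal (𝓞 E) →*₀ WithZero H)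

/-- The coefficients of the `L`-series of `χ`. -/
def coeffs (χ : H →* ℂˣ) : ℕ → ℂ :=
  fun n => ∑ᶠ I ∈ {I : Ideal (𝓞 E) | Ideal.absNorm I = n}, phi cl χ I

open scoped Classical in
theorem phi_eq_sum (χ : H →* ℂˣ) (I : Ideal (𝓞 E)) :
    phi cl χ I = ∑ c : H, if cl I = (c : WithZero H) then ((χ c : ℂˣ) : ℂ) else 0 := by
  rw [phi_apply]
  generalize cl I = x
  induction x with
  | zero =>
    rw [map_zero]
    symm
    apply Finset.sum_eq_zero
    intro c _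
    rw [if_neg]
    exact (WithZero.coe_ne_zero).symm
  | coe c₀ =>
    rw [chi0_coe]
    symm
    rw [Finset.sum_eq_single c₀]
    · rw [if_pos rfl]
    · intro c _ hc
      rw [if_neg]
      intro h
      exact hc (WithZero.coe_injective h).symm
    · intro h
      exact absurd (Finset.mem_univ _) h

theorem sum_coeffs (χ : H →* ℂˣ) (n : ℕ) :
    ∑ k ∈ Finset.Icc 1 n, coeffs cl χ k =
      ∑ c : H, ((χ c : ℂˣ) : ℂ) *
        (Nat.card {I : Ideal (𝓞 E) // cl I = (c : WithZero H) ∧ Ideal.absNorm I ≤ n} : ℂ) := by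
  classical
  have hU : {I : Ideal (𝓞 E) | Ideal.absNorm I ≤ n}.Finite := Ideal.finite_setOfPred_absNorm_le n
  set U : Finset (Ideal (𝓞 E)) := hU.toFinset.filter (fun I => 1 ≤ Ideal.absNorm I) with hUdef
  have hmemU : ∀ I, I ∈ U ↔ 1 ≤ Ideal.absNorm I ∧ Ideal.absNorm I ≤ n := by
    intro I
    rw [hUdef, Finset.mem_filter, Set.Finite.mem_toFinset, Set.mem_ofPred_eq]
    tauto
  -- Step 1
  have h1 : ∀ k ∈ Finset.Icc 1 n, coeffs cl χ k =
      ∑ I ∈ U with Ideal.absNorm I = k, phi cl χ I := by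
    intro k hk
    rw [Finset.mem_Icc] at hk
    have hset : {I : Ideal (𝓞 E) | Ideal.absNorm I = k} =
        ((U.filter (fun I => Ideal.absNorm I = k) : Finset (Ideal (𝓞 E))) :
          Set (Ideal (𝓞 E))) := by
      ext I
      rw [Set.mem_ofPred_eq, Finset.mem_coe, Finset.mem_filter, hmemU]
      constructor
      · intro h
        exact ⟨⟨h ▸ hk.1, h ▸ hk.2⟩, h⟩
      · intro h
        exact h.2
    unfold coeffs
    rw [hset, finsum_mem_coe_finset]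
  rw [Finset.sum_congr rfl h1]
  -- Step 2
  rw [Finset.sum_fiberwise_of_maps_to (s := U) (t := Finset.Icc 1 n)
    (g := fun I => Ideal.absNorm I) (fun I hI => Finset.mem_Icc.mpr ((hmemU I).mp hI))]
  -- Step 3
  rw [Finset.sum_congr rfl (fun I _ => phi_eq_sum cl χ I), Finset.sum_comm]
  refine Finset.sum_congr rfl fun c _ => ?_
  rw [← Finset.sum_filter, Finset.sum_const, nsmul_eq_mul, mul_comm]
  congr 2
  symm
  apply Nat.subtype_card
  intro I
  rw [Finset.mem_filter, hmemU]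
  constructor
  · intro h
    exact ⟨h.2, h.1.2⟩
  · intro h
    refine ⟨⟨?_, h.2⟩, h.1⟩
    have hI : I ≠ ⊥ := by
      rintro rfl
      have h0 : cl (⊥ : Ideal (𝓞 E)) = 0 := map_zero cl
      rw [h0] at h
      exact WithZero.coe_ne_zero h.1.symm
    have : Ideal.absNorm I ≠ 0 := by
      rw [Ne, Ideal.absNorm_eq_zero_iff]
      exact hI
    omega

theorem norm_sum_coeffs_le (χ : H →* ℂˣ) (horth : ∑ c : H, ((χ c : ℂˣ) : ℂ) = 0)
    (κ C δ : ℝ)
    (hcount : ∀ (c : H) (n : ℕ), 1 ≤ n →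
      |(Nat.card {I : Ideal (𝓞 E) // cl I = (c : WithZero H) ∧ Ideal.absNorm I ≤ n} : ℝ)
        - κ * n| ≤ C * (n : ℝ) ^ (1 - δ))
    (n : ℕ) (hn : 1 ≤ n) :
    ‖∑ k ∈ Finset.Icc 1 n, coeffs cl χ k‖ ≤ (Fintype.card H * C) * (n : ℝ) ^ (1 - δ) := by
  rw [sum_coeffs]
  have h1 : ∑ c : H, ((χ c : ℂˣ) : ℂ) *
        (Nat.card {I : Ideal (𝓞 E) // cl I = (c : WithZero H) ∧ Ideal.absNorm I ≤ n} : ℂ) =
      ∑ c : H, ((χ c : ℂˣ) : ℂ) *
        (((Nat.card {I : Ideal (𝓞 E) // cl I = (c : WithZero H) ∧ Ideal.absNorm I ≤ n} : ℝ)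
          - κ * n : ℝ) : ℂ) := by
    have : ∀ c : H, ((χ c : ℂˣ) : ℂ) *
        (((Nat.card {I : Ideal (𝓞 E) // cl I = (c : WithZero H) ∧ Ideal.absNorm I ≤ n} : ℝ)
          - κ * n : ℝ) : ℂ) = ((χ c : ℂˣ) : ℂ) *
        (Nat.card {I : Ideal (𝓞 E) // cl I = (c : WithZero H) ∧ Ideal.absNorm I ≤ n} : ℂ) -
        ((κ * n : ℝ) : ℂ) * ((χ c : ℂˣ) : ℂ) := by
      intro c
      push_cast
      ring
    rw [Finset.sum_congr rfl (fun c _ => this c), Finset.sum_sub_distrib, ← Finset.mul_sum,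
      horth, mul_zero, sub_zero]
  rw [h1]
  calc ‖∑ c : H, ((χ c : ℂˣ) : ℂ) *
        (((Nat.card {I : Ideal (𝓞 E) // cl I = (c : WithZero H) ∧ Ideal.absNorm I ≤ n} : ℝ)
          - κ * n : ℝ) : ℂ)‖
      ≤ ∑ c : H, ‖((χ c : ℂˣ) : ℂ) *
        (((Nat.card {I : Ideal (𝓞 E) // cl I = (c : WithZero H) ∧ Ideal.absNorm I ≤ n} : ℝ)
          - κ * n : ℝ) : ℂ)‖ := norm_sum_le _ _
    _ ≤ ∑ _c : H, C * (n : ℝ) ^ (1 - δ) := by
        refine Finset.sum_le_sum fun c _ => ?_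
        rw [norm_mul, norm_chi, one_mul, Complex.norm_real, Real.norm_eq_abs]
        exact hcount c n hn
    _ = (Fintype.card H * C) * (n : ℝ) ^ (1 - δ) := by
        rw [Finset.sum_const, Finset.card_univ, nsmul_eq_mul]
        ring

end PartialSums

/-! ### Bounds for the `L`-functions -/

section Bounds

variable {E : Type} [Field E] [NumberField E] {H : Type} [CommGroup H] [Fintype H]
variable (cl : Ideal (𝓞 E) →*₀ WithZero H)

theorem summable_norm_w (hFIB : StFIB E) (χ : H →* ℂˣ) (s : ℝ) (hs : 1 < s) :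
    Summable (fun I : Ideal (𝓞 E) => ‖phi cl χ I * ((nrm E s I : ℝ) : ℂ)‖) :=
  (hFIB (fun I => phi cl χ I) (norm_phi_le cl χ) s hs).1

theorem LSeries_coeffs (hFIB : StFIB E) (χ : H →* ℂˣ) (s : ℝ) (hs : 1 < s) :
    LSeriesSummable (coeffs cl χ) (s : ℂ) ∧ LSeries (coeffs cl χ) (s : ℂ) = Lfun cl χ s :=
  (hFIB (fun I => phi cl χ I) (norm_phi_le cl χ) s hs).2

/-- `χ ≠ 1` (in the form: `∑_c χ c = 0`): `L(s, χ)` is bounded on `(1, 2]`. -/
theorem Lfun_bounded (hFIB : StFIB E) (hAB : StAB) (χ : H →* ℂˣ)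
    (horth : ∑ c : H, ((χ c : ℂˣ) : ℂ) = 0) (κ C δ : ℝ) (hδ : 0 < δ)
    (hcount : ∀ (c : H) (n : ℕ), 1 ≤ n →
      |(Nat.card {I : Ideal (𝓞 E) // cl I = (c : WithZero H) ∧ Ideal.absNorm I ≤ n} : ℝ)
        - κ * n| ≤ C * (n : ℝ) ^ (1 - δ)) :
    ∃ B : ℝ, ∀ s : ℝ, 1 < s → s ≤ 2 → ‖Lfun cl χ s‖ ≤ B := by
  have hδ' : 0 < min δ 1 := lt_min hδ one_pos
  have hC0 : 0 ≤ C := by
    have h1 := hcount 1 1 le_rfl
    have h2 := (abs_nonneg _).trans h1
    simpa using h2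
  obtain ⟨B, hB⟩ := hAB (coeffs cl χ) (Fintype.card H * C) (min δ 1) hδ' (min_le_right _ _)
    (fun n hn => by
      refine (norm_sum_coeffs_le cl χ horth κ C δ hcount n hn).trans ?_
      have hn1 : (1 : ℝ) ≤ (n : ℝ) := by exact_mod_cast hn
      have hpow : (n : ℝ) ^ (1 - δ) ≤ (n : ℝ) ^ (1 - min δ 1) :=
        Real.rpow_le_rpow_of_exponent_le hn1 (by linarith [min_le_left δ 1])
      exact mul_le_mul_of_nonneg_left hpow (mul_nonneg (Nat.cast_nonneg _) hC0))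
    (fun s hs => (LSeries_coeffs cl hFIB χ s hs).1)
  refine ⟨B, fun s hs hs2 => ?_⟩
  rw [← (LSeries_coeffs cl hFIB χ s hs).2]
  exact hB s hs hs2

/-- `‖L(s, χ)‖ ≤ ζ_E(s)`. -/
theorem norm_Lfun_le_zetaR (hFIB : StFIB E) (hZS : StZS E) (χ : H →* ℂˣ) (s : ℝ) (hs : 1 < s) :
    ‖Lfun cl χ s‖ ≤ zetaR E s := by
  have h1 := summable_norm_w cl hFIB χ s hs
  have h2 : Summable (fun I : Ideal (𝓞 E) => nrm E s I) := (hZS s hs).1
  refine (norm_tsum_le_tsum_norm h1).trans ?_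
  refine h1.tsum_le_tsum (fun I => ?_) h2
  rw [norm_mul, Complex.norm_real, Real.norm_eq_abs, abs_of_nonneg (nrm_nonneg E s I)]
  calc ‖phi cl χ I‖ * nrm E s I ≤ 1 * nrm E s I :=
        mul_le_mul_of_nonneg_right (norm_phi_le cl χ I) (nrm_nonneg E s I)
    _ = nrm E s I := one_mul _

end Bounds

/-! ### The Euler product lower bound -/

section Euler

variable {E : Type} [Field E] [NumberField E] {H : Type} [CommGroup H] [Fintype H]
  [Fintype (H →* ℂˣ)]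
variable (cl : Ideal (𝓞 E) →*₀ WithZero H)

theorem exp_le_inv_one_sub {x : ℝ} (hx1 : x < 1) : Real.exp x ≤ (1 - x)⁻¹ := by
  have h1 : 0 < 1 - x := by linarith
  have h2 : 1 - x ≤ Real.exp (-x) := Real.one_sub_le_exp_neg x
  rw [Real.exp_neg] at h2
  have h3 : 0 < Real.exp x := Real.exp_pos x
  rw [le_inv_comm₀ h3 h1]
  exact h2

open scoped Classical in
/-- The local factor at a prime: `∏_χ ‖1 - χ(cl P) x‖⁻¹ ≥ exp (h [cl P = 1] x - (h/2) x²)`. -/
theorem local_ge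
    (hcardX : Fintype.card (H →* ℂˣ) = Fintype.card H)
    (hamgm : ∀ g : H, g ≠ 1 → ∀ x : ℝ, 0 ≤ x →
      ∏ χ : H →* ℂˣ, ‖(1 : ℂ) - ((χ g : ℂˣ) : ℂ) * (x : ℂ)‖ ≤
        (1 + x ^ 2) ^ ((Fintype.card H : ℝ) / 2))
    (y : WithZero H) (x : ℝ) (hx0 : 0 ≤ x) (hx1 : x < 1) :
    Real.exp ((if y = 1 then (Fintype.card H : ℝ) * x else 0)
        - (Fintype.card H : ℝ) / 2 * x ^ 2) ≤
      ∏ χ : H →* ℂˣ, ‖(1 : ℂ) - chi0 χ y * (x : ℂ)‖⁻¹ := by
  have hh : (0 : ℝ) ≤ (Fintype.card H : ℝ) := Nat.cast_nonneg _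
  have hsq : 0 ≤ (Fintype.card H : ℝ) / 2 * x ^ 2 := by positivity
  induction y with
  | zero =>
    have h1 : ∀ χ : H →* ℂˣ, ‖(1 : ℂ) - chi0 χ 0 * (x : ℂ)‖⁻¹ = 1 := by
      intro χ
      rw [map_zero, zero_mul, sub_zero, norm_one, inv_one]
    rw [Finset.prod_congr rfl (fun χ _ => h1 χ), Finset.prod_const_one, if_neg zero_ne_one]
    rw [zero_sub, ← Real.exp_zero]
    exact Real.exp_le_exp.mpr (by linarith)
  | coe g =>
    by_cases hg : g = 1
    · subst hg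
      have h1 : ∀ χ : H →* ℂˣ, ‖(1 : ℂ) - chi0 χ ((1 : H) : WithZero H) * (x : ℂ)‖⁻¹ =
          (1 - x)⁻¹ := by
        intro χ
        rw [chi0_coe, map_one, Units.val_one, one_mul]
        have : (1 : ℂ) - (x : ℂ) = ((1 - x : ℝ) : ℂ) := by push_cast; ring
        rw [this, Complex.norm_real, Real.norm_eq_abs, abs_of_pos (by linarith)]
      rw [Finset.prod_congr rfl (fun χ _ => h1 χ), Finset.prod_const, Finset.card_univ, hcardX,
        if_pos (by rfl)]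
      calc Real.exp ((Fintype.card H : ℝ) * x - (Fintype.card H : ℝ) / 2 * x ^ 2)
          ≤ Real.exp ((Fintype.card H : ℝ) * x) := Real.exp_le_exp.mpr (by linarith)
        _ = Real.exp x ^ Fintype.card H := by rw [← Real.exp_nat_mul]
        _ ≤ (1 - x)⁻¹ ^ Fintype.card H :=
            pow_le_pow_left₀ (Real.exp_pos x).le (exp_le_inv_one_sub hx1) _
    · have hne : ((g : H) : WithZero H) ≠ 1 := by
        intro h
        exact hg (WithZero.coe_injective h)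
      rw [if_neg hne, zero_sub]
      have h1 : ∀ χ : H →* ℂˣ, chi0 χ (g : WithZero H) = ((χ g : ℂˣ) : ℂ) := fun χ => chi0_coe χ g
      simp only [h1]
      rw [Finset.prod_inv_distrib]
      have hpos : 0 < ∏ χ : H →* ℂˣ, ‖(1 : ℂ) - ((χ g : ℂˣ) : ℂ) * (x : ℂ)‖ := by
        apply Finset.prod_pos
        intro χ _
        rw [norm_pos_iff, sub_ne_zero]
        intro h
        have h2 := congrArg norm h
        rw [norm_one, norm_mul, norm_chi, one_mul, Complex.norm_real, Real.norm_eq_abs,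
          abs_of_nonneg hx0] at h2
        linarith
      have hle : ∏ χ : H →* ℂˣ, ‖(1 : ℂ) - ((χ g : ℂˣ) : ℂ) * (x : ℂ)‖ ≤
          Real.exp ((Fintype.card H : ℝ) / 2 * x ^ 2) := by
        refine (hamgm g hg x hx0).trans ?_
        have h3 : 1 + x ^ 2 ≤ Real.exp (x ^ 2) := by
          have := Real.add_one_le_exp (x ^ 2)
          linarith
        calc (1 + x ^ 2) ^ ((Fintype.card H : ℝ) / 2)
            ≤ Real.exp (x ^ 2) ^ ((Fintype.card H : ℝ) / 2) :=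
              Real.rpow_le_rpow (by positivity) h3 (by positivity)
          _ = Real.exp ((Fintype.card H : ℝ) / 2 * x ^ 2) := by
              rw [← Real.exp_mul]
              congr 1
              ring
      rw [Real.exp_neg]
      exact inv_anti₀ hpos hle

theorem hasProd_Lfun (hFIB : StFIB E) (hEP : StEP (𝓞 E)) (χ : H →* ℂˣ) (s : ℝ) (hs : 1 < s) :
    HasProd (fun P : HeightOneSpectrum (𝓞 E) =>
      ((1 : ℂ) - chi0 χ (cl P.asIdeal) * ((nrm E s P.asIdeal : ℝ) : ℂ))⁻¹) (Lfun cl χ s) := by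
  have hs0 : s ≠ 0 := by linarith
  exact hEP ℂ (wHom cl χ s hs0) (summable_norm_w cl hFIB χ s hs)

open scoped Classical in
/-- **Euler product lower bound**: for every finite set `T₀` of primes,
`exp (h ∑_{P ∈ T₀, cl P = 1} N(P)^(-s) - (h/2) C) ≤ ∏_χ ‖L(s, χ)‖`, where `C` bounds the sums of
`N(P)^(-2s)`. -/
theorem prod_norm_Lfun_ge (hFIB : StFIB E) (hEP : StEP (𝓞 E))
    (hcardX : Fintype.card (H →* ℂˣ) = Fintype.card H)
    (hamgm : ∀ g : H, g ≠ 1 → ∀ x : ℝ, 0 ≤ x →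
      ∏ χ : H →* ℂˣ, ‖(1 : ℂ) - ((χ g : ℂˣ) : ℂ) * (x : ℂ)‖ ≤
        (1 + x ^ 2) ^ ((Fintype.card H : ℝ) / 2))
    (s : ℝ) (hs : 1 < s) (Cpc : ℝ)
    (hPC : ∀ T : Finset (HeightOneSpectrum (𝓞 E)), ∑ P ∈ T, nrm E s P.asIdeal ^ 2 ≤ Cpc)
    (T₀ : Finset (HeightOneSpectrum (𝓞 E))) :
    Real.exp ((Fintype.card H : ℝ) * ∑ P ∈ T₀ with cl P.asIdeal = 1, nrm E s P.asIdeal
        - (Fintype.card H : ℝ) / 2 * Cpc) ≤ ∏ χ : H →* ℂˣ, ‖Lfun cl χ s‖ := by
  have hs0 : 0 < s := by linarith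
  have hh : (0 : ℝ) ≤ (Fintype.card H : ℝ) := Nat.cast_nonneg _
  -- convergence of the finite products
  have ht : Tendsto (fun T : Finset (HeightOneSpectrum (𝓞 E)) =>
      ∏ χ : H →* ℂˣ, ∏ P ∈ T,
        ((1 : ℂ) - chi0 χ (cl P.asIdeal) * ((nrm E s P.asIdeal : ℝ) : ℂ))⁻¹) atTop
      (𝓝 (∏ χ : H →* ℂˣ, Lfun cl χ s)) :=
    tendsto_finsetProd _ (fun χ _ => hasProd_Lfun cl hFIB hEP χ s hs)
  have ht' := ht.norm
  rw [norm_prod] at ht'
  refine ge_of_tendsto ht' ?_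
  filter_upwards [eventually_ge_atTop T₀] with T hT
  -- the finite product
  rw [norm_prod]
  have h1 : ∀ χ : H →* ℂˣ, ‖∏ P ∈ T,
      ((1 : ℂ) - chi0 χ (cl P.asIdeal) * ((nrm E s P.asIdeal : ℝ) : ℂ))⁻¹‖ =
      ∏ P ∈ T, ‖(1 : ℂ) - chi0 χ (cl P.asIdeal) * ((nrm E s P.asIdeal : ℝ) : ℂ)‖⁻¹ := by
    intro χ
    rw [norm_prod]
    refine Finset.prod_congr rfl fun P _ => ?_
    rw [norm_inv]
  rw [Finset.prod_congr rfl (fun χ _ => h1 χ), Finset.prod_comm]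
  -- local bounds
  have h2 : ∀ P ∈ T, Real.exp ((if cl P.asIdeal = 1 then
        (Fintype.card H : ℝ) * nrm E s P.asIdeal else 0)
        - (Fintype.card H : ℝ) / 2 * nrm E s P.asIdeal ^ 2) ≤
      ∏ χ : H →* ℂˣ, ‖(1 : ℂ) - chi0 χ (cl P.asIdeal) * ((nrm E s P.asIdeal : ℝ) : ℂ)‖⁻¹ :=
    fun P _ => local_ge hcardX hamgm (cl P.asIdeal) (nrm E s P.asIdeal) (nrm_nonneg E s _)
      (nrm_prime_lt_one E s hs0 P)
  refine le_trans ?_ (Finset.prod_le_prod (fun P _ => (Real.exp_pos _).le) h2)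
  rw [← Real.exp_sum]
  apply Real.exp_le_exp.mpr
  rw [Finset.sum_sub_distrib, ← Finset.mul_sum, ← Finset.sum_filter, ← Finset.mul_sum]
  have h3 : ∑ P ∈ T₀ with cl P.asIdeal = 1, nrm E s P.asIdeal ≤
      ∑ P ∈ T with cl P.asIdeal = 1, nrm E s P.asIdeal :=
    Finset.sum_le_sum_of_subset_of_nonneg (Finset.filter_subset_filter _ hT)
      (fun P _ _ => nrm_nonneg E s _)
  have h4 := hPC T
  nlinarith [mul_le_mul_of_nonneg_left h3 hh, mul_le_mul_of_nonneg_left h4 (by positivity :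
    (0 : ℝ) ≤ (Fintype.card H : ℝ) / 2)]

end Euler

/-! ### Degree-one primes of `M` give primes of `E` of class `1` -/

section Norms

variable {E M : Type} [Field E] [NumberField E] [Field M] [NumberField M] [Algebra E M]
  {H : Type} [CommGroup H]
variable (cl : Ideal (𝓞 E) →*₀ WithZero H)

open scoped Classical in
theorem sum_degOne_le (hNRM : StNRM E M)
    (hnorm : ∀ 𝔄 : Ideal (𝓞 M), cl (Ideal.relNorm (𝓞 E) 𝔄) = 0 ∨ cl (Ideal.relNorm (𝓞 E) 𝔄) = 1)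
    (Z : Finset (HeightOneSpectrum (𝓞 E))) (hZ : ∀ P : HeightOneSpectrum (𝓞 E),
      cl P.asIdeal = 0 → P ∈ Z)
    (s : ℝ) (hs : 0 < s) (T' : Finset (HeightOneSpectrum (𝓞 M)))
    (hT' : ∀ 𝔓 ∈ T', 𝔓 ∈ degOne M) :
    ∃ T₀ : Finset (HeightOneSpectrum (𝓞 E)),
      ∑ 𝔓 ∈ T', nrm M s 𝔓.asIdeal ≤
        (Module.finrank E M : ℝ) *
          (∑ P ∈ T₀ with cl P.asIdeal = 1, nrm E s P.asIdeal + (Z.card : ℝ)) := by
  rcases T'.eq_empty_or_nonempty with hemp | ⟨𝔓₀, h𝔓₀⟩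
  · refine ⟨∅, ?_⟩
    rw [hemp, Finset.sum_empty]
    simp only [Finset.filter_empty, Finset.sum_empty, zero_add]
    positivity
  obtain ⟨P₀, -⟩ := hNRM.1 𝔓₀ (hT' 𝔓₀ h𝔓₀)
  have hex : ∀ 𝔓 : HeightOneSpectrum (𝓞 M), ∃ P : HeightOneSpectrum (𝓞 E), 𝔓 ∈ T' →
      (𝔓.asIdeal.under (𝓞 E) = P.asIdeal ∧
        Ideal.absNorm P.asIdeal = Ideal.absNorm 𝔓.asIdeal ∧
        Ideal.relNorm (𝓞 E) 𝔓.asIdeal = P.asIdeal) := by
    intro 𝔓
    by_cases h : 𝔓 ∈ T'
    · obtain ⟨P, -, h1, h2, h3⟩ := hNRM.1 𝔓 (hT' 𝔓 h)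
      exact ⟨P, fun _ => ⟨h1, h2, h3⟩⟩
    · exact ⟨P₀, fun h' => absurd h' h⟩
  choose pf hpf using hex
  refine ⟨T'.image pf, ?_⟩
  -- rewrite the sum over `T'`
  have h1 : ∑ 𝔓 ∈ T', nrm M s 𝔓.asIdeal = ∑ 𝔓 ∈ T', nrm E s (pf 𝔓).asIdeal := by
    refine Finset.sum_congr rfl fun 𝔓 h𝔓 => ?_
    unfold nrm
    rw [(hpf 𝔓 h𝔓).2.1]
  rw [h1, ← Finset.sum_fiberwise_of_maps_to (s := T') (t := T'.image pf) (g := pf)
    (fun 𝔓 h𝔓 => Finset.mem_image_of_mem pf h𝔓)]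
  have h2 : ∀ P ∈ T'.image pf, ∑ 𝔓 ∈ T' with pf 𝔓 = P, nrm E s (pf 𝔓).asIdeal ≤
      (Module.finrank E M : ℝ) * nrm E s P.asIdeal := by
    intro P _
    have h3 : ∑ 𝔓 ∈ T' with pf 𝔓 = P, nrm E s (pf 𝔓).asIdeal =
        ((T'.filter (fun 𝔓 => pf 𝔓 = P)).card : ℝ) * nrm E s P.asIdeal := by
      rw [Finset.sum_congr rfl (fun 𝔓 h𝔓 => by rw [(Finset.mem_filter.mp h𝔓).2]),
        Finset.sum_const, nsmul_eq_mul]
    rw [h3]
    refine mul_le_mul_of_nonneg_right ?_ (nrm_nonneg E s _)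
    have h4 := hNRM.2 P (T'.filter (fun 𝔓 => pf 𝔓 = P)) (fun 𝔓 h𝔓 => by
      obtain ⟨h5, h6⟩ := Finset.mem_filter.mp h𝔓
      rw [(hpf 𝔓 h5).1, h6])
    exact_mod_cast h4
  refine (Finset.sum_le_sum h2).trans ?_
  rw [← Finset.mul_sum]
  refine mul_le_mul_of_nonneg_left ?_ (Nat.cast_nonneg _)
  rw [← Finset.sum_filter_add_sum_filter_not (T'.image pf) (fun P => cl P.asIdeal = 1)]
  refine add_le_add le_rfl ?_
  calc ∑ P ∈ T'.image pf with ¬ cl P.asIdeal = 1, nrm E s P.asIdeal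
      ≤ ∑ P ∈ Z, nrm E s P.asIdeal := by
        refine Finset.sum_le_sum_of_subset_of_nonneg ?_ (fun P _ _ => nrm_nonneg E s _)
        intro P hP
        obtain ⟨hP1, hP2⟩ := Finset.mem_filter.mp hP
        obtain ⟨𝔓, h𝔓, rfl⟩ := Finset.mem_image.mp hP1
        apply hZ
        rcases hnorm 𝔓.asIdeal with h | h
        · rw [← (hpf 𝔓 h𝔓).2.2]; exact h
        · rw [(hpf 𝔓 h𝔓).2.2] at h
          exact absurd h hP2
    _ ≤ ∑ _P ∈ Z, (1 : ℝ) :=
        Finset.sum_le_sum fun P _ => (nrm_prime_lt_one E s hs P).le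
    _ = (Z.card : ℝ) := by rw [Finset.sum_const, nsmul_eq_mul, mul_one]

end Norms

/-! ### The assembly -/

section Final

theorem tendsto_log_inv : Tendsto (fun s : ℝ => Real.log (1 / (s - 1))) (𝓝[>] 1) atTop := by
  have h1 : Tendsto (fun s : ℝ => s - 1) (𝓝[>] 1) (𝓝[>] 0) := by
    refine tendsto_nhdsWithin_of_tendsto_nhds_of_eventually_within _ ?_ ?_
    · have : Tendsto (fun s : ℝ => s - 1) (𝓝 1) (𝓝 (1 - 1)) :=
        (continuous_id.sub continuous_const).tendsto 1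
      rw [sub_self] at this
      exact this.mono_left nhdsWithin_le_nhds
    · filter_upwards [self_mem_nhdsWithin] with s hs
      exact sub_pos.mpr (Set.mem_Ioi.mp hs)
  have h2 : Tendsto (fun s : ℝ => (s - 1)⁻¹) (𝓝[>] 1) atTop := tendsto_inv_nhdsGT_zero.comp h1
  have h3 := Real.tendsto_log_atTop.comp h2
  refine h3.congr fun s => ?_
  simp only [Function.comp_apply, one_div]

/-- **(U), abstract form**, from the leaves. -/
theorem stUabs_of
    (hFIB : ∀ (F : Type) [Field F] [NumberField F], StFIB F)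
    (hZS : ∀ (F : Type) [Field F] [NumberField F], StZS F)
    (hZB : ∀ (F : Type) [Field F] [NumberField F], StZB F)
    (hEP : ∀ (F : Type) [Field F] [NumberField F], StEP (𝓞 F))
    (hPC : ∀ (F : Type) [Field F] [NumberField F], StPC F)
    (hPZ : ∀ (F : Type) [Field F] [NumberField F], StPZlower F)
    (hNRM : ∀ (K L : Type) [Field K] [NumberField K] [Field L] [NumberField L] [Algebra K L],
      StNRM K L)
    (hAB : StAB)
    (hCH : ∀ (H : Type) [CommGroup H] [Finite H], StCH H) : StUabs := by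
  intro E M _ _ _ _ _ H _ _ cl hfin hnorm hcount
  obtain ⟨κ, C, δ, hδ, hcount⟩ := hcount
  classical
  letI : Fintype H := Fintype.ofFinite H
  obtain ⟨hcard, horth, hamgm⟩ := hCH H
  haveI : Finite (H →* ℂˣ) :=
    Nat.finite_of_card_ne_zero (by rw [hcard]; exact Nat.card_pos.ne')
  letI : Fintype (H →* ℂˣ) := Fintype.ofFinite _
  have hcardX : Fintype.card (H →* ℂˣ) = Fintype.card H := by
    rw [← Nat.card_eq_fintype_card, ← Nat.card_eq_fintype_card]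
    exact hcard
  have horth' : ∀ χ : H →* ℂˣ, χ ≠ 1 → ∑ c : H, ((χ c : ℂˣ) : ℂ) = 0 := by
    intro χ hχ
    rw [← finsum_eq_sum_of_fintype]
    exact horth χ hχ
  have hamgm' : ∀ g : H, g ≠ 1 → ∀ x : ℝ, 0 ≤ x →
      ∏ χ : H →* ℂˣ, ‖(1 : ℂ) - ((χ g : ℂˣ) : ℂ) * (x : ℂ)‖ ≤
        (1 + x ^ 2) ^ ((Fintype.card H : ℝ) / 2) := by
    intro g hg x hx
    have := hamgm g hg x hx
    rw [finprod_eq_prod_of_fintype, Nat.card_eq_fintype_card] at this
    exact this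
  -- bounds for `χ ≠ 1`
  have hB : ∀ χ : H →* ℂˣ, ∃ B : ℝ, χ ≠ 1 → ∀ s : ℝ, 1 < s → s ≤ 2 → ‖Lfun cl χ s‖ ≤ B := by
    intro χ
    by_cases hχ : χ = 1
    · exact ⟨0, fun h => absurd hχ h⟩
    · obtain ⟨B, hB⟩ := Lfun_bounded cl (hFIB E) hAB χ (horth' χ hχ) κ C δ hδ hcount
      exact ⟨B, fun _ => hB⟩
  choose B hB using hB
  obtain ⟨c₁, C₁, -, hZB⟩ := hZB E
  obtain ⟨Cpc, hPC⟩ := hPC E
  obtain ⟨C₂, hPZ⟩ := hPZ M
  have hh : (0 : ℝ) ≤ (Fintype.card H : ℝ) := Nat.cast_nonneg _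
  haveI : Module.Finite E M := Module.Finite.of_restrictScalars_finite ℚ E M
  have hnpos : (0 : ℝ) < (Module.finrank E M : ℝ) := by
    exact_mod_cast (Module.finrank_pos : 0 < Module.finrank E M)
  set Z : Finset (HeightOneSpectrum (𝓞 E)) := hfin.toFinset with hZdef
  set D : ℝ := max C₁ 1 * ∏ χ ∈ Finset.univ.erase (1 : H →* ℂˣ), max (B χ) 1 with hDdef
  have hDpos : 0 < D := by
    apply mul_pos (lt_of_lt_of_le one_pos (le_max_right _ _))
    apply Finset.prod_pos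
    intro χ _
    exact lt_of_lt_of_le one_pos (le_max_right _ _)
  -- the key inequality
  have key : ∀ᶠ s in 𝓝[>] (1 : ℝ),
      ((Fintype.card H : ℝ) / (Module.finrank E M : ℝ) - 1) * Real.log (1 / (s - 1)) ≤
        Real.log D + (Fintype.card H : ℝ) * C₂ / (Module.finrank E M : ℝ)
          + (Fintype.card H : ℝ) * (Z.card : ℝ) + (Fintype.card H : ℝ) / 2 * Cpc := by
    filter_upwards [hZB, hPZ, Ioo_mem_nhdsGT (one_lt_two : (1 : ℝ) < 2)] with s hs1 hs2 hs3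
    obtain ⟨hs_gt, hs_lt⟩ := hs3
    have hs1pos : 0 < s - 1 := by linarith
    obtain ⟨T', hT'deg, hT'sum⟩ := hs2
    obtain ⟨T₀, hT₀⟩ := sum_degOne_le cl (hNRM E M) hnorm Z
      (fun P hP => hfin.mem_toFinset.mpr hP) s (by linarith) T' hT'deg
    have hE := prod_norm_Lfun_ge cl (hFIB E) (hEP E) hcardX hamgm' s hs_gt Cpc
      (fun T => (hPC s hs_gt.le T).2) T₀
    have hU : ∏ χ : H →* ℂˣ, ‖Lfun cl χ s‖ ≤ D / (s - 1) := by
      rw [← Finset.mul_prod_erase Finset.univ _ (Finset.mem_univ (1 : H →* ℂˣ))]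
      have hz : ‖Lfun cl 1 s‖ ≤ max C₁ 1 / (s - 1) := by
        refine (norm_Lfun_le_zetaR cl (hFIB E) (hZS E) 1 s hs_gt).trans ?_
        rw [le_div_iff₀ hs1pos]
        calc zetaR E s * (s - 1) = (s - 1) * zetaR E s := mul_comm _ _
          _ ≤ C₁ := hs1.2
          _ ≤ max C₁ 1 := le_max_left _ _
      have hrest : ∏ χ ∈ Finset.univ.erase (1 : H →* ℂˣ), ‖Lfun cl χ s‖ ≤
          ∏ χ ∈ Finset.univ.erase (1 : H →* ℂˣ), max (B χ) 1 :=
        Finset.prod_le_prod (fun _ _ => norm_nonneg _) (fun χ hχ =>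
          (hB χ (Finset.ne_of_mem_erase hχ) s hs_gt hs_lt.le).trans (le_max_left _ _))
      calc ‖Lfun cl 1 s‖ * ∏ χ ∈ Finset.univ.erase (1 : H →* ℂˣ), ‖Lfun cl χ s‖
          ≤ (max C₁ 1 / (s - 1)) * ∏ χ ∈ Finset.univ.erase (1 : H →* ℂˣ), max (B χ) 1 :=
            mul_le_mul hz hrest (Finset.prod_nonneg fun _ _ => norm_nonneg _)
              (div_nonneg (le_trans zero_le_one (le_max_right _ _)) hs1pos.le)
        _ = D / (s - 1) := by rw [hDdef]; ring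
    have h3 := hE.trans hU
    have h4 : (Fintype.card H : ℝ) * ∑ P ∈ T₀ with cl P.asIdeal = 1, nrm E s P.asIdeal
        - (Fintype.card H : ℝ) / 2 * Cpc ≤ Real.log (D / (s - 1)) := by
      rw [← Real.log_exp ((Fintype.card H : ℝ) * ∑ P ∈ T₀ with cl P.asIdeal = 1,
        nrm E s P.asIdeal - (Fintype.card H : ℝ) / 2 * Cpc)]
      exact Real.log_le_log (Real.exp_pos _) h3
    have h5 : Real.log (D / (s - 1)) = Real.log D + Real.log (1 / (s - 1)) := by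
      rw [div_eq_mul_one_div, Real.log_mul hDpos.ne' (one_div_pos.mpr hs1pos).ne']
    rw [h5] at h4
    have h6 : (Real.log (1 / (s - 1)) - C₂) / (Module.finrank E M : ℝ) - (Z.card : ℝ) ≤
        ∑ P ∈ T₀ with cl P.asIdeal = 1, nrm E s P.asIdeal := by
      rw [sub_le_iff_le_add, div_le_iff₀ hnpos]
      calc Real.log (1 / (s - 1)) - C₂ ≤ ∑ 𝔓 ∈ T', nrm M s 𝔓.asIdeal := hT'sum
        _ ≤ _ := hT₀
        _ = _ := mul_comm _ _
    have h7 := mul_le_mul_of_nonneg_left h6 hh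
    have h8 : (Fintype.card H : ℝ) * ((Real.log (1 / (s - 1)) - C₂) / (Module.finrank E M : ℝ)
        - (Z.card : ℝ)) =
        (Fintype.card H : ℝ) / (Module.finrank E M : ℝ) * Real.log (1 / (s - 1))
          - (Fintype.card H : ℝ) * C₂ / (Module.finrank E M : ℝ)
          - (Fintype.card H : ℝ) * (Z.card : ℝ) := by
      field_simp
    rw [h8] at h7
    linarith
  -- conclusion
  by_contra hlt
  rw [not_le] at hlt
  have hlt' : (Module.finrank E M : ℝ) < (Fintype.card H : ℝ) := by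
    rw [Nat.card_eq_fintype_card] at hlt
    exact_mod_cast hlt
  have hpos : 0 < (Fintype.card H : ℝ) / (Module.finrank E M : ℝ) - 1 := by
    rw [sub_pos, lt_div_iff₀ hnpos, one_mul]
    exact hlt'
  have ht := tendsto_log_inv.const_mul_atTop hpos
  have hev := ht.eventually (eventually_gt_atTop
    (Real.log D + (Fintype.card H : ℝ) * C₂ / (Module.finrank E M : ℝ)
          + (Fintype.card H : ℝ) * (Z.card : ℝ) + (Fintype.card H : ℝ) / 2 * Cpc))
  obtain ⟨s, hs1, hs2⟩ := (key.and hev).exists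
  linarith

end Final

end Fermat.Agent.S14x.LFN.H1
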