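import Mathlib
import Fermat.Agent.S14x.LFN.Defs

/-!
# S14 / LFN, leaf [CH] (helper21): characters of a finite commutative group

`stCH H : StCH H` : the number of characters `H →* ℂˣ` is `#H`; a nontrivial character sums to
zero; and for `g ≠ 1`, `x ≥ 0`:  `∏_χ ‖1 - χ(g) x‖ ≤ (1 + x²)^(#H / 2)` (AM-GM).
-/

set_option autoImplicit false
set_option linter.style.haveILetI false
set_option linter.unusedSectionVars false

noncomputable section

namespace Fermat.Agent.S14x.LFN.H21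

open Finset

variable (H : Type*) [CommGroup H] [Finite H]

/-- The number of characters. -/
theorem card_char : Nat.card (H →* ℂˣ) = Nat.card H := by
  haveI : NeZero (Monoid.exponent H) := ⟨Monoid.exponent_ne_zero_of_finite⟩
  haveI : NeZero ((Monoid.exponent H : ℕ) : ℂ) :=
    ⟨Nat.cast_ne_zero.mpr Monoid.exponent_ne_zero_of_finite⟩
  exact CommGroup.card_monoidHom_of_hasEnoughRootsOfUnity H ℂ

theorem finite_char : Finite (H →* ℂˣ) :=
  Nat.finite_of_card_ne_zero (by rw [card_char]; exact Nat.card_pos.ne')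

variable {H}

/-- Characters separate points. -/
theorem exists_char_ne_one {g : H} (hg : g ≠ 1) : ∃ χ : H →* ℂˣ, χ g ≠ 1 := by
  haveI : NeZero (Monoid.exponent H) := ⟨Monoid.exponent_ne_zero_of_finite⟩
  haveI : NeZero ((Monoid.exponent H : ℕ) : ℂ) :=
    ⟨Nat.cast_ne_zero.mpr Monoid.exponent_ne_zero_of_finite⟩
  exact CommGroup.exists_apply_ne_one_of_hasEnoughRootsOfUnity H ℂ hg

/-- A nontrivial character sums to zero. -/
theorem sum_char_eq_zero [Fintype H] {χ : H →* ℂˣ} (hχ : χ ≠ 1) :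
    ∑ c : H, ((χ c : ℂˣ) : ℂ) = 0 := by
  obtain ⟨g, hg⟩ : ∃ g, χ g ≠ 1 := by
    by_contra h
    push Not at h
    exact hχ (MonoidHom.ext fun x => by simpa using h x)
  have h1 : ((χ g : ℂˣ) : ℂ) * ∑ c : H, ((χ c : ℂˣ) : ℂ) = ∑ c : H, ((χ c : ℂˣ) : ℂ) := by
    rw [Finset.mul_sum]
    refine Fintype.sum_equiv (Equiv.mulLeft g) _ _ fun c => ?_
    rw [Equiv.coe_mulLeft, map_mul, Units.val_mul]
  have h2 : (((χ g : ℂˣ) : ℂ) - 1) * ∑ c : H, ((χ c : ℂˣ) : ℂ) = 0 := by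
    rw [sub_mul, h1, one_mul, sub_self]
  rcases mul_eq_zero.mp h2 with h3 | h3
  · exact absurd (Units.ext (by simpa using sub_eq_zero.mp h3)) hg
  · exact h3

/-- Dual orthogonality: the values of all characters at `g ≠ 1` sum to zero. -/
theorem sum_apply_eq_zero [Fintype (H →* ℂˣ)] {g : H} (hg : g ≠ 1) :
    ∑ χ : H →* ℂˣ, ((χ g : ℂˣ) : ℂ) = 0 := by
  obtain ⟨χ₀, hχ₀⟩ := exists_char_ne_one hg
  have h1 : ((χ₀ g : ℂˣ) : ℂ) * ∑ χ : H →* ℂˣ, ((χ g : ℂˣ) : ℂ) =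
      ∑ χ : H →* ℂˣ, ((χ g : ℂˣ) : ℂ) := by
    rw [Finset.mul_sum]
    refine Fintype.sum_equiv (Equiv.mulLeft χ₀) _ _ fun χ => ?_
    rw [Equiv.coe_mulLeft, MonoidHom.mul_apply, Units.val_mul]
  have h2 : (((χ₀ g : ℂˣ) : ℂ) - 1) * ∑ χ : H →* ℂˣ, ((χ g : ℂˣ) : ℂ) = 0 := by
    rw [sub_mul, h1, one_mul, sub_self]
  rcases mul_eq_zero.mp h2 with h3 | h3
  · exact absurd (Units.ext (by simpa using sub_eq_zero.mp h3)) hχ₀
  · exact h3

/-- The values of a character have absolute value one. -/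
theorem norm_char (χ : H →* ℂˣ) (g : H) : ‖((χ g : ℂˣ) : ℂ)‖ = 1 := by
  have hn : Nat.card H ≠ 0 := Nat.card_pos.ne'
  refine Complex.norm_eq_one_of_pow_eq_one (n := Nat.card H) ?_ hn
  rw [← Units.val_pow_eq_pow_val, ← map_pow, pow_card_eq_one', map_one, Units.val_one]

/-- `‖1 - z x‖² = 1 + x² - 2 x Re z` for `‖z‖ = 1`. -/
theorem norm_sq_one_sub (z : ℂ) (hz : ‖z‖ = 1) (x : ℝ) :
    ‖(1 : ℂ) - z * (x : ℂ)‖ ^ 2 = 1 + x ^ 2 - 2 * x * z.re := by
  have h1 : z.re ^ 2 + z.im ^ 2 = 1 := by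
    have := Complex.sq_norm z
    rw [hz, Complex.normSq_apply] at this
    nlinarith [this]
  rw [Complex.sq_norm, Complex.normSq_apply]
  simp only [Complex.sub_re, Complex.one_re, Complex.mul_re, Complex.ofReal_re, Complex.ofReal_im,
    mul_zero, sub_zero, Complex.sub_im, Complex.one_im, Complex.mul_im, zero_add, zero_sub]
  nlinarith [h1]

/-- **[CH]**. -/
theorem stCH (H : Type*) [CommGroup H] [Finite H] : StCH H := by
  classical
  refine ⟨card_char H, fun χ hχ => ?_, fun g hg x hx => ?_⟩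
  · letI : Fintype H := Fintype.ofFinite H
    rw [finsum_eq_sum_of_fintype]
    exact sum_char_eq_zero hχ
  · haveI := finite_char H
    letI : Fintype (H →* ℂˣ) := Fintype.ofFinite _
    rw [finprod_eq_prod_of_fintype]
    set n : ℕ := Nat.card H with hn
    have hn0 : (0 : ℝ) < n := by
      rw [hn]; exact_mod_cast Nat.card_pos
    have hcard : Fintype.card (H →* ℂˣ) = n := by
      rw [← Nat.card_eq_fintype_card, card_char]
    set a : (H →* ℂˣ) → ℝ := fun χ => ‖(1 : ℂ) - ((χ g : ℂˣ) : ℂ) * (x : ℂ)‖ ^ 2 with ha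
    have ha0 : ∀ χ, 0 ≤ a χ := fun χ => sq_nonneg _
    have haeq : ∀ χ, a χ = 1 + x ^ 2 - 2 * x * (((χ g : ℂˣ) : ℂ)).re := fun χ =>
      norm_sq_one_sub _ (norm_char χ g) x
    -- the arithmetic mean
    have hsum : ∑ χ : H →* ℂˣ, (1 / (n : ℝ)) * a χ = 1 + x ^ 2 := by
      have h1 : ∑ χ : H →* ℂˣ, (((χ g : ℂˣ) : ℂ)).re = 0 := by
        have := congrArg Complex.re (sum_apply_eq_zero (H := H) hg)
        rwa [Complex.re_sum, Complex.zero_re] at this
      rw [← Finset.mul_sum]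
      simp only [haeq]
      rw [Finset.sum_sub_distrib, Finset.sum_const, ← Finset.mul_sum, h1, mul_zero, sub_zero,
        Finset.card_univ, hcard, nsmul_eq_mul]
      field_simp
    -- AM-GM
    have hw : ∑ χ : H →* ℂˣ, (1 / (n : ℝ)) = 1 := by
      rw [Finset.sum_const, Finset.card_univ, hcard, nsmul_eq_mul]
      field_simp
    have hamgm := Real.geom_mean_le_arith_mean_weighted (Finset.univ : Finset (H →* ℂˣ))
      (fun _ => 1 / (n : ℝ)) a (fun _ _ => by positivity) hw (fun χ _ => ha0 χ)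
    rw [hsum] at hamgm
    -- raise to the power `n / 2`
    have hprod0 : 0 ≤ ∏ χ : H →* ℂˣ, a χ ^ (1 / (n : ℝ)) :=
      Finset.prod_nonneg fun χ _ => Real.rpow_nonneg (ha0 χ) _
    have hpow := Real.rpow_le_rpow hprod0 hamgm (by positivity : (0 : ℝ) ≤ (n : ℝ) / 2)
    have hlhs : (∏ χ : H →* ℂˣ, a χ ^ (1 / (n : ℝ))) ^ ((n : ℝ) / 2) =
        ∏ χ : H →* ℂˣ, ‖(1 : ℂ) - ((χ g : ℂˣ) : ℂ) * (x : ℂ)‖ := by
      rw [← Real.finsetProd_rpow _ _ (fun χ _ => Real.rpow_nonneg (ha0 χ) _)]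
      refine Finset.prod_congr rfl fun χ _ => ?_
      rw [← Real.rpow_mul (ha0 χ)]
      have h2 : 1 / (n : ℝ) * ((n : ℝ) / 2) = 1 / 2 := by field_simp
      rw [h2, ha, ← Real.sqrt_eq_rpow, Real.sqrt_sq (norm_nonneg _)]
    rw [hlhs] at hpow
    exact hpow

end Fermat.Agent.S14x.LFN.H21
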