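import Fermat.Agent.S14x.LFN.H2_D
import Fermat.Agent.S14x.Art.H28_AsmArt

/-!
# S14 / LFN (helper2): the adapters from `StDabs` to the density statements of `Asm/Defs.lean`

* `stDgen : Asm.StDgen` — for `M/E` Galois, nontrivial, and `𝔪 ≠ 0`: a prime `𝔮` of `E` of
  degree one, prime to `𝔪`, and a prime `P` of `M` above it with a nontrivial Frobenius;
* `stD p : Asm.StD p` — for `L/K` Galois of degree `p`, unramified everywhere, `K = ℚ(ζ_p)`: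
  a prime `𝔔` of `K` of degree one, not above `p`, with a nontrivial Frobenius.

Both are hypothesis-free (they use `H2.stDabs`, helper28's `frobAt` and helper6's
`absNorm_eq_pow`).
-/

set_option autoImplicit false
set_option linter.style.haveILetI false

open NumberField IsDedekindDomain
open scoped Pointwise

noncomputable section

namespace Fermat.Agent.S14x.LFN.H2

section Aux

variable (K L : Type*) [Field K] [NumberField K] [Field L] [NumberField L] [Algebra K L]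

/-- A prime which does not divide `𝔪` is prime to `𝔪`. -/
theorem sup_eq_top_of_not_dvd (v : HeightOneSpectrum (𝓞 K)) (𝔪 : Ideal (𝓞 K))
    (h : ¬ v.asIdeal ∣ 𝔪) : v.asIdeal ⊔ 𝔪 = ⊤ := by
  have hmax : v.asIdeal.IsMaximal := v.isMaximal
  by_contra hne
  have heq : v.asIdeal = v.asIdeal ⊔ 𝔪 := hmax.eq_of_le hne le_sup_left
  apply h
  rw [Ideal.dvd_iff_le, heq]
  exact le_sup_right

theorem card_quot_eq_absNorm (I : Ideal (𝓞 K)) : Nat.card (𝓞 K ⧸ I) = Ideal.absNorm I := by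
  rw [Ideal.absNorm_apply, Submodule.cardQuot_apply]

variable {K L} in
/-- If the identity is a Frobenius at `𝔓` then `𝔓` has the same norm as the prime below. -/
theorem absNorm_eq_of_frob_one [IsGalois K L] (𝔓 : HeightOneSpectrum (𝓞 L))
    (P : HeightOneSpectrum (𝓞 K)) (hP : 𝔓.asIdeal.under (𝓞 K) = P.asIdeal)
    (h1 : IsArithFrobAt (𝓞 K) (1 : L ≃ₐ[K] L) 𝔓.asIdeal) :
    Ideal.absNorm 𝔓.asIdeal = Ideal.absNorm P.asIdeal := by
  haveI : 𝔓.asIdeal.IsPrime := 𝔓.isPrime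
  haveI : 𝔓.asIdeal.LiesOver P.asIdeal := ⟨hP.symm⟩
  have hle : 𝔓.asIdeal.inertiaDeg (𝓞 K) ≤ 1 :=
    Art.H28.inertiaDeg_le_of_frob_pow_eq_one P 𝔓.asIdeal h1 one_ne_zero (pow_one 1)
  have hpos : 0 < 𝔓.asIdeal.inertiaDeg (𝓞 K) := Ideal.inertiaDeg_pos 𝔓.asIdeal (𝓞 K)
  have hf : 𝔓.asIdeal.inertiaDeg (𝓞 K) = 1 := by omega
  rw [H6.absNorm_eq_pow K L 𝔓, hf, pow_one, H6.below_asIdeal, hP]

end Aux

/-- **(D), general form** (`Asm/Defs.lean`, verbatim), hypothesis-free. -/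
theorem stDgen : Asm.StDgen := by
  intro E M _ _ _ _ _ _ hdeg 𝔪 h𝔪
  classical
  obtain ⟨P, hPT, hP1, 𝔓, h𝔓, hne⟩ :=
    stDabs E M (by omega) (Ideal.finite_factors h𝔪).toFinset
  rw [Set.Finite.mem_toFinset, Set.mem_ofPred_eq] at hPT
  haveI : 𝔓.asIdeal.IsPrime := 𝔓.isPrime
  haveI : Finite (𝓞 M ⧸ 𝔓.asIdeal) := Ideal.finiteQuotientOfFreeOfNeBot _ 𝔓.ne_bot
  have hfrob : IsArithFrobAt (𝓞 E) (arithFrobAt (𝓞 E) (M ≃ₐ[E] M) 𝔓.asIdeal) 𝔓.asIdeal :=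
    IsArithFrobAt.arithFrobAt (𝓞 E) (M ≃ₐ[E] M) 𝔓.asIdeal
  refine ⟨P.asIdeal, Ideal.absNorm P.asIdeal, 𝔓.asIdeal,
    arithFrobAt (𝓞 E) (M ≃ₐ[E] M) 𝔓.asIdeal, P.isPrime, hP1, card_quot_eq_absNorm E _,
    sup_eq_top_of_not_dvd E P 𝔪 hPT, 𝔓.isPrime, h𝔓, hfrob, fun h1 => hne ?_⟩
  rw [h1] at hfrob
  exact absNorm_eq_of_frob_one 𝔓 P h𝔓 hfrob

/-- **(D)** (`Asm/Defs.lean`, verbatim), hypothesis-free. -/
theorem stD (p : ℕ) [Fact p.Prime] : Asm.StD p := by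
  intro hp3 K L _ _ _ _ _ _ _ _ hdeg hU
  classical
  have hp : p.Prime := Fact.out
  have hc : Nat.card (L ≃ₐ[K] L) = p := by rw [IsGalois.card_aut_eq_finrank, hdeg]
  haveI : IsCyclic (L ≃ₐ[K] L) := isCyclic_of_prime_card hc
  haveI : IsMulCommutative (L ≃ₐ[K] L) := IsCyclic.isMulCommutative
  have hp0 : Ideal.span {(p : 𝓞 K)} ≠ ⊥ := by
    rw [Ne, Ideal.span_singleton_eq_bot]
    exact_mod_cast hp.ne_zero
  obtain ⟨P, hPT, hP1, 𝔓, h𝔓, hne⟩ :=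
    stDabs K L (by omega) (Ideal.finite_factors hp0).toFinset
  rw [Set.Finite.mem_toFinset, Set.mem_ofPred_eq] at hPT
  have hv : Algebra.IsUnramifiedIn (𝓞 L) P.asIdeal :=
    Art.H28.isUnramifiedIn_of_unramifiedEverywhere hU P
  refine ⟨P.asIdeal, Ideal.absNorm P.asIdeal, Art.H28.frobAt K L P, P.isPrime, hP1,
    fun hq => hPT ?_, card_quot_eq_absNorm K _, Art.H28.isFrobAt_frobAt hv, fun h1 => hne ?_⟩
  · rw [Ideal.dvd_span_singleton, ← hq]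
    exact Ideal.absNorm_mem P.asIdeal
  · haveI : 𝔓.asIdeal.IsPrime := 𝔓.isPrime
    haveI : 𝔓.asIdeal.LiesOver P.asIdeal := ⟨h𝔓.symm⟩
    have hf := (Art.H28.frobAt_eq_one_iff hv 𝔓.asIdeal).mp h1
    rw [H6.absNorm_eq_pow K L 𝔓, hf, pow_one, H6.below_asIdeal, h𝔓]

end Fermat.Agent.S14x.LFN.H2
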