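import Fermat.Agent.S14x.LFN.H2_Euler

/-!
# S14 / LFN (helper2): the density statement (D), analytic core

For an extension `L/K` of number fields of degree `n ≥ 2` it is impossible that every prime of
`K` of absolute degree one outside a finite set `T` has `n` primes of `L` above it with the same
absolute norm.  The proof uses only finite Euler products: with `x_P = N(P)^(-s)`,

* `∑_{N(I) ≤ X} N(I)^(-s) ≤ ∏_{N(P) ≤ X} (1 - x_P)⁻¹ ≤ C₀ ∏_{P ∈ A} (1 + x_P)`, where `A` is the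
  set of primes of degree one outside `T` of norm `≤ X` (the other factors are bounded uniformly
  in `s ∈ (1, 2]`),
* `(∏_{P ∈ A} (1 + x_P)) ^ n = ∏_{Q ∈ A'} (1 + x_Q) ≤ ζ_L(s)`,

so `ζ_K(s) ^ n ≤ C₀ ^ n ζ_L(s)` on `(1, 2]`, which contradicts the simple poles at `s = 1`.
-/

set_option autoImplicit false

open Filter Topology NumberField Ideal Finset IsDedekindDomain

noncomputable section

namespace Fermat.Agent.S14x.LFN.H2

/-! ### Two elementary inequalities -/

theorem inv_one_sub_le_mul_exp {x : ℝ} (h0 : 0 ≤ x) (h1 : x ≤ 1 / 2) :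
    (1 - x)⁻¹ ≤ (1 + x) * Real.exp (2 * x ^ 2) := by
  have hpos : 0 < 1 - x := by linarith
  have he : 1 + 2 * x ^ 2 ≤ Real.exp (2 * x ^ 2) := by
    have := Real.add_one_le_exp (2 * x ^ 2)
    linarith
  have hx2 : x ^ 2 ≤ 1 / 4 := by nlinarith
  have key : 1 ≤ (1 - x) * ((1 + x) * Real.exp (2 * x ^ 2)) := by
    have h3 : 0 ≤ (1 - x) * (1 + x) := by nlinarith
    have h4 : (1 - x) * (1 + x) * (1 + 2 * x ^ 2) ≤ (1 - x) * (1 + x) * Real.exp (2 * x ^ 2) :=
      mul_le_mul_of_nonneg_left he h3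
    have h5 : 1 ≤ (1 - x) * (1 + x) * (1 + 2 * x ^ 2) := by nlinarith [sq_nonneg x]
    calc (1 : ℝ) ≤ (1 - x) * (1 + x) * (1 + 2 * x ^ 2) := h5
      _ ≤ (1 - x) * (1 + x) * Real.exp (2 * x ^ 2) := h4
      _ = (1 - x) * ((1 + x) * Real.exp (2 * x ^ 2)) := by ring
  rw [inv_le_iff_one_le_mul₀' hpos]
  exact key

theorem inv_one_sub_le_exp_two_mul {x : ℝ} (h0 : 0 ≤ x) (h1 : x ≤ 1 / 2) :
    (1 - x)⁻¹ ≤ Real.exp (2 * x) := by
  have hpos : 0 < 1 - x := by linarith
  have he : 1 + 2 * x ≤ Real.exp (2 * x) := by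
    have := Real.add_one_le_exp (2 * x)
    linarith
  have key : 1 ≤ (1 - x) * Real.exp (2 * x) := by
    have h4 : (1 - x) * (1 + 2 * x) ≤ (1 - x) * Real.exp (2 * x) :=
      mul_le_mul_of_nonneg_left he hpos.le
    have h5 : 1 ≤ (1 - x) * (1 + 2 * x) := by nlinarith
    exact h5.trans h4
  rw [inv_le_iff_one_le_mul₀' hpos]
  exact key

/-! ### The core -/

section Core

universe u v

variable (K : Type u) (L : Type v) [Field K] [NumberField K] [Field L] [NumberField L]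
  [Algebra K L]

/-- Step A: if the primes of `A` have `n` primes above them with the same norm, then
`(∏_{P ∈ A} (1 + x_P)) ^ n ≤ ζ_L(s)`. -/
theorem prod_pow_le_zR {s : ℝ} (hs : 1 < s) (n : ℕ)
    (G : HeightOneSpectrum (𝓞 K) → Finset (HeightOneSpectrum (𝓞 L)))
    (A : Finset (HeightOneSpectrum (𝓞 K)))
    (hG : ∀ P ∈ A, (G P).card = n ∧ ∀ Q ∈ G P, Q.asIdeal.under (𝓞 K) = P.asIdeal ∧
      absNorm Q.asIdeal = absNorm P.asIdeal) :
    (∏ P ∈ A, (1 + xP K s P)) ^ n ≤ zR L s := by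
  classical
  have hdisj : (A : Set (HeightOneSpectrum (𝓞 K))).PairwiseDisjoint G := by
    intro P hP P' hP' hne
    rw [Function.onFun, Finset.disjoint_left]
    intro Q hQ hQ'
    apply hne
    apply HeightOneSpectrum.ext
    rw [← ((hG P hP).2 Q hQ).1, ← ((hG P' hP').2 Q hQ').1]
  have h1 : (∏ P ∈ A, (1 + xP K s P)) ^ n = ∏ Q ∈ A.biUnion G, (1 + xP L s Q) := by
    rw [Finset.prod_biUnion hdisj, ← Finset.prod_pow]
    refine Finset.prod_congr rfl fun P hP => ?_
    have h2 : ∀ Q ∈ G P, (1 + xP L s Q) = 1 + xP K s P := by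
      intro Q hQ
      unfold xP
      rw [((hG P hP).2 Q hQ).2]
    rw [Finset.prod_congr rfl h2, Finset.prod_const, (hG P hP).1]
  rw [h1]
  exact prod_one_add_le_zR L hs _

open scoped Classical in
/-- Step B: the finite Euler product over the primes of norm `≤ X` is bounded by a constant
times the product of `1 + x_P` over the "good" primes. -/
theorem prod_inv_le_const_mul {s : ℝ} (hs : 1 ≤ s) (C : ℝ)
    (hC1 : ∀ F : Finset (HeightOneSpectrum (𝓞 K)),
      (∀ P ∈ F, ¬ (absNorm P.asIdeal).Prime) → ∑ P ∈ F, xP K s P ≤ C)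
    (hC2 : ∀ F : Finset (HeightOneSpectrum (𝓞 K)), ∑ P ∈ F, xP K s P ^ 2 ≤ C)
    (T F : Finset (HeightOneSpectrum (𝓞 K))) :
    ∏ P ∈ F, (1 - xP K s P)⁻¹ ≤
      Real.exp (2 * C + 2 * (C + T.card)) *
        ∏ P ∈ F.filter (fun P => P ∉ T ∧ (absNorm P.asIdeal).Prime), (1 + xP K s P) := by
  classical
  set p : HeightOneSpectrum (𝓞 K) → Prop := fun P => P ∉ T ∧ (absNorm P.asIdeal).Prime with hp
  have hpos : ∀ P : HeightOneSpectrum (𝓞 K), 0 ≤ (1 - xP K s P)⁻¹ := fun P =>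
    inv_nonneg.mpr (by have := xP_le_half K hs P; linarith)
  -- the good primes
  have hA : ∏ P ∈ F.filter p, (1 - xP K s P)⁻¹ ≤
      (∏ P ∈ F.filter p, (1 + xP K s P)) * Real.exp (2 * C) := by
    calc ∏ P ∈ F.filter p, (1 - xP K s P)⁻¹
        ≤ ∏ P ∈ F.filter p, ((1 + xP K s P) * Real.exp (2 * xP K s P ^ 2)) :=
          Finset.prod_le_prod (fun P _ => hpos P) fun P _ =>
            inv_one_sub_le_mul_exp (xP_nonneg K s P) (xP_le_half K hs P)
      _ = (∏ P ∈ F.filter p, (1 + xP K s P)) *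
            Real.exp (∑ P ∈ F.filter p, 2 * xP K s P ^ 2) := by
          rw [Finset.prod_mul_distrib, Real.exp_sum]
      _ ≤ (∏ P ∈ F.filter p, (1 + xP K s P)) * Real.exp (2 * C) := by
          refine mul_le_mul_of_nonneg_left ?_
            (Finset.prod_nonneg fun P _ => by have := xP_nonneg K s P; linarith)
          rw [Real.exp_le_exp, ← Finset.mul_sum]
          exact mul_le_mul_of_nonneg_left (hC2 _) (by norm_num)
  -- the other primes
  have hB : ∏ P ∈ F.filter (fun P => ¬ p P), (1 - xP K s P)⁻¹ ≤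
      Real.exp (2 * (C + T.card)) := by
    calc ∏ P ∈ F.filter (fun P => ¬ p P), (1 - xP K s P)⁻¹
        ≤ ∏ P ∈ F.filter (fun P => ¬ p P), Real.exp (2 * xP K s P) :=
          Finset.prod_le_prod (fun P _ => hpos P) fun P _ =>
            inv_one_sub_le_exp_two_mul (xP_nonneg K s P) (xP_le_half K hs P)
      _ = Real.exp (∑ P ∈ F.filter (fun P => ¬ p P), 2 * xP K s P) := by
          rw [Real.exp_sum]
      _ ≤ Real.exp (2 * (C + T.card)) := by
          rw [Real.exp_le_exp, ← Finset.mul_sum]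
          refine mul_le_mul_of_nonneg_left ?_ (by norm_num)
          rw [← Finset.sum_filter_add_sum_filter_not (F.filter (fun P => ¬ p P))
            (fun P => ¬ (absNorm P.asIdeal).Prime)]
          refine add_le_add ?_ ?_
          · refine hC1 _ fun P hP => ?_
            exact (Finset.mem_filter.mp hP).2
          · have hsub : (F.filter (fun P => ¬ p P)).filter
                (fun P => ¬ ¬ (absNorm P.asIdeal).Prime) ⊆ T := by
              intro P hP
              rw [Finset.mem_filter, Finset.mem_filter] at hP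
              obtain ⟨⟨_, hnp⟩, hpr⟩ := hP
              by_contra hPT
              exact hnp ⟨hPT, not_not.mp hpr⟩
            calc ∑ P ∈ (F.filter (fun P => ¬ p P)).filter
                  (fun P => ¬ ¬ (absNorm P.asIdeal).Prime), xP K s P
                ≤ ∑ P ∈ T, xP K s P :=
                  Finset.sum_le_sum_of_subset_of_nonneg hsub fun P _ _ => xP_nonneg K s P
              _ ≤ ∑ _P ∈ T, (1 : ℝ) :=
                  Finset.sum_le_sum fun P _ => by
                    have := xP_le_half K hs P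
                    linarith
              _ = T.card := by simp
  calc ∏ P ∈ F, (1 - xP K s P)⁻¹
      = (∏ P ∈ F.filter p, (1 - xP K s P)⁻¹) *
          ∏ P ∈ F.filter (fun P => ¬ p P), (1 - xP K s P)⁻¹ :=
        (Finset.prod_filter_mul_prod_filter_not F p _).symm
    _ ≤ ((∏ P ∈ F.filter p, (1 + xP K s P)) * Real.exp (2 * C)) *
          Real.exp (2 * (C + T.card)) :=
        mul_le_mul hA hB (Finset.prod_nonneg fun P _ => hpos P)
          (mul_nonneg (Finset.prod_nonneg fun P _ => by have := xP_nonneg K s P; linarith)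
            (Real.exp_pos _).le)
    _ = Real.exp (2 * C + 2 * (C + T.card)) * ∏ P ∈ F.filter p, (1 + xP K s P) := by
        rw [Real.exp_add]
        ring

/-- Step C: `ζ_K(s) ^ n ≤ C₀ ^ n ζ_L(s)` for `s ∈ (1, 2]`. -/
theorem zR_pow_le {s : ℝ} (hs : 1 < s) (C : ℝ)
    (hC1 : ∀ F : Finset (HeightOneSpectrum (𝓞 K)),
      (∀ P ∈ F, ¬ (absNorm P.asIdeal).Prime) → ∑ P ∈ F, xP K s P ≤ C)
    (hC2 : ∀ F : Finset (HeightOneSpectrum (𝓞 K)), ∑ P ∈ F, xP K s P ^ 2 ≤ C)
    (T : Finset (HeightOneSpectrum (𝓞 K))) (n : ℕ) (hn : n ≠ 0)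
    (G : HeightOneSpectrum (𝓞 K) → Finset (HeightOneSpectrum (𝓞 L)))
    (hG : ∀ P : HeightOneSpectrum (𝓞 K), P ∉ T → (absNorm P.asIdeal).Prime →
      (G P).card = n ∧ ∀ Q ∈ G P, Q.asIdeal.under (𝓞 K) = P.asIdeal ∧
        absNorm Q.asIdeal = absNorm P.asIdeal) :
    zR K s ^ n ≤ Real.exp (2 * C + 2 * (C + T.card)) ^ n * zR L s := by
  classical
  set C₀ : ℝ := Real.exp (2 * C + 2 * (C + T.card)) with hC₀
  have hC₀pos : 0 < C₀ := Real.exp_pos _
  have hzL : 0 ≤ zR L s := zR_nonneg L s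
  have hbound : zR K s ≤ C₀ * zR L s ^ ((n : ℝ)⁻¹) := by
    refine zR_le_of_forall_sum_le K (zero_lt_one.trans hs) fun X => ?_
    refine (sum_idealsLE_le_prod K (zero_lt_one.trans hs) X).trans ?_
    refine (prod_inv_le_const_mul K hs.le C hC1 hC2 T (primesLE K X)).trans ?_
    refine mul_le_mul_of_nonneg_left ?_ hC₀pos.le
    set A := (primesLE K X).filter (fun P => P ∉ T ∧ (absNorm P.asIdeal).Prime) with hA
    have hAnn : 0 ≤ ∏ P ∈ A, (1 + xP K s P) :=
      Finset.prod_nonneg fun P _ => by have := xP_nonneg K s P; linarith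
    have hpow : (∏ P ∈ A, (1 + xP K s P)) ^ n ≤ zR L s := by
      refine prod_pow_le_zR K L hs n G A fun P hP => ?_
      have hP' := (Finset.mem_filter.mp hP).2
      exact hG P hP'.1 hP'.2
    calc ∏ P ∈ A, (1 + xP K s P)
        = ((∏ P ∈ A, (1 + xP K s P)) ^ n) ^ ((n : ℝ)⁻¹) :=
          (Real.pow_rpow_inv_natCast hAnn hn).symm
      _ ≤ zR L s ^ ((n : ℝ)⁻¹) :=
          Real.rpow_le_rpow (pow_nonneg hAnn n) hpow (inv_nonneg.mpr (Nat.cast_nonneg n))
  calc zR K s ^ n ≤ (C₀ * zR L s ^ ((n : ℝ)⁻¹)) ^ n :=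
        pow_le_pow_left₀ (zR_nonneg K s) hbound n
    _ = C₀ ^ n * zR L s := by
        rw [mul_pow, Real.rpow_inv_natCast_pow hzL hn]

/-- **The analytic core of (D).**  `C` is a uniform bound for the sums of `N(P)^(-s)` over primes
of degree `≥ 2` and of `N(P)^(-2s)` over all primes, for `s ≥ 1`. -/
theorem density_core (C : ℝ)
    (hC1 : ∀ s : ℝ, 1 ≤ s → ∀ F : Finset (HeightOneSpectrum (𝓞 K)),
      (∀ P ∈ F, ¬ (absNorm P.asIdeal).Prime) → ∑ P ∈ F, xP K s P ≤ C)
    (hC2 : ∀ s : ℝ, 1 ≤ s → ∀ F : Finset (HeightOneSpectrum (𝓞 K)),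
      ∑ P ∈ F, xP K s P ^ 2 ≤ C)
    (hn : 2 ≤ Module.finrank K L) (T : Finset (HeightOneSpectrum (𝓞 K)))
    (H : ∀ P : HeightOneSpectrum (𝓞 K), P ∉ T → (absNorm P.asIdeal).Prime →
      ∃ S : Finset (HeightOneSpectrum (𝓞 L)), S.card = Module.finrank K L ∧
        ∀ Q ∈ S, Q.asIdeal.under (𝓞 K) = P.asIdeal ∧
          absNorm Q.asIdeal = absNorm P.asIdeal) : False := by
  classical
  set n := Module.finrank K L with hndef
  have hn0 : n ≠ 0 := by omega
  -- choose the primes above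
  have hex : ∀ P : HeightOneSpectrum (𝓞 K), ∃ S : Finset (HeightOneSpectrum (𝓞 L)),
      P ∉ T → (absNorm P.asIdeal).Prime → S.card = n ∧
        ∀ Q ∈ S, Q.asIdeal.under (𝓞 K) = P.asIdeal ∧
          absNorm Q.asIdeal = absNorm P.asIdeal := by
    intro P
    by_cases h : P ∉ T ∧ (absNorm P.asIdeal).Prime
    · obtain ⟨S, hS⟩ := H P h.1 h.2
      exact ⟨S, fun _ _ => hS⟩
    · exact ⟨∅, fun h1 h2 => absurd ⟨h1, h2⟩ h⟩
  choose G hG using hex
  set C₀ : ℝ := Real.exp (2 * C + 2 * (C + T.card)) with hC₀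
  -- the inequality on (1, 2]
  have hineq : ∀ s : ℝ, 1 < s →
      ((s - 1) * zR K s) ^ n ≤ C₀ ^ n * (s - 1) ^ (n - 1) * ((s - 1) * zR L s) := by
    intro s hs
    have h1 := zR_pow_le K L hs C (hC1 s hs.le) (hC2 s hs.le) T n hn0 G hG
    have hs0 : 0 ≤ s - 1 := by linarith
    have hsplit : (s - 1) ^ n = (s - 1) ^ (n - 1) * (s - 1) := by
      rw [← pow_succ]
      congr 1
      omega
    calc ((s - 1) * zR K s) ^ n = (s - 1) ^ n * zR K s ^ n := mul_pow _ _ _
      _ ≤ (s - 1) ^ n * (C₀ ^ n * zR L s) :=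
          mul_le_mul_of_nonneg_left h1 (pow_nonneg hs0 n)
      _ = C₀ ^ n * (s - 1) ^ (n - 1) * ((s - 1) * zR L s) := by
          rw [hsplit]
          ring
  -- limits
  have hlimK : Tendsto (fun s : ℝ => ((s - 1) * zR K s) ^ n) (𝓝[>] 1)
      (𝓝 (dedekindZeta_residue K ^ n)) := (tendsto_sub_one_mul_zR K).pow n
  have hpow0 : Tendsto (fun s : ℝ => (s - 1) ^ (n - 1)) (𝓝[>] 1) (𝓝 0) := by
    have hc : Continuous fun s : ℝ => (s - 1) ^ (n - 1) := by fun_prop
    have h := (hc.tendsto 1).mono_left (nhdsWithin_le_nhds (s := Set.Ioi (1 : ℝ)))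
    have h0 : ((1 : ℝ) - 1) ^ (n - 1) = 0 := by
      rw [sub_self]
      exact zero_pow (by omega)
    rwa [h0] at h
  have hlimL : Tendsto (fun s : ℝ => C₀ ^ n * (s - 1) ^ (n - 1) * ((s - 1) * zR L s))
      (𝓝[>] 1) (𝓝 (C₀ ^ n * 0 * dedekindZeta_residue L)) :=
    (hpow0.const_mul (C₀ ^ n)).mul (tendsto_sub_one_mul_zR L)
  have hle : dedekindZeta_residue K ^ n ≤ C₀ ^ n * 0 * dedekindZeta_residue L := by
    refine le_of_tendsto_of_tendsto hlimK hlimL ?_
    filter_upwards [self_mem_nhdsWithin] with s hs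
    exact hineq s hs
  have hpos : 0 < dedekindZeta_residue K ^ n := pow_pos (dedekindZeta_residue_pos K) n
  rw [mul_zero, zero_mul] at hle
  exact absurd hle (not_le.mpr hpos)

end Core

end Fermat.Agent.S14x.LFN.H2
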