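import Fermat.Agent.S14x.LFN.H2_ZetaReal

/-!
# S14 / LFN (helper2): finite Euler product inequalities for the Dedekind zeta function

For a number field `K`, real `s`, and `x_P = N(P)^(-s)`:
* `prod_one_add_le_zR` : `∏_{P ∈ F} (1 + x_P) ≤ ζ_K(s)` for every finite set `F` of primes (`s > 1`);
* `sum_le_prod_inv` : `∑_{I ∈ 𝒮} N(I)^(-s) ≤ ∏_{P ∈ F} (1 - x_P)⁻¹` for every finite set `𝒮` of
  nonzero ideals all of whose prime divisors lie in `F` (`s > 0`);
* `sum_idealsLE_le_prod` : the case `𝒮 = {I : 1 ≤ N(I) ≤ X}`, `F = {P : N(P) ≤ X}`.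
-/

set_option autoImplicit false

open Filter Topology NumberField Ideal Finset IsDedekindDomain

noncomputable section

namespace Fermat.Agent.S14x.LFN.H2

variable (K : Type*) [Field K] [NumberField K]

/-- `x_P = N(P)^(-s)`. -/
def xP (s : ℝ) (P : HeightOneSpectrum (𝓞 K)) : ℝ := (absNorm P.asIdeal : ℝ) ^ (-s)

theorem two_le_absNorm (P : HeightOneSpectrum (𝓞 K)) : 2 ≤ absNorm P.asIdeal := by
  have h0 : absNorm P.asIdeal ≠ 0 := fun h => P.ne_bot (absNorm_eq_zero_iff.mp h)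
  have h1 : absNorm P.asIdeal ≠ 1 := fun h => P.isPrime.ne_top (absNorm_eq_one_iff.mp h)
  omega

theorem xP_nonneg (s : ℝ) (P : HeightOneSpectrum (𝓞 K)) : 0 ≤ xP K s P :=
  Real.rpow_nonneg (Nat.cast_nonneg _) _

theorem xP_pos (s : ℝ) (P : HeightOneSpectrum (𝓞 K)) : 0 < xP K s P :=
  Real.rpow_pos_of_pos (by exact_mod_cast (zero_lt_two.trans_le (two_le_absNorm K P))) _

theorem xP_le_half {s : ℝ} (hs : 1 ≤ s) (P : HeightOneSpectrum (𝓞 K)) : xP K s P ≤ 1 / 2 := by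
  have h2 : (2 : ℝ) ≤ (absNorm P.asIdeal : ℝ) := by exact_mod_cast two_le_absNorm K P
  have hpos : (0 : ℝ) < (absNorm P.asIdeal : ℝ) := by linarith
  calc xP K s P = ((absNorm P.asIdeal : ℝ) ^ s)⁻¹ := Real.rpow_neg hpos.le s
    _ ≤ ((absNorm P.asIdeal : ℝ) ^ (1 : ℝ))⁻¹ := by
        apply inv_anti₀ (Real.rpow_pos_of_pos hpos _)
        exact Real.rpow_le_rpow_of_exponent_le (by linarith) hs
    _ = (absNorm P.asIdeal : ℝ)⁻¹ := by rw [Real.rpow_one]
    _ ≤ 1 / 2 := by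
        rw [one_div]
        exact inv_anti₀ zero_lt_two h2

theorem xP_lt_one {s : ℝ} (hs : 0 < s) (P : HeightOneSpectrum (𝓞 K)) : xP K s P < 1 := by
  have h2 : (1 : ℝ) < (absNorm P.asIdeal : ℝ) := by
    exact_mod_cast (one_lt_two.trans_le (two_le_absNorm K P))
  exact Real.rpow_lt_one_of_one_lt_of_neg h2 (neg_lt_zero.mpr hs)

/-- Monotonicity in `s`. -/
theorem xP_anti {s t : ℝ} (hst : s ≤ t) (P : HeightOneSpectrum (𝓞 K)) : xP K t P ≤ xP K s P := by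
  have h2 : (1 : ℝ) ≤ (absNorm P.asIdeal : ℝ) := by
    exact_mod_cast (one_le_two.trans (two_le_absNorm K P))
  exact Real.rpow_le_rpow_of_exponent_le h2 (neg_le_neg hst)

/-- The product of the primes in a finite set. -/
def prodIdeal (t : Finset (HeightOneSpectrum (𝓞 K))) : Ideal (𝓞 K) := ∏ Q ∈ t, Q.asIdeal

theorem prodIdeal_injective : Function.Injective (prodIdeal K) := by
  classical
  have key : ∀ t t' : Finset (HeightOneSpectrum (𝓞 K)), prodIdeal K t = prodIdeal K t' →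
      t ⊆ t' := by
    intro t t' h Q hQ
    have h1 : Q.asIdeal ∣ prodIdeal K t' := by
      rw [← h]
      exact Finset.dvd_prod_of_mem _ hQ
    obtain ⟨Q', hQ', hdvd⟩ := (Prime.dvd_finsetProd_iff Q.prime _).mp h1
    have hass : Associated Q.asIdeal Q'.asIdeal :=
      (Prime.dvd_prime_iff_associated Q.prime Q'.prime).mp hdvd
    have heq : Q.asIdeal = Q'.asIdeal := associated_iff_eq.mp hass
    have : Q = Q' := HeightOneSpectrum.ext heq
    rw [this]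
    exact hQ'
  intro t t' h
  exact Finset.Subset.antisymm (key t t' h) (key t' t h.symm)

theorem absNorm_prodIdeal_rpow (s : ℝ) (t : Finset (HeightOneSpectrum (𝓞 K))) :
    (absNorm (prodIdeal K t) : ℝ) ^ (-s) = ∏ Q ∈ t, xP K s Q := by
  rw [prodIdeal, map_prod, Nat.cast_prod]
  rw [← Real.finsetProd_rpow _ _ (fun Q _ => Nat.cast_nonneg _)]
  rfl

/-- **Lower Euler bound.** -/
theorem prod_one_add_le_zR {s : ℝ} (hs : 1 < s) (F : Finset (HeightOneSpectrum (𝓞 K))) :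
    ∏ Q ∈ F, (1 + xP K s Q) ≤ zR K s := by
  classical
  rw [Finset.prod_one_add]
  have h1 : ∑ t ∈ F.powerset, ∏ Q ∈ t, xP K s Q =
      ∑ I ∈ F.powerset.image (prodIdeal K), (absNorm I : ℝ) ^ (-s) := by
    rw [Finset.sum_image (fun t _ t' _ h => prodIdeal_injective K h)]
    exact Finset.sum_congr rfl fun t _ => (absNorm_prodIdeal_rpow K s t).symm
  rw [h1]
  exact sum_le_zR K hs _

theorem absNorm_rpow_mul (s : ℝ) (P : HeightOneSpectrum (𝓞 K)) (k : ℕ) (J : Ideal (𝓞 K)) :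
    (absNorm (P.asIdeal ^ k * J) : ℝ) ^ (-s) = xP K s P ^ k * (absNorm J : ℝ) ^ (-s) := by
  have h1 : ((absNorm P.asIdeal : ℝ) ^ k) ^ (-s) = ((absNorm P.asIdeal : ℝ) ^ (-s)) ^ k := by
    rw [← Real.rpow_natCast, ← Real.rpow_natCast, ← Real.rpow_mul (Nat.cast_nonneg _),
      ← Real.rpow_mul (Nat.cast_nonneg _), mul_comm]
  rw [map_mul, map_pow, Nat.cast_mul, Nat.cast_pow,
    Real.mul_rpow (pow_nonneg (Nat.cast_nonneg _) _) (Nat.cast_nonneg _), xP, h1]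

theorem geom_le {x : ℝ} (h0 : 0 ≤ x) (h1 : x < 1) (n : ℕ) :
    ∑ i ∈ range n, x ^ i ≤ (1 - x)⁻¹ := by
  have hpos : 0 < 1 - x := by linarith
  have h := geom_sum_mul_neg x n
  rw [← one_div, le_div_iff₀ hpos, h]
  have : 0 ≤ x ^ n := pow_nonneg h0 n
  linarith

/-- **Upper Euler bound.** -/
theorem sum_le_prod_inv {s : ℝ} (hs : 0 < s) (F : Finset (HeightOneSpectrum (𝓞 K))) :
    ∀ 𝒮 : Finset (Ideal (𝓞 K)),
      (∀ I ∈ 𝒮, I ≠ ⊥ ∧ ∀ P : HeightOneSpectrum (𝓞 K), P.asIdeal ∣ I → P ∈ F) →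
      ∑ I ∈ 𝒮, (absNorm I : ℝ) ^ (-s) ≤ ∏ P ∈ F, (1 - xP K s P)⁻¹ := by
  classical
  induction F using Finset.induction_on with
  | empty =>
    intro 𝒮 h𝒮
    have hsub : 𝒮 ⊆ {⊤} := by
      intro I hI
      rw [Finset.mem_singleton]
      by_contra hne
      obtain ⟨M, hM, hIM⟩ := Ideal.exists_le_maximal I hne
      have hM0 : M ≠ ⊥ := fun h => (h𝒮 I hI).1 (le_bot_iff.mp (h ▸ hIM))
      have := (h𝒮 I hI).2 ⟨M, hM.isPrime, hM0⟩ (Ideal.dvd_iff_le.mpr hIM)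
      simp at this
    calc ∑ I ∈ 𝒮, (absNorm I : ℝ) ^ (-s)
        ≤ ∑ I ∈ ({⊤} : Finset (Ideal (𝓞 K))), (absNorm I : ℝ) ^ (-s) :=
          Finset.sum_le_sum_of_subset_of_nonneg hsub
            (fun _ _ _ => Real.rpow_nonneg (Nat.cast_nonneg _) _)
      _ = 1 := by simp
      _ ≤ _ := by simp
  | insert P F' hP ih =>
    intro 𝒮 h𝒮
    have hdec : ∀ I ∈ 𝒮, ∃ (k : ℕ) (J : Ideal (𝓞 K)), ¬ P.asIdeal ∣ J ∧ I = P.asIdeal ^ k * J :=
      fun I hI => WfDvdMonoid.max_power_factor (h𝒮 I hI).1 P.irreducible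
    choose! k J hJ hIJ using hdec
    have h𝒮' : ∀ J' ∈ 𝒮.image J, J' ≠ ⊥ ∧
        ∀ Q : HeightOneSpectrum (𝓞 K), Q.asIdeal ∣ J' → Q ∈ F' := by
      intro J' hJ'
      obtain ⟨I, hI, rfl⟩ := Finset.mem_image.mp hJ'
      refine ⟨?_, ?_⟩
      · intro h0
        apply (h𝒮 I hI).1
        rw [hIJ I hI, h0, ← Ideal.zero_eq_bot, mul_zero]
      · intro Q hQ
        have hQI : Q.asIdeal ∣ I := by
          rw [hIJ I hI]
          exact Dvd.dvd.mul_left hQ _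
        rcases Finset.mem_insert.mp ((h𝒮 I hI).2 Q hQI) with h | h
        · exact absurd (h ▸ hQ) (hJ I hI)
        · exact h
    have hx0 := xP_nonneg K s P
    have hx1 := xP_lt_one K hs P
    set f : ℕ × Ideal (𝓞 K) → ℝ := fun p => xP K s P ^ p.1 * (absNorm p.2 : ℝ) ^ (-s) with hf
    have hfnn : ∀ p, 0 ≤ f p := fun p =>
      mul_nonneg (pow_nonneg hx0 _) (Real.rpow_nonneg (Nat.cast_nonneg _) _)
    have hinj : Set.InjOn (fun I => (k I, J I)) (𝒮 : Set (Ideal (𝓞 K))) := by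
      intro I hI I' hI' h
      simp only [Prod.mk.injEq] at h
      rw [hIJ I hI, hIJ I' hI', h.1, h.2]
    have hsub : 𝒮.image (fun I => (k I, J I)) ⊆ range (𝒮.sup k + 1) ×ˢ 𝒮.image J := by
      intro p hp
      obtain ⟨I, hI, rfl⟩ := Finset.mem_image.mp hp
      rw [Finset.mem_product]
      exact ⟨Finset.mem_range.mpr (Nat.lt_succ_of_le (Finset.le_sup hI)),
        Finset.mem_image_of_mem _ hI⟩
    calc ∑ I ∈ 𝒮, (absNorm I : ℝ) ^ (-s)
        = ∑ I ∈ 𝒮, f (k I, J I) := by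
          refine Finset.sum_congr rfl fun I hI => ?_
          conv_lhs => rw [hIJ I hI]
          exact absNorm_rpow_mul K s P (k I) (J I)
      _ = ∑ p ∈ 𝒮.image (fun I => (k I, J I)), f p := (Finset.sum_image hinj).symm
      _ ≤ ∑ p ∈ range (𝒮.sup k + 1) ×ˢ 𝒮.image J, f p :=
          Finset.sum_le_sum_of_subset_of_nonneg hsub (fun p _ _ => hfnn p)
      _ = (∑ i ∈ range (𝒮.sup k + 1), xP K s P ^ i) *
            ∑ J' ∈ 𝒮.image J, (absNorm J' : ℝ) ^ (-s) := by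
          rw [Finset.sum_product, Finset.sum_mul_sum]
      _ ≤ (1 - xP K s P)⁻¹ * ∏ Q ∈ F', (1 - xP K s Q)⁻¹ := by
          apply mul_le_mul (geom_le hx0 hx1 _) (ih _ h𝒮')
            (Finset.sum_nonneg fun _ _ => Real.rpow_nonneg (Nat.cast_nonneg _) _)
          exact inv_nonneg.mpr (by linarith)
      _ = ∏ Q ∈ insert P F', (1 - xP K s Q)⁻¹ := by rw [Finset.prod_insert hP]

/-- The primes of norm at most `X`. -/
def primesLE (X : ℕ) : Finset (HeightOneSpectrum (𝓞 K)) :=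
  (Set.Finite.toFinset (s := {P : HeightOneSpectrum (𝓞 K) | absNorm P.asIdeal ≤ X})
    (Set.Finite.of_finite_image (f := fun P : HeightOneSpectrum (𝓞 K) => P.asIdeal)
      ((finite_setOfPred_absNorm_le (S := 𝓞 K) X).subset (by
        rintro _ ⟨P, hP, rfl⟩
        exact hP))
      (fun P _ Q _ h => HeightOneSpectrum.ext h)))

theorem mem_primesLE {X : ℕ} {P : HeightOneSpectrum (𝓞 K)} :
    P ∈ primesLE K X ↔ absNorm P.asIdeal ≤ X := by
  simp [primesLE]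

/-- The partial sums of `ζ_K(s)` are bounded by the finite Euler products. -/
theorem sum_idealsLE_le_prod {s : ℝ} (hs : 0 < s) (X : ℕ) :
    ∑ I ∈ idealsLE K X, (absNorm I : ℝ) ^ (-s) ≤ ∏ P ∈ primesLE K X, (1 - xP K s P)⁻¹ := by
  refine sum_le_prod_inv K hs (primesLE K X) (idealsLE K X) fun I hI => ?_
  obtain ⟨h1, h2⟩ := (mem_idealsLE K).mp hI
  refine ⟨fun h0 => ?_, fun P hP => ?_⟩
  · rw [h0, absNorm_bot] at h1
    exact absurd h1 (by norm_num)
  · rw [mem_primesLE]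
    have hdvd : absNorm P.asIdeal ∣ absNorm I := absNorm_dvd_absNorm_of_le (Ideal.dvd_iff_le.mp hP)
    exact (Nat.le_of_dvd (by omega) hdvd).trans h2

end Fermat.Agent.S14x.LFN.H2
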