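import Mathlib

/-!
# S14 / LFN (helper2): the Dedekind zeta function as a real series

`zR K s = ∑ₙ a(n) n^(-s)` (`a(n)` = number of ideals of norm `n`), for real `s > 1`:
* `ofReal_zR` : it is Mathlib's `dedekindZeta K s`;
* `tendsto_sub_one_mul_zR` : `(s - 1) zR K s → residue > 0` as `s → 1+`;
* `sum_le_zR` : finite sums of `N(I)^(-s)` over nonzero ideals are `≤ zR K s`;
* `zR_le_of_forall_sum_le` : `zR K s ≤ c` if all sums over `{I : 1 ≤ N(I) ≤ X}` are `≤ c`.
-/

set_option autoImplicit false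

open Filter Topology NumberField Ideal Finset

noncomputable section

namespace Fermat.Agent.S14x.LFN.H2

variable (K : Type*) [Field K] [NumberField K]

/-- The number of ideals of norm `n`. -/
def cnt (n : ℕ) : ℕ := Nat.card {I : Ideal (𝓞 K) // absNorm I = n}

theorem dedekindZeta_eq_LSeries_cnt (s : ℂ) :
    dedekindZeta K s = LSeries (fun n ↦ (cnt K n : ℂ)) s := rfl

theorem tendsto_sum_cnt_div :
    Tendsto (fun n : ℕ ↦ (∑ k ∈ Icc 1 n, (cnt K k : ℝ)) / (n : ℝ)) atTop
      (𝓝 (dedekindZeta_residue K)) := by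
  refine ((Ideal.tendsto_norm_le_div_atTop₀ K).comp tendsto_natCast_atTop_atTop).congr fun n ↦ ?_
  simp only [Function.comp_apply, Nat.cast_le, ← Nat.cast_sum, cnt]
  congr
  rw [← add_left_inj 1, ← card_norm_le_eq_card_norm_le_add_one,
    show Finset.Icc 1 n = Finset.Ioc 0 n from Finset.Icc_succ_left_eq_Ioc _ _,
    show 1 = Nat.card {I : Ideal (𝓞 K) // absNorm I = 0} by simp [Ideal.absNorm_eq_zero_iff],
    Finset.sum_Ioc_add_eq_sum_Icc (n.zero_le),
    ← Finset.card_preimage_eq_sum_card_image_eq (fun k _ ↦ finite_setOfPred_absNorm_eq k)]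
  simp [Set.coe_eq_subtype]

theorem lseriesSummable_cnt {s : ℂ} (hs : 1 < s.re) :
    LSeriesSummable (fun n ↦ (cnt K n : ℂ)) s := by
  have h := LSeriesSummable_of_sum_norm_bigO_and_nonneg (f := fun n ↦ (cnt K n : ℝ)) (r := 1)
    (s := s) ?_ (fun _ ↦ Nat.cast_nonneg _) zero_le_one hs
  · simpa using h
  · exact Asymptotics.isBigO_atTop_natCast_rpow_of_tendsto_div_rpow (a := dedekindZeta_residue K)
      (by simpa using tendsto_sum_cnt_div K)

/-- The terms of the real Dedekind zeta series. -/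
def zterm (s : ℝ) (n : ℕ) : ℝ := (cnt K n : ℝ) * (n : ℝ) ^ (-s)

theorem zterm_nonneg (s : ℝ) (n : ℕ) : 0 ≤ zterm K s n :=
  mul_nonneg (Nat.cast_nonneg _) (Real.rpow_nonneg (Nat.cast_nonneg _) _)

theorem ofReal_zterm {s : ℝ} (hs : 0 < s) (n : ℕ) :
    ((zterm K s n : ℝ) : ℂ) = LSeries.term (fun n ↦ (cnt K n : ℂ)) s n := by
  rcases eq_or_ne n 0 with rfl | hn
  · simp [zterm, LSeries.term_zero, Real.zero_rpow (neg_ne_zero.mpr hs.ne')]
  · rw [LSeries.term_of_ne_zero hn, zterm]
    push_cast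
    rw [Complex.ofReal_cpow (Nat.cast_nonneg n), div_eq_mul_inv, ← Complex.cpow_neg]
    simp

theorem summable_zterm {s : ℝ} (hs : 1 < s) : Summable (zterm K s) := by
  have h : LSeriesSummable (fun n ↦ (cnt K n : ℂ)) (s : ℂ) := lseriesSummable_cnt K (by simpa)
  rw [LSeriesSummable] at h
  rw [← Complex.summable_ofReal]
  refine h.congr fun n ↦ ?_
  exact (ofReal_zterm K (zero_lt_one.trans hs) n).symm

/-- The real Dedekind zeta function. -/
def zR (s : ℝ) : ℝ := ∑' n : ℕ, zterm K s n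

theorem zR_nonneg (s : ℝ) : 0 ≤ zR K s := tsum_nonneg (zterm_nonneg K s)

theorem ofReal_zR {s : ℝ} (hs : 1 < s) : ((zR K s : ℝ) : ℂ) = dedekindZeta K (s : ℂ) := by
  rw [zR, Complex.ofReal_tsum, dedekindZeta_eq_LSeries_cnt, LSeries]
  exact tsum_congr fun n ↦ ofReal_zterm K (zero_lt_one.trans hs) n

theorem tendsto_sub_one_mul_zR :
    Tendsto (fun s : ℝ ↦ (s - 1) * zR K s) (𝓝[>] 1) (𝓝 (dedekindZeta_residue K)) := by
  have h := tendsto_sub_one_mul_dedekindZeta_nhdsGT K
  have h2 := (Complex.continuous_re.tendsto _).comp h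
  simp only [Complex.ofReal_re] at h2
  refine h2.congr' ?_
  filter_upwards [self_mem_nhdsWithin] with s hs
  have hs1 : (1 : ℝ) < s := hs
  simp only [Function.comp_apply]
  rw [← ofReal_zR K hs1]
  have : ((s : ℂ) - 1) * ((zR K s : ℝ) : ℂ) = (((s - 1) * zR K s : ℝ) : ℂ) := by push_cast; ring
  rw [this, Complex.ofReal_re]

/-- The nonzero ideals of norm at most `X`. -/
def idealsLE (X : ℕ) : Finset (Ideal (𝓞 K)) :=
  ((finite_setOfPred_absNorm_le (S := 𝓞 K) X).toFinset).filter (fun I => 1 ≤ absNorm I)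

theorem mem_idealsLE {X : ℕ} {I : Ideal (𝓞 K)} :
    I ∈ idealsLE K X ↔ 1 ≤ absNorm I ∧ absNorm I ≤ X := by
  simp [idealsLE, and_comm]

theorem card_filter_le_cnt (𝒮 : Finset (Ideal (𝓞 K))) (n : ℕ) :
    (𝒮.filter (fun I => absNorm I = n)).card ≤ cnt K n := by
  classical
  have hfin : {I : Ideal (𝓞 K) | absNorm I = n}.Finite := finite_setOfPred_absNorm_eq n
  have h1 : cnt K n = hfin.toFinset.card := by
    rw [cnt, ← Set.ncard_eq_toFinset_card _ hfin]
    rfl
  rw [h1]
  apply Finset.card_le_card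
  intro I hI
  simpa using (Finset.mem_filter.mp hI).2

theorem card_filter_idealsLE (X n : ℕ) (hn : n ∈ Icc 1 X) :
    ((idealsLE K X).filter (fun I => absNorm I = n)).card = cnt K n := by
  classical
  have hfin : {I : Ideal (𝓞 K) | absNorm I = n}.Finite := finite_setOfPred_absNorm_eq n
  have h1 : cnt K n = hfin.toFinset.card := by
    rw [cnt, ← Set.ncard_eq_toFinset_card _ hfin]
    rfl
  rw [h1]
  congr 1
  ext I
  simp only [Finset.mem_filter, mem_idealsLE, Set.Finite.mem_toFinset, Set.mem_ofPred_eq]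
  rw [Finset.mem_Icc] at hn
  constructor
  · exact fun h => h.2
  · intro h
    exact ⟨by rw [h]; exact hn, h⟩

/-- Regrouping a finite sum over ideals by the norm. -/
theorem sum_ideals_eq (𝒮 : Finset (Ideal (𝓞 K))) (g : ℕ → ℝ) :
    ∑ I ∈ 𝒮, g (absNorm I) =
      ∑ n ∈ 𝒮.image (fun I => absNorm I),
        ((𝒮.filter (fun I => absNorm I = n)).card : ℝ) * g n := by
  classical
  rw [← Finset.sum_fiberwise_of_maps_to (g := fun I => absNorm I) (t := 𝒮.image (fun I => absNorm I))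
    (fun I hI => Finset.mem_image_of_mem _ hI)]
  refine Finset.sum_congr rfl fun n _ => ?_
  rw [Finset.sum_filter, Finset.card_filter, Nat.cast_sum, Finset.sum_mul]
  refine Finset.sum_congr rfl fun I _ => ?_
  split_ifs with h
  · rw [h]; simp
  · simp

/-- Finite sums of `N(I)^(-s)` over nonzero ideals are bounded by `zR K s`. -/
theorem sum_le_zR {s : ℝ} (hs : 1 < s) (𝒮 : Finset (Ideal (𝓞 K))) :
    ∑ I ∈ 𝒮, (absNorm I : ℝ) ^ (-s) ≤ zR K s := by
  classical
  rw [sum_ideals_eq K 𝒮 (fun n => (n : ℝ) ^ (-s))]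
  calc ∑ n ∈ 𝒮.image (fun I => absNorm I),
        ((𝒮.filter (fun I => absNorm I = n)).card : ℝ) * (n : ℝ) ^ (-s)
      ≤ ∑ n ∈ 𝒮.image (fun I => absNorm I), zterm K s n := by
        refine Finset.sum_le_sum fun n _ => ?_
        exact mul_le_mul_of_nonneg_right (by exact_mod_cast card_filter_le_cnt K 𝒮 n)
          (Real.rpow_nonneg (Nat.cast_nonneg _) _)
    _ ≤ zR K s := (summable_zterm K hs).sum_le_tsum _ (fun n _ => zterm_nonneg K s n)

/-- `zR K s` is the supremum of the sums over the nonzero ideals of norm at most `X`. -/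
theorem zR_le_of_forall_sum_le {s : ℝ} (hs : 0 < s) {c : ℝ}
    (h : ∀ X : ℕ, ∑ I ∈ idealsLE K X, (absNorm I : ℝ) ^ (-s) ≤ c) : zR K s ≤ c := by
  classical
  refine Real.tsum_le_of_sum_range_le (zterm_nonneg K s) fun m => ?_
  refine le_trans ?_ (h m)
  rw [sum_ideals_eq K (idealsLE K m) (fun n => (n : ℝ) ^ (-s))]
  have himg : (idealsLE K m).image (fun I => absNorm I) ⊆ Icc 1 m := by
    intro n hn
    obtain ⟨I, hI, rfl⟩ := Finset.mem_image.mp hn
    exact Finset.mem_Icc.mpr ((mem_idealsLE K).mp hI)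
  have h1 : ∑ n ∈ (idealsLE K m).image (fun I => absNorm I),
      (((idealsLE K m).filter (fun I => absNorm I = n)).card : ℝ) * (n : ℝ) ^ (-s) =
      ∑ n ∈ Icc 1 m, zterm K s n := by
    rw [← Finset.sum_subset himg]
    · refine Finset.sum_congr rfl fun n hn => ?_
      rw [card_filter_idealsLE K m n (himg hn)]
      rfl
    · intro n hn hn'
      have : cnt K n = 0 := by
        rw [← card_filter_idealsLE K m n hn, Finset.card_eq_zero, Finset.filter_eq_empty_iff]
        intro I hI hIn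
        exact hn' (Finset.mem_image.mpr ⟨I, hI, hIn⟩)
      simp [zterm, this]
  rw [h1]
  have h2 : ∑ n ∈ range m, zterm K s n ≤ ∑ n ∈ range (m + 1), zterm K s n :=
    Finset.sum_le_sum_of_subset_of_nonneg (Finset.range_mono (Nat.le_succ m))
      (fun n _ _ => zterm_nonneg K s n)
  refine h2.trans (le_of_eq ?_)
  have h3 : range (m + 1) = insert 0 (Icc 1 m) := by
    ext n; simp [Finset.mem_Icc]; omega
  rw [h3, Finset.sum_insert (by simp)]
  simp [zterm, Real.zero_rpow (neg_ne_zero.mpr hs.ne')]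

end Fermat.Agent.S14x.LFN.H2
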