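import Mathlib

/-!
# S14, package LFN: Euler product over a free commutative monoid (helper4)

For a family `x : ι → F` in a complete normed field, the "monomials"
`h4_mon x k = ∏ i, x i ^ k i` (`k : ι →₀ ℕ`) satisfy the Euler product identity
`∑' k, h4_mon x k = ∏' i, (1 - x i)⁻¹` as soon as `‖x i‖ < 1` and the left side is absolutely
summable.  This is the abstract form of the Euler product of an `L`-series over the ideals of
a Dedekind domain (the monoid of nonzero ideals is free on the primes).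
-/

set_option autoImplicit false
set_option linter.style.haveILetI false

open Filter Topology Finsupp

namespace Fermat.Agent.S14x.LFN.H4

section Mon

variable {ι : Type*} {F : Type*} [NormedField F]

/-- The monomial `∏ i, x i ^ k i`. -/
noncomputable def h4_mon (x : ι → F) (k : ι →₀ ℕ) : F := k.prod (fun i e => x i ^ e)

theorem h4_mon_zero (x : ι → F) : h4_mon x 0 = 1 := Finsupp.prod_zero_index

theorem h4_mon_add (x : ι → F) (k l : ι →₀ ℕ) : h4_mon x (k + l) = h4_mon x k * h4_mon x l :=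
  Finsupp.prod_add_index' (fun _ => pow_zero _) (fun _ _ _ => pow_add _ _ _)

theorem h4_mon_single (x : ι → F) (i : ι) (n : ℕ) : h4_mon x (single i n) = x i ^ n :=
  Finsupp.prod_single_index (pow_zero _)

theorem h4_norm_mon (x : ι → F) (k : ι →₀ ℕ) : ‖h4_mon x k‖ = h4_mon (fun i => ‖x i‖) k := by
  unfold h4_mon Finsupp.prod
  rw [norm_prod]
  exact Finset.prod_congr rfl fun i _ => norm_pow _ _

theorem h4_mon_nonneg (y : ι → ℝ) (hy : ∀ i, 0 ≤ y i) (k : ι →₀ ℕ) : 0 ≤ h4_mon y k :=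
  Finset.prod_nonneg fun i _ => pow_nonneg (hy i) _

/-- Finitely supported exponent vectors supported in `S`. -/
def h4_supp (S : Finset ι) : Set (ι →₀ ℕ) := {k | k.support ⊆ S}

theorem h4_mem_supp {S : Finset ι} {k : ι →₀ ℕ} : k ∈ h4_supp S ↔ k.support ⊆ S := Iff.rfl

theorem h4_supp_empty : h4_supp (∅ : Finset ι) = {0} := by
  ext k
  simp only [h4_mem_supp, Finset.subset_empty, Finsupp.support_eq_empty, Set.mem_singleton_iff]

variable [DecidableEq ι]

/-- `ℕ × (vectors supported in S) ≃ (vectors supported in insert a S)` for `a ∉ S`. -/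
noncomputable def h4_equiv {S : Finset ι} {a : ι} (ha : a ∉ S) :
    ℕ × h4_supp S ≃ h4_supp (insert a S) where
  toFun z := ⟨single a z.1 + z.2.1, by
    refine (Finsupp.support_add).trans ?_
    refine Finset.union_subset ?_ (z.2.2.trans (Finset.subset_insert a S))
    exact (Finsupp.support_single_subset).trans (by simp)⟩
  invFun k := (k.1 a, ⟨k.1.erase a, by
    intro i hi
    rw [Finsupp.support_erase, Finset.mem_erase] at hi
    exact Finset.mem_of_mem_insert_of_ne (k.2 hi.2) hi.1⟩)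
  left_inv := by
    rintro ⟨n, k, hk⟩
    have hka : k a = 0 := by
      by_contra h
      exact ha (hk (Finsupp.mem_support_iff.mpr h))
    refine Prod.ext ?_ (Subtype.ext ?_)
    · simp [hka]
    · ext i
      by_cases hi : i = a
      · subst hi; simp [hka]
      · simp [hi]
  right_inv := by
    rintro ⟨k, hk⟩
    refine Subtype.ext ?_
    show single a (k a) + k.erase a = k
    rw [add_comm]
    exact Finsupp.erase_add_single a k

theorem h4_mon_equiv (x : ι → F) {S : Finset ι} {a : ι} (ha : a ∉ S) (z : ℕ × h4_supp S) :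
    h4_mon x (h4_equiv ha z : ι →₀ ℕ) = x a ^ z.1 * h4_mon x (z.2 : ι →₀ ℕ) := by
  show h4_mon x (single a z.1 + z.2.1) = _
  rw [h4_mon_add, h4_mon_single]

end Mon

section Euler

variable {ι : Type*} {F : Type*} [NormedField F] [CompleteSpace F]

/-- The finite Euler product: the sum of the monomials supported in `S` is
`∏ i ∈ S, (1 - x i)⁻¹`, with absolute convergence. -/
theorem h4_hasSum_supp (x : ι → F) (hx : ∀ i, ‖x i‖ < 1) (S : Finset ι) :
    Summable (fun k : h4_supp S => ‖h4_mon x (k : ι →₀ ℕ)‖) ∧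
      HasSum (fun k : h4_supp S => h4_mon x (k : ι →₀ ℕ)) (∏ i ∈ S, (1 - x i)⁻¹) := by
  classical
  induction S using Finset.induction_on with
  | empty =>
    have h0 : ∀ k : h4_supp (∅ : Finset ι), (k : ι →₀ ℕ) = 0 := fun k => by
      have := k.2
      rwa [h4_mem_supp, Finset.subset_empty, Finsupp.support_eq_empty] at this
    haveI : Unique (h4_supp (∅ : Finset ι)) :=
      { default := ⟨0, by rw [h4_mem_supp, Finsupp.support_zero]⟩
        uniq := fun k => Subtype.ext (h0 k) }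
    refine ⟨Summable.of_finite, ?_⟩
    have h1 := hasSum_unique (fun k : h4_supp (∅ : Finset ι) => h4_mon x (k : ι →₀ ℕ))
    rw [h0, h4_mon_zero] at h1
    simpa using h1
  | insert a S ha ih =>
    obtain ⟨ih1, ih2⟩ := ih
    set f : ℕ → F := fun n => x a ^ n with hf
    set g : h4_supp S → F := fun k => h4_mon x (k : ι →₀ ℕ) with hg
    have hg1 : Summable (fun n : ℕ => ‖f n‖) := by
      simp only [hf, norm_pow]
      exact summable_geometric_of_lt_one (norm_nonneg _) (hx a)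
    have hg2 : HasSum f (1 - x a)⁻¹ := hasSum_geometric_of_norm_lt_one (hx a)
    have ih1' : Summable (fun k => ‖g k‖) := ih1
    have hs1 : Summable (fun z : ℕ × h4_supp S => ‖f z.1 * g z.2‖) :=
      Summable.mul_norm hg1 ih1'
    have hs2 : HasSum (fun z : ℕ × h4_supp S => f z.1 * g z.2)
        ((1 - x a)⁻¹ * ∏ i ∈ S, (1 - x i)⁻¹) := by
      have hsm : Summable (fun z : ℕ × h4_supp S => f z.1 * g z.2) :=
        summable_mul_of_summable_norm hg1 ih1'
      have h3 := tsum_mul_tsum_of_summable_norm hg1 ih1'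
      rw [hg2.tsum_eq, HasSum.tsum_eq ih2] at h3
      rw [h3]
      exact hsm.hasSum
    have hcomp : ∀ z : ℕ × h4_supp S,
        h4_mon x ((h4_equiv ha z : h4_supp (insert a S)) : ι →₀ ℕ) = f z.1 * g z.2 :=
      fun z => h4_mon_equiv x ha z
    constructor
    · refine ((h4_equiv ha).summable_iff (f := fun k : h4_supp (insert a S) =>
        ‖h4_mon x (k : ι →₀ ℕ)‖)).mp ?_
      refine hs1.congr fun z => ?_
      simp only [Function.comp_apply, hcomp]
    · rw [Finset.prod_insert ha]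
      refine ((h4_equiv ha).hasSum_iff (f := fun k : h4_supp (insert a S) =>
        h4_mon x (k : ι →₀ ℕ))).mp ?_
      have : ((fun k : h4_supp (insert a S) => h4_mon x (k : ι →₀ ℕ)) ∘ (h4_equiv ha)) =
          fun z : ℕ × h4_supp S => f z.1 * g z.2 := funext hcomp
      rw [this]
      exact hs2

theorem h4_tsum_indicator_supp (x : ι → F) (hx : ∀ i, ‖x i‖ < 1) (S : Finset ι) :
    ∑' k, (h4_supp S).indicator (h4_mon x) k = ∏ i ∈ S, (1 - x i)⁻¹ := by
  rw [← (h4_hasSum_supp x hx S).2.tsum_eq]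
  exact (tsum_subtype (h4_supp S) (h4_mon x)).symm

/-- **Euler product** over a free commutative monoid. -/
theorem h4_eulerProduct_hasProd (x : ι → F) (hx : ∀ i, ‖x i‖ < 1)
    (hsum : Summable (fun k : ι →₀ ℕ => ‖h4_mon x k‖)) :
    HasProd (fun i => (1 - x i)⁻¹) (∑' k, h4_mon x k) := by
  show Tendsto (fun S : Finset ι => ∏ i ∈ S, (1 - x i)⁻¹) atTop (𝓝 _)
  simp_rw [← h4_tsum_indicator_supp x hx]
  refine tendsto_tsum_of_dominated_convergence (bound := fun k => ‖h4_mon x k‖) hsum ?_ ?_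
  · intro k
    refine tendsto_const_nhds.congr' ?_
    filter_upwards [eventually_ge_atTop k.support] with S hS
    rw [Set.indicator_of_mem]
    exact hS
  · refine Eventually.of_forall fun S k => ?_
    by_cases h : k ∈ h4_supp S
    · rw [Set.indicator_of_mem h]
    · rw [Set.indicator_of_notMem h, norm_zero]
      exact norm_nonneg _

theorem h4_eulerProduct_tprod (x : ι → F) (hx : ∀ i, ‖x i‖ < 1)
    (hsum : Summable (fun k : ι →₀ ℕ => ‖h4_mon x k‖)) :
    ∏' i, (1 - x i)⁻¹ = ∑' k, h4_mon x k :=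
  (h4_eulerProduct_hasProd x hx hsum).tprod_eq

end Euler

section Real

variable {ι : Type*}

/-- Absolute summability of the monomials from a uniform bound on the finite Euler products. -/
theorem h4_summable_mon_of_prod_le (y : ι → ℝ) (hy0 : ∀ i, 0 ≤ y i) (hy1 : ∀ i, y i < 1) (B : ℝ)
    (hB : ∀ S : Finset ι, ∏ i ∈ S, (1 - y i)⁻¹ ≤ B) : Summable (h4_mon y) := by
  classical
  have hy : ∀ i, ‖y i‖ < 1 := fun i => by rw [Real.norm_of_nonneg (hy0 i)]; exact hy1 i
  refine summable_of_sum_le (fun k => h4_mon_nonneg y hy0 k) (c := B) fun T => ?_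
  set S : Finset ι := T.biUnion Finsupp.support with hS
  obtain ⟨h1, h2⟩ := h4_hasSum_supp y hy S
  have h1' : Summable (fun k : h4_supp S => h4_mon y (k : ι →₀ ℕ)) := by
    refine h1.congr fun k => ?_
    rw [Real.norm_of_nonneg (h4_mon_nonneg y hy0 _)]
  have hT : ∀ k ∈ T, k ∈ h4_supp S := fun k hk =>
    Finset.subset_biUnion_of_mem Finsupp.support hk
  calc ∑ k ∈ T, h4_mon y k
      = ∑ k ∈ T.subtype (· ∈ h4_supp S), h4_mon y (k : ι →₀ ℕ) := by
        rw [Finset.sum_subtype_of_mem (fun k => h4_mon y k) hT]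
    _ ≤ ∑' k : h4_supp S, h4_mon y (k : ι →₀ ℕ) :=
        h1'.sum_le_tsum _ (fun k _ => h4_mon_nonneg y hy0 _)
    _ = ∏ i ∈ S, (1 - y i)⁻¹ := h2.tsum_eq
    _ ≤ B := hB S

/-- `(1 - y)⁻¹ ≤ exp (y + y ^ 2)` for `0 ≤ y ≤ 1 / 2`. -/
theorem h4_inv_one_sub_le_exp {y : ℝ} (h0 : 0 ≤ y) (h1 : y ≤ 1 / 2) :
    (1 - y)⁻¹ ≤ Real.exp (y + y ^ 2) := by
  have hpos : 0 < 1 - y := by linarith
  rw [inv_le_iff_one_le_mul₀ hpos]
  have h2 : 1 + (y + y ^ 2) + (y + y ^ 2) ^ 2 / 2 ≤ Real.exp (y + y ^ 2) :=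
    Real.quadratic_le_exp_of_nonneg (by positivity)
  have h3 : 1 ≤ (1 - y) * (1 + (y + y ^ 2) + (y + y ^ 2) ^ 2 / 2) := by
    have h4 : y + y ^ 2 + y ^ 3 ≤ 1 := by nlinarith [mul_nonneg h0 h0, mul_nonneg h0 (mul_nonneg h0 h0)]
    have h5 : (1 - y) * (1 + (y + y ^ 2) + (y + y ^ 2) ^ 2 / 2) =
        1 + y ^ 2 / 2 * (1 - (y + y ^ 2 + y ^ 3)) := by ring
    rw [h5]
    have : 0 ≤ y ^ 2 / 2 * (1 - (y + y ^ 2 + y ^ 3)) :=
      mul_nonneg (by positivity) (by linarith)
    linarith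
  calc (1 : ℝ) ≤ (1 - y) * (1 + (y + y ^ 2) + (y + y ^ 2) ^ 2 / 2) := h3
    _ ≤ (1 - y) * Real.exp (y + y ^ 2) := mul_le_mul_of_nonneg_left h2 hpos.le
    _ = Real.exp (y + y ^ 2) * (1 - y) := mul_comm _ _

/-- `exp y ≤ (1 - y)⁻¹` for `0 ≤ y < 1`. -/
theorem h4_exp_le_inv_one_sub {y : ℝ} (h1 : y < 1) : Real.exp y ≤ (1 - y)⁻¹ := by
  have hpos : 0 < 1 - y := by linarith
  rw [le_inv_comm₀ (Real.exp_pos y) hpos, ← Real.exp_neg]
  linarith [Real.add_one_le_exp (-y)]

/-- Upper bound for finite Euler products. -/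
theorem h4_prod_le_exp (y : ι → ℝ) (hy0 : ∀ i, 0 ≤ y i) (hy1 : ∀ i, y i ≤ 1 / 2)
    (S : Finset ι) : ∏ i ∈ S, (1 - y i)⁻¹ ≤ Real.exp (∑ i ∈ S, (y i + y i ^ 2)) := by
  rw [Real.exp_sum]
  refine Finset.prod_le_prod (fun i _ => ?_) fun i _ => h4_inv_one_sub_le_exp (hy0 i) (hy1 i)
  have : 0 < 1 - y i := by linarith [hy1 i]
  positivity

/-- Lower bound for finite Euler products. -/
theorem h4_exp_le_prod (y : ι → ℝ) (hy1 : ∀ i, y i < 1)
    (S : Finset ι) : Real.exp (∑ i ∈ S, y i) ≤ ∏ i ∈ S, (1 - y i)⁻¹ := by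
  rw [Real.exp_sum]
  exact Finset.prod_le_prod (fun i _ => (Real.exp_pos _).le)
    fun i _ => h4_exp_le_inv_one_sub (hy1 i)

/-- **Real Euler product**: if `0 ≤ y i ≤ 1/2` and `∑ y i < ∞`, the monomials are summable,
the Euler product converges to their sum, and
`exp (∑_{i ∈ T} y i) ≤ ∑' k, mon k ≤ exp (∑' (y i + y i ^ 2))` for every finite `T`. -/
theorem h4_real_euler (y : ι → ℝ) (hy0 : ∀ i, 0 ≤ y i) (hy1 : ∀ i, y i ≤ 1 / 2)
    (hsum : Summable y) :
    Summable (h4_mon y) ∧ HasProd (fun i => (1 - y i)⁻¹) (∑' k, h4_mon y k) ∧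
      (∑' k, h4_mon y k ≤ Real.exp (∑' i, (y i + y i ^ 2))) ∧
      ∀ T : Set ι, Real.exp (∑' i : T, y i) ≤ ∑' k, h4_mon y k := by
  have hy1' : ∀ i, y i < 1 := fun i => lt_of_le_of_lt (hy1 i) (by norm_num)
  have hy : ∀ i, ‖y i‖ < 1 := fun i => by rw [Real.norm_of_nonneg (hy0 i)]; exact hy1' i
  have hsq : Summable (fun i => y i + y i ^ 2) := by
    refine hsum.add (Summable.of_nonneg_of_le (fun i => by positivity) (fun i => ?_) hsum)
    have := hy1 i
    nlinarith [hy0 i]
  have hB : ∀ S : Finset ι, ∏ i ∈ S, (1 - y i)⁻¹ ≤ Real.exp (∑' i, (y i + y i ^ 2)) := fun S =>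
    (h4_prod_le_exp y hy0 hy1 S).trans
      (Real.exp_le_exp.mpr (hsq.sum_le_tsum S fun i _ => add_nonneg (hy0 i) (sq_nonneg _)))
  have hs := h4_summable_mon_of_prod_le y hy0 hy1' _ hB
  have hs' : Summable (fun k : ι →₀ ℕ => ‖h4_mon y k‖) :=
    hs.congr fun k => (Real.norm_of_nonneg (h4_mon_nonneg y hy0 k)).symm
  have hP := h4_eulerProduct_hasProd y hy hs'
  refine ⟨hs, hP, ?_, ?_⟩
  · exact le_of_tendsto' hP hB
  · intro T
    have hT : Summable (fun i : T => y i) := hsum.subtype T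
    have hge : ∀ S : Finset ι, ∏ i ∈ S, (1 - y i)⁻¹ ≤ ∑' k, h4_mon y k := by
      intro S
      refine ge_of_tendsto hP ?_
      filter_upwards [eventually_ge_atTop S] with S' hS'
      have hone : ∀ i, 1 ≤ (1 - y i)⁻¹ := fun i => by
        have : 0 < 1 - y i := by linarith [hy1' i]
        rw [one_le_inv₀ this]
        linarith [hy0 i]
      refine Finset.prod_le_prod_of_subset_of_one_le hS'
        (fun i _ => le_trans zero_le_one (hone i)) fun i _ _ => hone i
    have hfin : ∀ S : Finset T, Real.exp (∑ i ∈ S, y i) ≤ ∑' k, h4_mon y k := by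
      intro S
      classical
      have h1 := h4_exp_le_prod y hy1' (S.map (Function.Embedding.subtype _))
      rw [Finset.sum_map] at h1
      exact h1.trans (hge _)
    have hlim : Tendsto (fun S : Finset T => Real.exp (∑ i ∈ S, y i)) atTop
        (𝓝 (Real.exp (∑' i : T, y i))) :=
      (Real.continuous_exp.tendsto _).comp hT.hasSum
    exact le_of_tendsto' hlim hfin

end Real


end Fermat.Agent.S14x.LFN.H4
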